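import Fermat.Agent.S59.H427.NCBridge

/-!
# S59 / N1 (helper427): the cotangent space of a reduced finite `𝒪`-algebra is finite

Let `𝒪` be a domain and `T` a finite `𝒪`-algebra which is reduced, `π : T →ₐ[𝒪] 𝒪` an
augmentation with kernel `𝔭`.

* `ker_aug_mem_minimalPrimes` : `𝔭` is a minimal prime of `T` (incomparability).
* `exists_notMem_mul_eq_zero_of_mem_minimalPrimes` : in a reduced Noetherian ring, a minimal
  prime `P` is killed by some `s ∉ P`.
* `exists_ne_zero_smul_mem_sq` : there is `a ≠ 0` in `𝒪` with `a • 𝔭 ⊆ 𝔭²`.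
* `finite_cot_of_isReduced` : if `𝒪` is a discrete valuation ring with finite residue field,
  then `Φ_T = 𝔭/𝔭²` is finite.
* `congIdeal_ne_bot_of_isReduced` : the congruence ideal `η_T` is nonzero.
* `numEq_of_ci_of_isReduced` : the numerical equality for a reduced complete intersection
  (no finiteness hypothesis).
-/

set_option autoImplicit false
set_option linter.unusedSectionVars false
set_option linter.unusedVariables false
set_option linter.style.haveILetI false

namespace Fermat.Agent.S59.H427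

open IsLocalRing Fermat.Agent.S59.NC

section MinPrime

variable {T : Type*} [CommRing T] [IsNoetherianRing T] [IsReduced T]

/-- In a reduced Noetherian ring, a minimal prime `P` is annihilated by an element outside
`P`. -/
theorem exists_notMem_mul_eq_zero_of_mem_minimalPrimes {P : Ideal T} (hP : P ∈ minimalPrimes T) :
    ∃ s : T, s ∉ P ∧ ∀ x ∈ P, s * x = 0 := by
  classical
  have hfin : (minimalPrimes T).Finite := minimalPrimes.finite_of_isNoetherianRing T
  have hPprime : P.IsPrime := hP.1.1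
  set F : Finset (Ideal T) := hfin.toFinset.erase P with hF
  have hnot : ¬ F.inf id ≤ P := by
    intro h
    obtain ⟨q, hqF, hqP⟩ := hPprime.inf_le'.mp h
    rw [hF, Finset.mem_erase, Set.Finite.mem_toFinset] at hqF
    have hPq : P ≤ q := hP.2 ⟨hqF.2.1.1, bot_le⟩ hqP
    exact hqF.1 (le_antisymm hqP hPq)
  obtain ⟨s, hsQ, hsP⟩ := SetLike.not_le_iff_exists.mp hnot
  refine ⟨s, hsP, fun x hx => ?_⟩
  have hmem : s * x ∈ sInf (minimalPrimes T) := by
    rw [Submodule.mem_sInf]
    intro q hq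
    by_cases hqP : q = P
    · rw [hqP]; exact Ideal.mul_mem_left P s hx
    · have hqF : q ∈ F := by
        rw [hF, Finset.mem_erase, Set.Finite.mem_toFinset]; exact ⟨hqP, hq⟩
      have hle : F.inf id ≤ q := Finset.inf_le hqF
      exact Ideal.mul_mem_right x q (hle hsQ)
  have hrad : sInf (minimalPrimes T) = ⊥ := by
    unfold minimalPrimes
    rw [Ideal.sInf_minimalPrimes]
    exact nilradical_eq_zero T
  rw [hrad] at hmem
  exact hmem

end MinPrime

section Aug

variable {𝒪 : Type*} [CommRing 𝒪] [IsDomain 𝒪]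
variable {T : Type*} [CommRing T] [Algebra 𝒪 T] [Module.Finite 𝒪 T]

/-- The kernel of an augmentation of a finite algebra over a domain is a minimal prime. -/
theorem ker_aug_mem_minimalPrimes (π : T →ₐ[𝒪] 𝒪) : RingHom.ker π ∈ minimalPrimes T := by
  haveI hprime : (RingHom.ker π).IsPrime := RingHom.ker_isPrime π
  refine ⟨⟨hprime, bot_le⟩, ?_⟩
  rintro q ⟨hq, -⟩ hle
  by_contra hne
  obtain ⟨x, hxp, hxq⟩ := SetLike.not_le_iff_exists.mp hne
  haveI := hq
  have hlt := Ideal.comap_lt_comap_of_integral_mem_sdiff (R := 𝒪) hle ⟨hxp, hxq⟩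
    (Algebra.IsIntegral.isIntegral (R := 𝒪) x)
  have hbot : (RingHom.ker π).comap (algebraMap 𝒪 T) = ⊥ := by
    rw [eq_bot_iff]
    intro a ha
    rw [Ideal.mem_comap, RingHom.mem_ker, AlgHom.commutes] at ha
    simpa using ha
  rw [hbot] at hlt
  exact not_lt_bot hlt

variable [IsNoetherianRing T] [IsReduced T]

/-- There is `s ∈ Ann 𝔭` with `π s ≠ 0`. -/
theorem exists_annAug_aug_ne_zero (π : T →ₐ[𝒪] 𝒪) :
    ∃ s : T, s ∈ annAug π ∧ π s ≠ 0 := by
  obtain ⟨s, hsP, hs⟩ :=
    exists_notMem_mul_eq_zero_of_mem_minimalPrimes (ker_aug_mem_minimalPrimes π)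
  exact ⟨s, mem_annAug.mpr fun y hy => hs y hy, fun h => hsP (RingHom.mem_ker.mpr h)⟩

/-- The congruence ideal of a reduced finite augmented algebra over a domain is nonzero. -/
theorem congIdeal_ne_bot_of_isReduced (π : T →ₐ[𝒪] 𝒪) : congIdeal π ≠ ⊥ := by
  obtain ⟨s, hs, hπs⟩ := exists_annAug_aug_ne_zero π
  intro h
  have : π s ∈ congIdeal π := mem_congIdeal.mpr ⟨s, hs, rfl⟩
  rw [h, Ideal.mem_bot] at this
  exact hπs this

/-- There is `a ≠ 0` in `𝒪` with `a • 𝔭 ⊆ 𝔭²`. -/
theorem exists_ne_zero_smul_mem_sq (π : T →ₐ[𝒪] 𝒪) :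
    ∃ a : 𝒪, a ≠ 0 ∧ ∀ x ∈ RingHom.ker π, a • x ∈ (RingHom.ker π) ^ 2 := by
  obtain ⟨s, hs, hπs⟩ := exists_annAug_aug_ne_zero π
  refine ⟨π s, hπs, fun x hx => ?_⟩
  have h0 : s * x = 0 := mem_annAug.mp hs x hx
  have h1 : algebraMap 𝒪 T (π s) - s ∈ RingHom.ker π := by
    rw [RingHom.mem_ker, map_sub, AlgHom.commutes]
    simp
  have h2 : π s • x = (algebraMap 𝒪 T (π s) - s) * x := by
    rw [Algebra.smul_def, sub_mul, h0, sub_zero]
  rw [h2, pow_two]
  exact Ideal.mul_mem_mul h1 hx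

end Aug

section Finite

variable {𝒪 : Type*} [CommRing 𝒪] [IsDomain 𝒪] [IsDiscreteValuationRing 𝒪]
  [Finite (ResidueField 𝒪)]
variable {T : Type*} [CommRing T] [Algebra 𝒪 T] [Module.Finite 𝒪 T] [IsReduced T]

/-- The cotangent space at an augmentation of a reduced finite `𝒪`-algebra is finite. -/
theorem finite_cotangent_of_isReduced (π : T →ₐ[𝒪] 𝒪) : Finite (RingHom.ker π).Cotangent := by
  haveI : IsNoetherianRing T := IsNoetherianRing.of_finite 𝒪 T
  obtain ⟨a, ha0, ha⟩ := exists_ne_zero_smul_mem_sq π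
  set 𝔭 : Ideal T := RingHom.ker π with h𝔭
  -- `a` kills the cotangent space
  have hkill : ∀ y : 𝔭.Cotangent, a • y = 0 := by
    intro y
    obtain ⟨x, rfl⟩ := 𝔭.toCotangent_surjective y
    have h1 : a • 𝔭.toCotangent x = 𝔭.toCotangent (a • x) := by
      rw [← algebraMap_smul T a x, ← algebraMap_smul T a (𝔭.toCotangent x), map_smul]
    rw [h1, Ideal.toCotangent_eq_zero]
    exact ha x.1 x.2
  -- the cotangent space is finitely generated over `𝒪`
  haveI hfinp : Module.Finite 𝒪 𝔭 :=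
    (inferInstance : Module.Finite 𝒪 (𝔭.restrictScalars 𝒪))
  have hfinC : Module.Finite 𝒪 𝔭.Cotangent :=
    Module.Finite.of_surjective (𝔭.toCotangent.restrictScalars 𝒪) 𝔭.toCotangent_surjective
  obtain ⟨n, f, hf⟩ := Module.Finite.exists_fin' 𝒪 𝔭.Cotangent
  haveI : Finite (𝒪 ⧸ Ideal.span {a}) := finite_quotient_span_singleton_of_ne_zero ha0
  let g : (Fin n → 𝒪 ⧸ Ideal.span {a}) → 𝔭.Cotangent := fun c => f fun i => (c i).out
  refine Finite.of_surjective g ?_
  intro y
  obtain ⟨v, rfl⟩ := hf y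
  refine ⟨fun i => Ideal.Quotient.mk _ (v i), ?_⟩
  have hdiff : ∀ i, ∃ w : 𝒪, (Ideal.Quotient.mk (Ideal.span {a}) (v i)).out - v i = a * w := by
    intro i
    have : (Ideal.Quotient.mk (Ideal.span {a}) (v i)).out - v i ∈ Ideal.span {a} := by
      rw [← Ideal.Quotient.eq]
      exact Quotient.out_eq _
    obtain ⟨w, hw⟩ := Ideal.mem_span_singleton'.mp this
    exact ⟨w, by rw [← hw, mul_comm]⟩
  choose w hw using hdiff
  have hv : (fun i => (Ideal.Quotient.mk (Ideal.span {a}) (v i)).out) = v + a • w := by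
    funext i
    rw [Pi.add_apply, Pi.smul_apply, smul_eq_mul, ← hw i]
    ring
  change f (fun i => (Ideal.Quotient.mk (Ideal.span {a}) (v i)).out) = f v
  rw [hv, map_add, map_smul, hkill, add_zero]

/-- The cotangent space at an augmentation of a reduced finite `𝒪`-algebra is finite
(`NC` vocabulary). -/
theorem finite_cot_of_isReduced (π : T →ₐ[𝒪] 𝒪) : Finite (Cot π) :=
  finite_cotangent_of_isReduced π

end Finite

section CI

variable {𝒪 : Type*} [CommRing 𝒪] [IsDomain 𝒪] [IsDiscreteValuationRing 𝒪]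
  [IsAdicComplete (maximalIdeal 𝒪) 𝒪] [Finite (ResidueField 𝒪)]
variable {T : Type*} [CommRing T] [IsLocalRing T] [Algebra 𝒪 T] [Module.Finite 𝒪 T]
  [Module.Free 𝒪 T] [IsReduced T]
variable {R : Type*} [CommRing R] [Algebra 𝒪 R]

/-- **Numerical equality for a reduced complete intersection**: if `φ : R → T` is bijective,
`R = 𝒪⟦X₁,…,Xₙ⟧ / (f₁,…,fₙ)` and `T` is reduced, finite and free over `𝒪`, then `Φ_R` is finite
and `#Φ_R = #(𝒪/η_T)`. -/
theorem numEq_of_ci_of_isReduced (φ : R →ₐ[𝒪] T) (hφ : Function.Bijective φ) (π : T →ₐ[𝒪] 𝒪)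
    {n : ℕ} (γ : MvPowerSeries (Fin n) 𝒪 →ₐ[𝒪] R) (hγ : Function.Surjective γ)
    (f : Fin n → MvPowerSeries (Fin n) 𝒪) (hker : RingHom.ker γ = Ideal.span (Set.range f)) :
    Finite (Cot (π.comp φ)) ∧ Nat.card (Cot (π.comp φ)) = Nat.card (𝒪 ⧸ congIdeal π) := by
  haveI : Finite (Cot π) := finite_cot_of_isReduced π
  exact numEq_of_ci φ hφ π γ hγ f hker

end CI

end Fermat.Agent.S59.H427
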