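import Fermat.Agent.S59.H427.TateCentered

/-!
# S59 / N1 (helper427): Tate's formula for complete intersections (centered presentation)

`card_cotangent_eq_of_ci_centered`: `O` a DVR with finite residue field, `T` a finite free local
`O`-algebra with augmentation `π`, `T = O⟦X₁,…,Xₙ⟧ / (f₁,…,fₙ)` with `π (ψ Xᵢ) = 0`, and
`Φ = ker π / (ker π)²` finite.  Then `η ≠ 0` and `#Φ = #(O/η)`.
-/

set_option autoImplicit false
set_option linter.unusedSectionVars false
set_option linter.unusedVariables false
set_option linter.style.haveILetI false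

namespace Fermat.Agent.S59.H427

open IsLocalRing MvPowerSeries Fermat.Agent.S59.H67

section FiniteQuot

variable {O : Type*} [CommRing O] [IsDomain O] [IsDiscreteValuationRing O]
  [Finite (ResidueField O)]

/-- In a DVR with finite residue field, `O / (d)` is finite for `d ≠ 0`. -/
theorem finite_quotient_span_singleton_of_ne_zero {d : O} (hd : d ≠ 0) :
    Finite (O ⧸ Ideal.span {d}) := by
  obtain ⟨ϖ, hϖ⟩ := IsDiscreteValuationRing.exists_irreducible O
  obtain ⟨k, hk⟩ := IsDiscreteValuationRing.ideal_eq_span_pow_irreducible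
    (s := Ideal.span {d}) (by simpa using hd) hϖ
  have hmax : maximalIdeal O = Ideal.span {ϖ} :=
    (IsDiscreteValuationRing.irreducible_iff_uniformizer ϖ).mp hϖ
  rw [hk, ← Ideal.span_singleton_pow, ← hmax]
  haveI : Finite (O ⧸ maximalIdeal O) := inferInstanceAs (Finite (ResidueField O))
  exact Ideal.finite_quotient_pow (IsNoetherian.noetherian _) k

end FiniteQuot

section Cot

variable {O : Type*} [CommRing O] {T : Type*} [CommRing T] [Algebra O T]

/-- On the cotangent space of an augmentation ideal, `T` acts through `π`. -/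
theorem smul_cotangent_eq_aug (π : T →ₐ[O] O) (s : T) (y : (RingHom.ker π).Cotangent) :
    s • y = π s • y := by
  have h1 : Ideal.Quotient.mk (RingHom.ker π) s =
      Ideal.Quotient.mk _ (algebraMap O T (π s)) := by
    rw [Ideal.Quotient.eq, RingHom.mem_ker, map_sub, sub_eq_zero]
    exact (π.commutes (π s)).symm
  rw [← algebraMap_smul T (π s) y]
  have h2 : ∀ r : T, r • y = Ideal.Quotient.mk (RingHom.ker π) r • y := fun r => by
    rw [← Ideal.Quotient.algebraMap_eq, algebraMap_smul]
  rw [h2 s, h2 (algebraMap O T (π s)), h1]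

/-- The class of `∑ sⱼ xⱼ` in the cotangent space is `∑ π(sⱼ) [xⱼ]`. -/
theorem toCotangent_sum_mul_eq (π : T →ₐ[O] O) {n : ℕ} (s : Fin n → T)
    (x : Fin n → RingHom.ker π) (t : RingHom.ker π) (ht : (t : T) = ∑ j, s j * (x j : T)) :
    (RingHom.ker π).toCotangent t = ∑ j, π (s j) • (RingHom.ker π).toCotangent (x j) := by
  have h1 : t = ∑ j, s j • x j := by
    apply Subtype.ext
    rw [ht, Submodule.coe_sum]
    rfl
  rw [h1, map_sum]
  refine Finset.sum_congr rfl fun j _ => ?_
  rw [map_smul, smul_cotangent_eq_aug]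

end Cot

section Centered

variable {O : Type*} [CommRing O] [IsDomain O] [IsDiscreteValuationRing O]
  [Finite (ResidueField O)]
variable {T : Type*} [CommRing T] [IsLocalRing T] [Algebra O T] [Module.Finite O T]
  [Module.Free O T]

/-- **Tate's formula** for a centered complete-intersection presentation. -/
theorem card_cotangent_eq_of_ci_centered
    (π : T →ₐ[O] O) {n : ℕ} (ψ : MvPowerSeries (Fin n) O →ₐ[O] T) (hψ : Function.Surjective ψ)
    (f : Fin n → MvPowerSeries (Fin n) O) (hker : RingHom.ker ψ = Ideal.span (Set.range f))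
    (hcent : ∀ i, π (ψ (X i)) = 0)
    [Finite (RingHom.ker π).Cotangent] :
    etaIdeal π ≠ ⊥ ∧ Nat.card (RingHom.ker π).Cotangent = Nat.card (O ⧸ etaIdeal π) := by
  classical
  obtain ⟨hη, hle⟩ := Fermat.Agent.S59.H360.card_quot_etaIdeal_le π
  refine ⟨hη, le_antisymm ?_ hle⟩
  -- the relations have zero constant term
  have hfker : ∀ i, ψ (f i) = 0 := fun i => by
    have : f i ∈ RingHom.ker ψ := by rw [hker]; exact Ideal.subset_span ⟨i, rfl⟩
    exact RingHom.mem_ker.mp this
  have hf0 : ∀ i, constantCoeff (f i) = 0 := by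
    intro i
    rw [← aug_eq_constantCoeff π ψ hcent (f i), hfker i, map_zero]
  choose G' hG' using fun i => exists_sum_mul_X_of_constantCoeff_eq_zero (f i) (hf0 i)
  let G : Matrix (Fin n) (Fin n) (MvPowerSeries (Fin n) O) := Matrix.of G'
  have hG : ∀ i, f i = ∑ j, G i j * X j := hG'
  obtain ⟨ϖ, hϖ⟩ := IsDiscreteValuationRing.exists_irreducible O
  have hmax : maximalIdeal O = Ideal.span {ϖ} :=
    (IsDiscreteValuationRing.irreducible_iff_uniformizer ϖ).mp hϖ
  -- nilpotence mod ϖ
  obtain ⟨a, ha⟩ := exists_maximalIdeal_pow_le_map (O := O) (T := T)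
  have hkerπ : RingHom.ker π ≤ maximalIdeal T :=
    IsLocalRing.le_maximalIdeal (RingHom.ker_ne_top _)
  have hmem : ∀ g : MvPowerSeries (Fin n) O, (∃ t : T, ψ g = ϖ • t) →
      g ∈ Ideal.span (Set.range f) ⊔ Ideal.span {(C ϖ : MvPowerSeries (Fin n) O)} := by
    rintro g ⟨t, ht⟩
    obtain ⟨g', rfl⟩ := hψ t
    have h1 : g - C ϖ * g' ∈ RingHom.ker ψ := by
      rw [RingHom.mem_ker, map_sub, map_mul, ht, sub_eq_zero, Algebra.smul_def]
      congr 1
      exact (ψ.commutes ϖ).symm
    rw [hker] at h1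
    have h2 : g = (g - C ϖ * g') + g' * C ϖ := by ring
    rw [h2]
    exact Submodule.add_mem_sup h1 (Ideal.mul_mem_left _ _ (Ideal.subset_span rfl))
  have hprim : ∀ i, (X i : MvPowerSeries (Fin n) O) ^ a ∈
      Ideal.span (Set.range f) ⊔ Ideal.span {(C ϖ : MvPowerSeries (Fin n) O)} := by
    intro i
    apply hmem
    have h1 : ψ (X i) ^ a ∈ maximalIdeal T ^ a :=
      Ideal.pow_mem_pow (hkerπ (RingHom.mem_ker.mpr (hcent i))) a
    have h2 := ha h1
    rw [hmax, Ideal.map_span, Set.image_singleton, Ideal.mem_span_singleton'] at h2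
    obtain ⟨t, ht⟩ := h2
    exact ⟨t, by rw [map_pow, ← ht, Algebra.smul_def, mul_comm]⟩
  have hdet := det_notMem_span_sup ϖ hϖ.not_isUnit f G hG a hprim
  set θ : T := ψ G.det with hθdef
  have hθann : θ ∈ (RingHom.ker π).annihilator := by
    rw [ker_aug_eq_span π ψ hψ hcent, Submodule.mem_annihilator_span]
    rintro ⟨_, j, rfl⟩
    have h1 := det_mul_mem_span_mulVec G (fun k => (X k : MvPowerSeries (Fin n) O)) j
    have h2 : (fun i => ∑ k, G i k * (X k : MvPowerSeries (Fin n) O)) = f := by
      funext i; exact (hG i).symm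
    rw [h2, ← hker, RingHom.mem_ker, map_mul] at h1
    exact h1
  have hθprim : ∀ t : T, θ ≠ ϖ • t := fun t ht => hdet (hmem _ ⟨t, ht⟩)
  obtain ⟨hθ0, hηeq⟩ := etaIdeal_eq_span_of_not_dvd π hη hϖ hθann hθprim
  -- the Jacobian matrix
  let ρ : MvPowerSeries (Fin n) O →+* O := (π : T →+* O).comp (ψ : MvPowerSeries (Fin n) O →+* T)
  let J : Matrix (Fin n) (Fin n) O := ρ.mapMatrix G
  have hJ : ∀ i j, J i j = π (ψ (G i j)) := fun i j => rfl
  have hJdet : J.det = π θ := (RingHom.map_det ρ G).symm
  -- the surjection onto the cotangent space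
  let x : Fin n → RingHom.ker π := fun j => ⟨ψ (X j), RingHom.mem_ker.mpr (hcent j)⟩
  let Λ : (Fin n → O) →ₗ[O] (RingHom.ker π).Cotangent :=
    Fintype.linearCombination O (fun j => (RingHom.ker π).toCotangent (x j))
  have hΛ : ∀ c, Λ c = ∑ j, c j • (RingHom.ker π).toCotangent (x j) := fun c =>
    Fintype.linearCombination_apply O _ c
  have hΛsurj : Function.Surjective Λ := by
    intro y
    obtain ⟨t, rfl⟩ := (RingHom.ker π).toCotangent_surjective y
    obtain ⟨g, hg⟩ := hψ (t : T)
    have h0 : constantCoeff g = 0 := by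
      rw [← aug_eq_constantCoeff π ψ hcent g, hg]
      exact RingHom.mem_ker.mp t.2
    obtain ⟨h, hh⟩ := exists_sum_mul_X_of_constantCoeff_eq_zero g h0
    refine ⟨fun j => π (ψ (h j)), ?_⟩
    rw [hΛ]
    refine (toCotangent_sum_mul_eq π (fun j => ψ (h j)) x t ?_).symm
    rw [← hg, hh, map_sum]
    refine Finset.sum_congr rfl fun j _ => ?_
    rw [map_mul]
  have hrow : ∀ i, ∑ j, J i j • (RingHom.ker π).toCotangent (x j) = 0 := by
    intro i
    have h1 := toCotangent_sum_mul_eq π (fun j => ψ (G i j)) x 0 (by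
      rw [Submodule.coe_zero, ← hfker i, hG i, map_sum]
      refine Finset.sum_congr rfl fun j _ => ?_
      rw [map_mul])
    rw [map_zero] at h1
    exact h1.symm
  have hΛker : LinearMap.range (J.transpose.mulVecLin) ≤ LinearMap.ker Λ := by
    rintro _ ⟨v, rfl⟩
    rw [LinearMap.mem_ker, hΛ]
    have h1 : ∀ j, (J.transpose.mulVecLin v) j = ∑ i, v i * J i j := fun j => by
      rw [Matrix.mulVecLin_apply, Matrix.mulVec, dotProduct]
      refine Finset.sum_congr rfl fun i _ => ?_
      rw [Matrix.transpose_apply, mul_comm]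
    simp_rw [h1, Finset.sum_smul, mul_smul]
    rw [Finset.sum_comm]
    refine Finset.sum_eq_zero fun i _ => ?_
    rw [← Finset.smul_sum, hrow i, smul_zero]
  -- counting
  have hcardJ := card_quotient_range_mulVecLin J.transpose (by rwa [Matrix.det_transpose, hJdet])
  rw [Matrix.det_transpose, hJdet, ← hηeq] at hcardJ
  haveI hfinη : Finite (O ⧸ etaIdeal π) := by
    rw [hηeq]; exact finite_quotient_span_singleton_of_ne_zero hθ0
  haveI hfinQ : Finite ((Fin n → O) ⧸ LinearMap.range J.transpose.mulVecLin) := by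
    apply Nat.finite_of_card_ne_zero
    rw [hcardJ]
    exact Nat.card_pos.ne'
  rw [← hcardJ]
  refine Nat.card_le_card_of_surjective
    ((LinearMap.range J.transpose.mulVecLin).liftQ Λ hΛker) ?_
  intro y
  obtain ⟨c, hc⟩ := hΛsurj y
  exact ⟨Submodule.Quotient.mk c, by rw [Submodule.liftQ_apply]; exact hc⟩

end Centered

end Fermat.Agent.S59.H427
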