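import Fermat.Agent.S59.H427.TateFormula

/-!
# S59 / N1 (helper427): Tate's formula for complete intersections

`card_cotangent_eq_of_ci` (target **E** of the N1 skeleton): `O` a complete DVR with finite residue
field, `T` a finite free local `O`-algebra with augmentation `π : T → O`, and
`T = O⟦X₁,…,Xₙ⟧ / (f₁,…,fₙ)`.  If `Φ = ker π / (ker π)²` is finite, then `η = π (Ann ker π) ≠ 0`
and `#Φ = #(O/η)`.

The presentation is re-centered by the translation automorphism `Xᵢ ↦ Xᵢ - cᵢ` of `O⟦X⟧`,
`cᵢ = π (ψ Xᵢ) ∈ 𝔪_O`, and then `card_cotangent_eq_of_ci_centered` applies.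
-/

set_option autoImplicit false
set_option linter.unusedSectionVars false
set_option linter.unusedVariables false
set_option linter.style.haveILetI false

namespace Fermat.Agent.S59.H427

open IsLocalRing MvPowerSeries Fermat.Agent.S59.H67 Fermat.Agent.S53.H596

section Translate

variable {O : Type*} [CommRing O] [IsLocalRing O] [IsNoetherianRing O]
  [IsAdicComplete (maximalIdeal O) O] {n : ℕ}

/-- The translation `Xᵢ ↦ Xᵢ + cᵢ` of `O⟦X⟧` for `cᵢ ∈ 𝔪_O`. -/
noncomputable def translateAlgHom (c : Fin n → O) (hc : ∀ i, c i ∈ maximalIdeal O) :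
    MvPowerSeries (Fin n) O →ₐ[O] MvPowerSeries (Fin n) O :=
  haveI := isAdicComplete_mvPowerSeries (σ := Fin n) (R := O)
  evalCNL (maximalIdeal (MvPowerSeries (Fin n) O)) (fun i => X i + C (c i))
    (fun i => Ideal.add_mem _ (X_mem_maximalIdeal_mvPowerSeries i)
      (C_mem_maximalIdeal_mvPowerSeries (hc i)))

theorem translateAlgHom_X (c : Fin n → O) (hc : ∀ i, c i ∈ maximalIdeal O) (i : Fin n) :
    translateAlgHom c hc (X i) = X i + C (c i) := by
  haveI := isAdicComplete_mvPowerSeries (σ := Fin n) (R := O)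
  exact evalCNL_X _ _ _ i

theorem translateAlgHom_comp_neg (c : Fin n → O) (hc : ∀ i, c i ∈ maximalIdeal O) :
    (translateAlgHom c hc).comp
      (translateAlgHom (fun i => - c i) (fun i => neg_mem (hc i))) = AlgHom.id O _ := by
  haveI := isAdicComplete_mvPowerSeries (σ := Fin n) (R := O)
  refine algHom_ext_of_X (maximalIdeal (MvPowerSeries (Fin n) O)) ?_ ?_
  · intro i
    rw [AlgHom.comp_apply, translateAlgHom_X, map_add, translateAlgHom_X]
    have h1 : (C (-c i) : MvPowerSeries (Fin n) O) = algebraMap O _ (-c i) := rfl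
    rw [h1, AlgHom.commutes]
    refine Ideal.add_mem _ (Ideal.add_mem _ (X_mem_maximalIdeal_mvPowerSeries i)
      (C_mem_maximalIdeal_mvPowerSeries (hc i))) ?_
    exact C_mem_maximalIdeal_mvPowerSeries (neg_mem (hc i))
  · intro i
    rw [AlgHom.comp_apply, translateAlgHom_X, map_add, translateAlgHom_X]
    have h1 : (C (-c i) : MvPowerSeries (Fin n) O) = algebraMap O _ (-c i) := rfl
    rw [h1, AlgHom.commutes, ← h1, AlgHom.id_apply, map_neg]
    ring

/-- The translation automorphism `Xᵢ ↦ Xᵢ + cᵢ`. -/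
noncomputable def translateAlgEquiv (c : Fin n → O) (hc : ∀ i, c i ∈ maximalIdeal O) :
    MvPowerSeries (Fin n) O ≃ₐ[O] MvPowerSeries (Fin n) O :=
  AlgEquiv.ofAlgHom (translateAlgHom c hc)
    (translateAlgHom (fun i => - c i) (fun i => neg_mem (hc i)))
    (translateAlgHom_comp_neg c hc)
    (by
      have := translateAlgHom_comp_neg (fun i => - c i) (fun i => neg_mem (hc i))
      simpa only [neg_neg] using this)

theorem translateAlgEquiv_symm_X (c : Fin n → O) (hc : ∀ i, c i ∈ maximalIdeal O) (i : Fin n) :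
    (translateAlgEquiv c hc).symm (X i) = X i - C (c i) := by
  show translateAlgHom (fun i => - c i) (fun i => neg_mem (hc i)) (X i) = _
  rw [translateAlgHom_X, map_neg, sub_eq_add_neg]

end Translate

section Main

variable {O : Type*} [CommRing O] [IsDomain O] [IsDiscreteValuationRing O]
  [IsAdicComplete (maximalIdeal O) O] [Finite (ResidueField O)]
variable {T : Type*} [CommRing T] [IsLocalRing T] [Algebra O T] [Module.Finite O T]
  [Module.Free O T]

/-- **E. Tate's formula** for complete intersections: `#Φ_T = #(O/η_T)`. -/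
theorem card_cotangent_eq_of_ci
    (π : T →ₐ[O] O) {n : ℕ} (ψ : MvPowerSeries (Fin n) O →ₐ[O] T) (hψ : Function.Surjective ψ)
    (f : Fin n → MvPowerSeries (Fin n) O) (hker : RingHom.ker ψ = Ideal.span (Set.range f))
    [Finite (RingHom.ker π).Cotangent] :
    etaIdeal π ≠ ⊥ ∧ Nat.card (RingHom.ker π).Cotangent = Nat.card (O ⧸ etaIdeal π) := by
  classical
  -- the centre
  set c : Fin n → O := fun i => π (ψ (X i)) with hcdef
  have hc : ∀ i, c i ∈ maximalIdeal O := by
    intro i
    by_contra hu
    rw [mem_maximalIdeal, mem_nonunits_iff, not_not] at hu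
    have h1 : IsUnit ((X i : MvPowerSeries (Fin n) O) - C (c i)) := by
      rw [MvPowerSeries.isUnit_iff_constantCoeff, map_sub, constantCoeff_X, constantCoeff_C,
        zero_sub]
      exact hu.neg
    have h2 : IsUnit (π (ψ ((X i : MvPowerSeries (Fin n) O) - C (c i)))) := (h1.map ψ).map π
    have h3 : π (ψ ((X i : MvPowerSeries (Fin n) O) - C (c i))) = 0 := by
      have h4 : (C (c i) : MvPowerSeries (Fin n) O) = algebraMap O _ (c i) := rfl
      rw [map_sub, map_sub, h4, AlgHom.commutes, AlgHom.commutes, sub_eq_zero]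
      rfl
    rw [h3] at h2
    exact not_isUnit_zero h2
  set e := translateAlgEquiv c hc with hedef
  set ψ' : MvPowerSeries (Fin n) O →ₐ[O] T := ψ.comp (e.symm : _ →ₐ[O] _) with hψ'
  have hψ'surj : Function.Surjective ψ' := hψ.comp e.symm.surjective
  have hcent : ∀ i, π (ψ' (X i)) = 0 := by
    intro i
    show π (ψ (e.symm (X i))) = 0
    rw [hedef, translateAlgEquiv_symm_X]
    have h4 : (C (c i) : MvPowerSeries (Fin n) O) = algebraMap O _ (c i) := rfl
    rw [map_sub, map_sub, h4, AlgHom.commutes, AlgHom.commutes, sub_eq_zero]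
    rfl
  have key : ∀ (τ : MvPowerSeries (Fin n) O →ₐ[O] MvPowerSeries (Fin n) O)
      (S : Set (MvPowerSeries (Fin n) O)) (x : MvPowerSeries (Fin n) O),
      x ∈ Ideal.span S → τ x ∈ Ideal.span (τ '' S) := by
    intro τ S x hx
    have := Ideal.mem_map_of_mem (τ : MvPowerSeries (Fin n) O →+* MvPowerSeries (Fin n) O) hx
    rwa [Ideal.map_span] at this
  have hker' : RingHom.ker ψ' = Ideal.span (Set.range fun i => e (f i)) := by
    ext g
    rw [RingHom.mem_ker]
    show ψ (e.symm g) = 0 ↔ _
    rw [← RingHom.mem_ker, hker]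
    constructor
    · intro h
      have h1 := key (e : _ →ₐ[O] _) _ _ h
      rw [← Set.range_comp] at h1
      have h2 : (e : MvPowerSeries (Fin n) O →ₐ[O] MvPowerSeries (Fin n) O) (e.symm g) = g :=
        e.apply_symm_apply g
      rw [h2] at h1
      exact h1
    · intro h
      have h1 := key (e.symm : _ →ₐ[O] _) _ _ h
      rw [← Set.range_comp] at h1
      have h2 : ((e.symm : MvPowerSeries (Fin n) O →ₐ[O] MvPowerSeries (Fin n) O) ∘
          fun i => e (f i)) = f := by
        funext i
        exact e.symm_apply_apply (f i)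
      rw [h2] at h1
      exact h1
  exact card_cotangent_eq_of_ci_centered π ψ' hψ'surj (fun i => e (f i)) hker' hcent

end Main

end Fermat.Agent.S59.H427
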