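import Fermat.Agent.S59.H427.CriterionII
import Fermat.Agent.S59.H427.TateRecenter
import Fermat.Agent.S59.NC.Defs

/-!
# S59 / N1 (helper427): the numerical criterion package in the vocabulary of `S59/NC/Defs.lean`

The induction invariant of `Fermat.Agent.S59.Arch.RTIso` is
`Finite (NC.Cot (π.comp φ)) ∧ Nat.card (NC.Cot (π.comp φ)) = Nat.card (𝒪 ⧸ NC.congIdeal π)`.

* `congIdeal_eq_etaIdeal` : `NC.congIdeal π = H67.etaIdeal π`.
* `numerical_criterion_full_NC` : the induction step (`#Φ_R ≤ #(𝒪/η_T)` ⇒ `φ` bijective and the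
  invariant).
* `card_cot_eq_of_ci_NC` : Tate's formula for a complete intersection.
* `card_cot_comp_eq_of_bijective` : transport of `Φ` along an isomorphism.
* `numEq_of_ci` : the invariant at the minimal level, from `φ : R ≃ T` and a presentation
  `R = 𝒪⟦X₁,…,Xₙ⟧ / (f₁,…,fₙ)` (the shape of the conclusion of the frozen S57).
* `criterionII_NC` : the module form (Diamond, DDT).
-/

set_option autoImplicit false
set_option linter.unusedSectionVars false
set_option linter.unusedVariables false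
set_option linter.style.haveILetI false

namespace Fermat.Agent.S59.H427

open IsLocalRing Fermat.Agent.S59.NC Fermat.Agent.S59.H67

universe u v w x

section Vocab

variable {𝒪 : Type*} [CommRing 𝒪] {A : Type*} [CommRing A] [Algebra 𝒪 A]

theorem congIdeal_eq_etaIdeal (π : A →ₐ[𝒪] 𝒪) : congIdeal π = etaIdeal π := rfl

end Vocab

section Step

variable {𝒪 : Type u} [CommRing 𝒪] [IsDomain 𝒪] [IsDiscreteValuationRing 𝒪]
variable {R : Type w} [CommRing R] [Algebra 𝒪 R] [IsLocalRing R] [IsNoetherianRing R]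
variable {T : Type v} [CommRing T] [Algebra 𝒪 T] [Module.Free 𝒪 T] [Module.Finite 𝒪 T]

/-- **Numerical criterion** (induction step of `RTIso`): if `Φ_R` is finite and
`#Φ_R ≤ #(𝒪/η_T)`, then `φ` is bijective and `#Φ_R = #(𝒪/η_T)`. -/
theorem numerical_criterion_full_NC (φ : R →ₐ[𝒪] T) (hφ : Function.Surjective φ) (π : T →ₐ[𝒪] 𝒪)
    [Finite (Cot (π.comp φ))]
    (hcard : Nat.card (Cot (π.comp φ)) ≤ Nat.card (𝒪 ⧸ congIdeal π)) :
    Function.Bijective φ ∧ Nat.card (Cot (π.comp φ)) = Nat.card (𝒪 ⧸ congIdeal π) := by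
  have hfin : Finite (RingHom.ker ((π.comp φ : R →ₐ[𝒪] 𝒪) : R →+* 𝒪)).Cotangent :=
    ‹Finite (Cot (π.comp φ))›
  exact numerical_criterion_full φ hφ π hcard

end Step

section Transport

variable {𝒪 : Type*} [CommRing 𝒪]
variable {R : Type*} [CommRing R] [Algebra 𝒪 R]
variable {T : Type*} [CommRing T] [Algebra 𝒪 T]

/-- The map on cotangent spaces induced by an isomorphism is bijective. -/
theorem exists_cotangent_equiv_of_bijective (φ : R →ₐ[𝒪] T) (hφ : Function.Bijective φ)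
    (π : T →ₐ[𝒪] 𝒪) :
    ∃ e : (RingHom.ker (π.comp φ)).Cotangent →ₗ[𝒪] (RingHom.ker π).Cotangent,
      Function.Bijective e := by
  set 𝔭R : Ideal R := RingHom.ker (π.comp φ) with h𝔭R
  set 𝔭T : Ideal T := RingHom.ker π with h𝔭T
  have hle : 𝔭R ≤ 𝔭T.comap φ := fun r hr => hr
  let mapCot : 𝔭R.Cotangent →ₗ[𝒪] 𝔭T.Cotangent := Ideal.mapCotangent 𝔭R 𝔭T φ hle
  have hmapCot : ∀ r : 𝔭R, mapCot (𝔭R.toCotangent r) = 𝔭T.toCotangent ⟨φ r, hle r.2⟩ :=
    fun r => Ideal.mapCotangent_toCotangent 𝔭R 𝔭T φ hle r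
  refine ⟨mapCot, ?_, ?_⟩
  · rw [← LinearMap.ker_eq_bot, LinearMap.ker_eq_bot']
    intro y hy
    obtain ⟨r, rfl⟩ := 𝔭R.toCotangent_surjective y
    rw [hmapCot, Ideal.toCotangent_eq_zero] at hy
    rw [Ideal.toCotangent_eq_zero]
    have hmap : Ideal.map (φ : R →+* T) 𝔭R = 𝔭T := by
      have h1 : 𝔭R = Ideal.comap (φ : R →+* T) 𝔭T := rfl
      rw [h1]
      exact Ideal.map_comap_of_surjective _ hφ.2 _
    have h2 : φ (r : R) ∈ Ideal.map (φ : R →+* T) (𝔭R ^ 2) := by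
      rw [Ideal.map_pow, hmap]
      exact hy
    obtain ⟨r', hr', hrr'⟩ := (Ideal.mem_map_iff_of_surjective (φ : R →+* T) hφ.2).mp h2
    have : r' = (r : R) := hφ.1 hrr'
    rw [← this]
    exact hr'
  · intro y
    obtain ⟨⟨t, ht⟩, rfl⟩ := 𝔭T.toCotangent_surjective y
    obtain ⟨r, rfl⟩ := hφ.2 t
    exact ⟨𝔭R.toCotangent ⟨r, ht⟩, hmapCot _⟩

theorem card_cotangent_comp_eq_of_bijective (φ : R →ₐ[𝒪] T) (hφ : Function.Bijective φ)
    (π : T →ₐ[𝒪] 𝒪) :
    Nat.card (RingHom.ker (π.comp φ)).Cotangent = Nat.card (RingHom.ker π).Cotangent := by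
  obtain ⟨e, he⟩ := exists_cotangent_equiv_of_bijective φ hφ π
  exact Nat.card_eq_of_bijective e he

theorem card_cot_comp_eq_of_bijective (φ : R →ₐ[𝒪] T) (hφ : Function.Bijective φ)
    (π : T →ₐ[𝒪] 𝒪) : Nat.card (Cot (π.comp φ)) = Nat.card (Cot π) :=
  card_cotangent_comp_eq_of_bijective φ hφ π

theorem finite_cot_comp_of_bijective (φ : R →ₐ[𝒪] T) (hφ : Function.Bijective φ)
    (π : T →ₐ[𝒪] 𝒪) [Finite (Cot π)] : Finite (Cot (π.comp φ)) := by
  obtain ⟨e, he⟩ := exists_cotangent_equiv_of_bijective φ hφ π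
  have hfin : Finite (RingHom.ker π).Cotangent := ‹Finite (Cot π)›
  exact (Finite.of_injective e he.1 : Finite (RingHom.ker (π.comp φ)).Cotangent)

theorem finite_cot_of_bijective (φ : R →ₐ[𝒪] T) (hφ : Function.Bijective φ)
    (π : T →ₐ[𝒪] 𝒪) [Finite (Cot (π.comp φ))] : Finite (Cot π) := by
  obtain ⟨e, he⟩ := exists_cotangent_equiv_of_bijective φ hφ π
  have hfin : Finite (RingHom.ker (π.comp φ)).Cotangent := ‹Finite (Cot (π.comp φ))›
  exact (Finite.of_surjective e he.2 : Finite (RingHom.ker π).Cotangent)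

end Transport

section Tate

variable {𝒪 : Type*} [CommRing 𝒪] [IsDomain 𝒪] [IsDiscreteValuationRing 𝒪]
  [IsAdicComplete (maximalIdeal 𝒪) 𝒪] [Finite (ResidueField 𝒪)]
variable {T : Type*} [CommRing T] [IsLocalRing T] [Algebra 𝒪 T] [Module.Finite 𝒪 T]
  [Module.Free 𝒪 T]

/-- **Tate's formula** for complete intersections, `NC` vocabulary. -/
theorem card_cot_eq_of_ci_NC (π : T →ₐ[𝒪] 𝒪) {n : ℕ}
    (ψ : MvPowerSeries (Fin n) 𝒪 →ₐ[𝒪] T) (hψ : Function.Surjective ψ)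
    (f : Fin n → MvPowerSeries (Fin n) 𝒪) (hker : RingHom.ker ψ = Ideal.span (Set.range f))
    [Finite (Cot π)] :
    congIdeal π ≠ ⊥ ∧ Nat.card (Cot π) = Nat.card (𝒪 ⧸ congIdeal π) := by
  have hfin : Finite (RingHom.ker π).Cotangent := ‹Finite (Cot π)›
  exact card_cotangent_eq_of_ci π ψ hψ f hker

variable {R : Type*} [CommRing R] [Algebra 𝒪 R]

/-- **The invariant of `RTIso` at the minimal level**: if `φ : R → T` is bijective and
`R = 𝒪⟦X₁,…,Xₙ⟧ / (f₁,…,fₙ)`, then `#Φ_R = #(𝒪/η_T)` (given that `Φ_T` is finite). -/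
theorem numEq_of_ci (φ : R →ₐ[𝒪] T) (hφ : Function.Bijective φ) (π : T →ₐ[𝒪] 𝒪) {n : ℕ}
    (γ : MvPowerSeries (Fin n) 𝒪 →ₐ[𝒪] R) (hγ : Function.Surjective γ)
    (f : Fin n → MvPowerSeries (Fin n) 𝒪) (hker : RingHom.ker γ = Ideal.span (Set.range f))
    [Finite (Cot π)] :
    Finite (Cot (π.comp φ)) ∧ Nat.card (Cot (π.comp φ)) = Nat.card (𝒪 ⧸ congIdeal π) := by
  have hker' : RingHom.ker (φ.comp γ) = Ideal.span (Set.range f) := by
    rw [← hker]
    ext g
    rw [RingHom.mem_ker, RingHom.mem_ker, AlgHom.comp_apply]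
    constructor
    · intro h
      exact hφ.1 (h.trans (map_zero φ).symm)
    · intro h
      rw [h, map_zero]
  obtain ⟨-, h2⟩ := card_cot_eq_of_ci_NC π (φ.comp γ) (hφ.2.comp hγ) f hker'
  exact ⟨finite_cot_comp_of_bijective φ hφ π, (card_cot_comp_eq_of_bijective φ hφ π).trans h2⟩

end Tate

section ModuleForm

variable {𝒪 : Type u} [CommRing 𝒪] [IsDomain 𝒪] [IsDiscreteValuationRing 𝒪]
  [Finite (ResidueField 𝒪)]
variable {T : Type v} [CommRing T] [Algebra 𝒪 T] [Module.Free 𝒪 T] [Module.Finite 𝒪 T]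
variable (M : Type x) [AddCommGroup M] [Module 𝒪 M] [Module T M]
  [IsScalarTower 𝒪 T M] [Module.Free 𝒪 M] [Module.Finite 𝒪 M]
variable {R : Type w} [CommRing R] [Algebra 𝒪 R] [IsLocalRing R] [IsNoetherianRing R]

/-- **Criterion II** (module form of the numerical criterion), `NC` vocabulary. -/
theorem criterionII_NC (φ : R →ₐ[𝒪] T) (hφ : Function.Surjective φ) (π : T →ₐ[𝒪] 𝒪)
    [Finite (Cot (π.comp φ))]
    (hd : 0 < Module.finrank 𝒪 (augTorsion π M))
    (hrank : Module.finrank 𝒪 M ≤ Module.finrank 𝒪 (augTorsion π M) * Module.finrank 𝒪 T)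
    (hcard : Nat.card (Cot (π.comp φ)) ^ Module.finrank 𝒪 (augTorsion π M) ≤
      Nat.card (OmegaMod π M)) :
    Function.Bijective φ ∧
      (∃ m : Fin (Module.finrank 𝒪 (augTorsion π M)) → M,
        Function.Bijective (Fintype.linearCombination T m)) ∧
      Nat.card (Cot (π.comp φ)) = Nat.card (𝒪 ⧸ congIdeal π) ∧
      Nat.card (OmegaMod π M) =
        Nat.card (Cot (π.comp φ)) ^ Module.finrank 𝒪 (augTorsion π M) := by
  have hfin : Finite (RingHom.ker (π.comp φ)).Cotangent := ‹Finite (Cot (π.comp φ))›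
  exact criterionII M φ hφ π hd hrank hcard

end ModuleForm

end Fermat.Agent.S59.H427
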