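import Fermat.Agent.S59.H427.Deg

/-!
# S59 / N1 (helper427): the box basis of `A[X] / (X_i^(m+1) + h_i)`

For `f i = X i ^ (m+1) + h i` with `totalDegree (h i) ≤ m`, the monomials with all exponents `≤ m`
("box monomials") form a basis of `A[X] / (f)`.  This file: independence (a box polynomial in the
ideal `(f)` is zero) and spanning with degree control.
-/

set_option autoImplicit false
set_option linter.unusedSectionVars false

namespace Fermat.Agent.S59.H427

open MvPolynomial

variable {A : Type*} [CommRing A] {ι : Type*}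

/-- The generators `f i = X i ^ (m+1) + h i`. -/
noncomputable def boxGen (m : ℕ) (h : ι → MvPolynomial ι A) (i : ι) : MvPolynomial ι A :=
  X i ^ (m + 1) + h i

/-- The ideal generated by the `boxGen`. -/
noncomputable def boxIdeal (m : ℕ) (h : ι → MvPolynomial ι A) : Ideal (MvPolynomial ι A) :=
  Ideal.span (Set.range (boxGen m h))

theorem boxGen_mem_boxIdeal (m : ℕ) (h : ι → MvPolynomial ι A) (i : ι) :
    boxGen m h i ∈ boxIdeal m h := Ideal.subset_span ⟨i, rfl⟩

/-- A polynomial that is both a box polynomial and in the pure-power ideal is zero. -/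
theorem eq_zero_of_mem_restrictDegree_of_mem_powIdeal {m : ℕ} {g : MvPolynomial ι A}
    (hg : g ∈ restrictDegree ι A m) (hp : g ∈ powIdeal A (m + 1) (Set.univ : Set ι)) : g = 0 := by
  rw [mem_restrictDegree] at hg
  rw [mem_powIdeal_iff] at hp
  by_contra hne
  obtain ⟨s, hs⟩ := (support_nonempty.mpr hne)
  obtain ⟨i, -, hi⟩ := hp s hs
  have := hg s hs i
  omega

theorem homogeneousComponent_mem_restrictDegree {m : ℕ} {g : MvPolynomial ι A}
    (hg : g ∈ restrictDegree ι A m) (n : ℕ) :
    homogeneousComponent n g ∈ restrictDegree ι A m := by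
  classical
  rw [mem_restrictDegree] at hg ⊢
  intro s hs i
  rw [support_homogeneousComponent] at hs
  exact hg s (Finset.mem_filter.mp hs).1 i

section Indep

variable [Fintype ι] [DecidableEq ι] {m : ℕ} {h : ι → MvPolynomial ι A}

/-- One step of the descent: lower the degree of a representation of a box polynomial. -/
theorem rep_descend (hh : ∀ i, (h i).totalDegree ≤ m) {g : MvPolynomial ι A}
    (hg : g ∈ restrictDegree ι A m) (d : ℕ) (u : ι → MvPolynomial ι A)
    (hu : ∀ i, DegLT (d + 1) (u i)) (hgu : g = ∑ i, u i * boxGen m h i) :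
    ∃ u' : ι → MvPolynomial ι A, (∀ i, DegLT d (u' i)) ∧ g = ∑ i, u' i * boxGen m h i := by
  -- top component
  have key1 : ∀ i, homogeneousComponent (d + (m + 1)) (u i * boxGen m h i) =
      homogeneousComponent d (u i) * X i ^ (m + 1) := by
    intro i
    rw [boxGen, mul_add, map_add, homogeneousComponent_mul_X_pow]
    have h1 : homogeneousComponent (d + (m + 1)) (u i * h i) = 0 := by
      apply homogeneousComponent_eq_zero
      have := totalDegree_mul (u i) (h i)
      have := (hu i).totalDegree_le
      have := hh i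
      omega
    rw [h1, add_zero]
    unfold shiftComp
    rw [if_pos (by omega), Nat.add_sub_cancel]
  have key2 : ∑ i, homogeneousComponent d (u i) * X i ^ (m + 1) = 0 := by
    apply eq_zero_of_mem_restrictDegree_of_mem_powIdeal (m := m)
    · have := homogeneousComponent_mem_restrictDegree hg (d + (m + 1))
      rw [hgu, map_sum] at this
      simpa only [key1] using this
    · exact Ideal.sum_mem _ fun i _ => Ideal.mul_mem_left _ _ (X_pow_mem_powIdeal (Set.mem_univ i))
  obtain ⟨c, hc1, hc2, hc3⟩ := koszul_pow (m + 1) (Finset.univ : Finset ι) _ key2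
  -- homogeneous version of `c`
  set c' : ι → ι → MvPolynomial ι A := fun i j => shiftComp d (m + 1) (c i j) with hc'
  have hc'1 : ∀ i j, c' i j = - c' j i := by
    intro i j
    simp only [hc']
    rw [hc1 i j, map_neg]
  have hc'2 : ∀ i, c' i i = 0 := by
    intro i
    simp only [hc']
    rw [hc2 i, map_zero]
  have hc'3 : ∀ i, homogeneousComponent d (u i) = ∑ j, c' i j * X j ^ (m + 1) := by
    intro i
    have h1 := hc3 i (Finset.mem_univ i)
    have h2 : homogeneousComponent d (homogeneousComponent d (u i)) =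
        homogeneousComponent d (u i) :=
      homogeneousComponent_eq_self (homogeneousComponent_isHomogeneous d (u i))
    rw [← h2]
    conv_lhs => rw [h1]
    rw [map_sum]
    exact Finset.sum_congr rfl fun j _ => homogeneousComponent_mul_X_pow d (m + 1) (c i j) j
  have hc'deg : ∀ i j, DegLT d (c' i j * h j) := by
    intro i j
    by_cases hD : m + 1 ≤ d
    · have h1 : DegLT (d - (m + 1) + 1) (c' i j) := shiftComp_degLT d (m + 1) (c i j)
      have h2 : DegLT (m + 1) (h j) := degLT_of_totalDegree_lt (by have := hh j; omega)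
      have h3 := h1.mul h2
      exact h3.mono (by omega)
    · have : c' i j = 0 := shiftComp_eq_zero (by omega) _
      rw [this, zero_mul]
      exact degLT_zero _
  refine ⟨fun i => u i - ∑ j, c' i j * boxGen m h j, ?_, ?_⟩
  · intro i
    have h1 : u i - ∑ j, c' i j * boxGen m h j =
        (u i - homogeneousComponent d (u i)) - ∑ j, c' i j * h j := by
      rw [hc'3 i]
      simp only [boxGen, mul_add, Finset.sum_add_distrib]
      ring
    show DegLT d (u i - ∑ j, c' i j * boxGen m h j)
    rw [h1]
    exact (hu i).sub_homogeneousComponent.sub (DegLT.sum _ _ fun j _ => hc'deg i j)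
  · have h1 : ∑ i, (∑ j, c' i j * boxGen m h j) * boxGen m h i = 0 := by
      simp only [Finset.sum_mul]
      rw [← Finset.sum_product' (Finset.univ : Finset ι) (Finset.univ : Finset ι)
        (fun i j => c' i j * boxGen m h j * boxGen m h i)]
      refine Finset.sum_involution (fun p _ => (p.2, p.1)) ?_ ?_ ?_ ?_
      · intro p _
        simp only
        rw [hc'1 p.1 p.2]
        ring
      · intro p _ hne heq
        apply hne
        have : p.1 = p.2 := by
          have := congrArg Prod.fst heq
          simpa using this.symm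
        rw [this, hc'2, zero_mul, zero_mul]
      · intro p _
        exact Finset.mem_product.mpr ⟨Finset.mem_univ _, Finset.mem_univ _⟩
      · intro p _
        rfl
    simp only [sub_mul, Finset.sum_sub_distrib, h1, sub_zero]
    exact hgu

/-- **Independence of the box monomials**: a box polynomial in the ideal `(f)` is zero. -/
theorem eq_zero_of_mem_restrictDegree_of_mem_boxIdeal (hh : ∀ i, (h i).totalDegree ≤ m)
    {g : MvPolynomial ι A} (hg : g ∈ restrictDegree ι A m) (hI : g ∈ boxIdeal m h) : g = 0 := by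
  rw [boxIdeal, Ideal.mem_span_range_iff_exists_fun] at hI
  obtain ⟨u, hu⟩ := hI
  have main : ∀ d : ℕ, ∀ u : ι → MvPolynomial ι A, (∀ i, DegLT d (u i)) →
      g = ∑ i, u i * boxGen m h i → g = 0 := by
    intro d
    induction d with
    | zero =>
      intro u hu hgu
      rw [hgu]
      exact Finset.sum_eq_zero fun i _ => by rw [(hu i).eq_zero, zero_mul]
    | succ d ih =>
      intro u hu hgu
      obtain ⟨u', hu', hgu'⟩ := rep_descend hh hg d u hu hgu
      exact ih u' hu' hgu'
  refine main ((Finset.univ.sup fun i => (u i).totalDegree) + 1) u (fun i => ?_) hu.symm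
  apply degLT_of_totalDegree_lt
  have : (u i).totalDegree ≤ Finset.univ.sup fun i => (u i).totalDegree :=
    Finset.le_sup (f := fun i => (u i).totalDegree) (Finset.mem_univ i)
  omega

end Indep

section Span

variable {m : ℕ} {h : ι → MvPolynomial ι A}

theorem monomial_mem_restrictDegree {s : ι →₀ ℕ} (hs : ∀ i, s i ≤ m) (a : A) :
    monomial s a ∈ restrictDegree ι A m := by
  classical
  rw [mem_restrictDegree]
  intro t ht i
  have h1 := support_monomial_subset ht
  rw [Finset.mem_singleton] at h1
  subst h1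
  exact hs i

theorem monomial_mul_eq_sum (s : ι →₀ ℕ) (p : MvPolynomial ι A) :
    monomial s (1 : A) * p = ∑ t ∈ p.support, coeff t p • monomial (s + t) (1 : A) := by
  conv_lhs => rw [as_sum p]
  rw [Finset.mul_sum]
  refine Finset.sum_congr rfl fun t _ => ?_
  rw [monomial_mul, one_mul, smul_monomial, smul_eq_mul, mul_one]

/-- **Spanning with degree control**, for monomials. -/
theorem exists_box_rep_monomial (hh : ∀ i, (h i).totalDegree ≤ m) :
    ∀ (n : ℕ) (s : ι →₀ ℕ), s.degree = n →
      ∃ b ∈ restrictDegree ι A m, monomial s (1 : A) - b ∈ boxIdeal m h ∧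
        ((∀ i, s i ≤ m) → b = monomial s 1) ∧ ((¬ ∀ i, s i ≤ m) → DegLT n b) ∧
        DegLT (n + 1) b := by
  classical
  intro n
  induction n using Nat.strong_induction_on with
  | _ n ih =>
  intro s hs
  by_cases hbox : ∀ i, s i ≤ m
  · exact ⟨monomial s 1, monomial_mem_restrictDegree hbox 1, by simp, fun _ => rfl,
      fun hn => absurd hbox hn, degLT_monomial (by omega) 1⟩
  · have hbox' := hbox
    simp only [not_forall, not_le] at hbox'
    obtain ⟨i, hi⟩ := hbox'
    have hle : Finsupp.single i (m + 1) ≤ s := by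
      intro j
      by_cases hj : j = i
      · subst hj; simpa using hi
      · simp [Ne.symm hj]
    set s' := s - Finsupp.single i (m + 1) with hs'def
    have hs' : s = s' + Finsupp.single i (m + 1) := (tsub_add_cancel_of_le hle).symm
    have hdeg : s.degree = s'.degree + (m + 1) := by
      conv_lhs => rw [hs']
      rw [map_add, Finsupp.degree_single]
    have hmon : monomial s (1 : A) = monomial s' 1 * X i ^ (m + 1) := by
      rw [X_pow_eq_monomial, monomial_mul, one_mul, ← hs']
    have H : ∀ t ∈ (h i).support, ∃ b ∈ restrictDegree ι A m,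
        monomial (s' + t) (1 : A) - b ∈ boxIdeal m h ∧ DegLT n b := by
      intro t ht
      have htdeg : t.degree ≤ m := by
        have h1 := le_totalDegree ht
        have h2 : (t.sum fun _ e => e) = t.degree := rfl
        have := hh i
        omega
      have hlt : (s' + t).degree < n := by
        rw [map_add]; omega
      obtain ⟨b, hb1, hb2, -, -, hb5⟩ := ih _ hlt (s' + t) rfl
      exact ⟨b, hb1, hb2, hb5.mono (by omega)⟩
    choose! bt hbt1 hbt2 hbt3 using H
    refine ⟨∑ t ∈ (h i).support, (- coeff t (h i)) • bt t, ?_, ?_, ?_, ?_, ?_⟩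
    · exact Submodule.sum_mem _ fun t ht => Submodule.smul_mem _ _ (hbt1 t ht)
    · have e1 : monomial s (1 : A) - ∑ t ∈ (h i).support, (- coeff t (h i)) • bt t =
          monomial s' 1 * boxGen m h i -
            ∑ t ∈ (h i).support, coeff t (h i) • (monomial (s' + t) (1 : A) - bt t) := by
        rw [boxGen, mul_add, ← hmon, monomial_mul_eq_sum]
        simp only [smul_sub, Finset.sum_sub_distrib, neg_smul, Finset.sum_neg_distrib]
        ring
      rw [e1]
      refine Ideal.sub_mem _ (Ideal.mul_mem_left _ _ (boxGen_mem_boxIdeal m h i)) ?_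
      refine Ideal.sum_mem _ fun t ht => ?_
      rw [smul_eq_C_mul]
      exact Ideal.mul_mem_left _ _ (hbt2 t ht)
    · intro hb
      exact absurd hb hbox
    · intro _
      exact DegLT.sum _ _ fun t ht => (hbt3 t ht).smul _
    · exact (DegLT.sum _ _ fun t ht => (hbt3 t ht).smul _).mono (by omega)

/-- **Spanning**: every polynomial is congruent to a box polynomial. -/
theorem exists_box_rep (hh : ∀ i, (h i).totalDegree ≤ m) (g : MvPolynomial ι A) :
    ∃ b ∈ restrictDegree ι A m, g - b ∈ boxIdeal m h := by
  classical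
  have H : ∀ s : ι →₀ ℕ, ∃ b ∈ restrictDegree ι A m, monomial s (1 : A) - b ∈ boxIdeal m h := by
    intro s
    obtain ⟨b, hb1, hb2, -⟩ := exists_box_rep_monomial (h := h) hh _ s rfl
    exact ⟨b, hb1, hb2⟩
  choose bs hbs1 hbs2 using H
  refine ⟨∑ s ∈ g.support, coeff s g • bs s,
    Submodule.sum_mem _ fun s _ => Submodule.smul_mem _ _ (hbs1 s), ?_⟩
  have e0 : g = ∑ s ∈ g.support, coeff s g • monomial s (1 : A) := by
    conv_lhs => rw [as_sum g]
    exact Finset.sum_congr rfl fun s _ => by rw [smul_monomial, smul_eq_mul, mul_one]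
  have e1 : g - ∑ s ∈ g.support, coeff s g • bs s =
      ∑ s ∈ g.support, coeff s g • (monomial s (1 : A) - bs s) := by
    simp only [smul_sub, Finset.sum_sub_distrib]
    rw [← e0]
  rw [e1]
  refine Ideal.sum_mem _ fun s _ => ?_
  rw [smul_eq_C_mul]
  exact Ideal.mul_mem_left _ _ (hbs2 s)

end Span

section Equiv

variable [Fintype ι] [DecidableEq ι] {m : ℕ} {h : ι → MvPolynomial ι A}

/-- The map from box polynomials to the quotient. -/
noncomputable def boxToQuot (m : ℕ) (h : ι → MvPolynomial ι A) :
    restrictDegree ι A m →ₗ[A] (MvPolynomial ι A ⧸ boxIdeal m h) :=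
  (Ideal.Quotient.mkₐ A (boxIdeal m h)).toLinearMap ∘ₗ (restrictDegree ι A m).subtype

theorem boxToQuot_apply (b : restrictDegree ι A m) :
    boxToQuot m h b = Ideal.Quotient.mk (boxIdeal m h) (b : MvPolynomial ι A) := rfl

theorem boxToQuot_bijective (hh : ∀ i, (h i).totalDegree ≤ m) :
    Function.Bijective (boxToQuot m h) := by
  constructor
  · rw [← LinearMap.ker_eq_bot, LinearMap.ker_eq_bot']
    intro b hb
    rw [boxToQuot_apply, Ideal.Quotient.eq_zero_iff_mem] at hb
    exact Subtype.ext (eq_zero_of_mem_restrictDegree_of_mem_boxIdeal hh b.2 hb)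
  · intro c
    obtain ⟨g, rfl⟩ := Ideal.Quotient.mk_surjective c
    obtain ⟨b, hb1, hb2⟩ := exists_box_rep (h := h) hh g
    refine ⟨⟨b, hb1⟩, ?_⟩
    rw [boxToQuot_apply]
    exact (Ideal.Quotient.eq.mpr hb2).symm

/-- The box polynomials are a complement of the ideal `(f)`. -/
noncomputable def boxEquiv (hh : ∀ i, (h i).totalDegree ≤ m) :
    restrictDegree ι A m ≃ₗ[A] (MvPolynomial ι A ⧸ boxIdeal m h) :=
  LinearEquiv.ofBijective (boxToQuot m h) (boxToQuot_bijective hh)

/-- The box normal form of a class. -/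
noncomputable def boxNF (hh : ∀ i, (h i).totalDegree ≤ m) :
    (MvPolynomial ι A ⧸ boxIdeal m h) →ₗ[A] MvPolynomial ι A :=
  (restrictDegree ι A m).subtype ∘ₗ (boxEquiv hh).symm.toLinearMap

theorem boxNF_mem (hh : ∀ i, (h i).totalDegree ≤ m) (c : MvPolynomial ι A ⧸ boxIdeal m h) :
    boxNF hh c ∈ restrictDegree ι A m := ((boxEquiv hh).symm c).2

theorem mk_boxNF (hh : ∀ i, (h i).totalDegree ≤ m) (c : MvPolynomial ι A ⧸ boxIdeal m h) :
    Ideal.Quotient.mk (boxIdeal m h) (boxNF hh c) = c :=
  (boxEquiv hh).apply_symm_apply c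

theorem boxNF_mk_eq (hh : ∀ i, (h i).totalDegree ≤ m) {g b : MvPolynomial ι A}
    (hb : b ∈ restrictDegree ι A m) (hgb : g - b ∈ boxIdeal m h) :
    boxNF hh (Ideal.Quotient.mk (boxIdeal m h) g) = b := by
  have h1 : Ideal.Quotient.mk (boxIdeal m h) g = boxEquiv hh ⟨b, hb⟩ :=
    Ideal.Quotient.eq.mpr hgb
  rw [h1]
  simp [boxNF]

/-- The top exponent `(m, …, m)`. -/
noncomputable def boxTop (ι : Type*) [Fintype ι] (m : ℕ) : ι →₀ ℕ :=
  Finsupp.equivFunOnFinite.symm fun _ => m

@[simp] theorem boxTop_apply (i : ι) : boxTop ι m i = m := rfl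

/-- The functional "coefficient of the top box monomial". -/
noncomputable def boxLam (hh : ∀ i, (h i).totalDegree ≤ m) :
    (MvPolynomial ι A ⧸ boxIdeal m h) →ₗ[A] A :=
  lcoeff A (boxTop ι m) ∘ₗ boxNF hh

theorem boxLam_apply (hh : ∀ i, (h i).totalDegree ≤ m) (c : MvPolynomial ι A ⧸ boxIdeal m h) :
    boxLam hh c = coeff (boxTop ι m) (boxNF hh c) := rfl

/-- Key property: on monomials of degree at most that of the top, `boxLam` is the Kronecker
delta at the top. -/
theorem boxLam_mk_monomial (hh : ∀ i, (h i).totalDegree ≤ m) (s : ι →₀ ℕ)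
    (hs : s.degree ≤ (boxTop ι m).degree) :
    boxLam hh (Ideal.Quotient.mk (boxIdeal m h) (monomial s 1)) =
      if s = boxTop ι m then 1 else 0 := by
  obtain ⟨b, hb1, hb2, hb3, hb4, -⟩ := exists_box_rep_monomial (h := h) hh _ s rfl
  rw [boxLam_apply, boxNF_mk_eq hh hb1 hb2]
  by_cases hbox : ∀ i, s i ≤ m
  · rw [hb3 hbox, coeff_monomial]
  · rw [hb4 hbox _ hs, if_neg]
    rintro rfl
    exact hbox fun i => le_of_eq (boxTop_apply i)

end Equiv

end Fermat.Agent.S59.H427
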