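import Fermat.Agent.S59.H427.DiamondFree

/-!
# S59 / N1 (helper427): the numerical criterion, module form ("Criterion II", Diamond / DDT)

`𝒪` a DVR with finite residue field, `φ : R ↠ T` with `R` Noetherian local and `T` finite free
over `𝒪`, `π : T → 𝒪` an augmentation, `M` a `T`-module which is finite free over `𝒪`,
`d = rank_𝒪 M[𝔭] > 0`, `rank_𝒪 M ≤ d · rank_𝒪 T`, `Ω = M ⧸ (M[𝔭] ⊔ M[I])`.

* `card_omegaMod_le` : `#Ω ≤ #(𝒪/η_T)^d` (always, when `η_T ≠ 0`);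
* `criterionII` : if `Φ_R` is finite and `(#Φ_R)^d ≤ #Ω`, then `φ` is bijective, `M` is free of
  rank `d` over `T`, `#Φ_R = #(𝒪/η_T)` and `#Ω = (#Φ_R)^d`.
* `numerical_criterion_eta`, `exists_socle_generator_eta` : the ring-theoretic criterion and the
  Gorenstein property in the vocabulary `etaIdeal π`, `RingHom.ker π`.
-/

set_option autoImplicit false
set_option linter.unusedSectionVars false
set_option linter.unusedVariables false
set_option linter.style.haveILetI false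

namespace Fermat.Agent.S59.H427

open IsLocalRing Fermat.Agent.S59.H67

universe u v w x

section Eta

variable {𝒪 : Type u} [CommRing 𝒪] [IsDomain 𝒪] [IsDiscreteValuationRing 𝒪]
variable {R : Type w} [CommRing R] [Algebra 𝒪 R] [IsLocalRing R] [IsNoetherianRing R]
variable {T : Type v} [CommRing T] [Algebra 𝒪 T] [Module.Free 𝒪 T] [Module.Finite 𝒪 T]

/-- **Wiles–Lenstra numerical criterion** in the vocabulary `etaIdeal`, `RingHom.ker`. -/
theorem numerical_criterion_eta (φ : R →ₐ[𝒪] T) (hφ : Function.Surjective φ) (π : T →ₐ[𝒪] 𝒪)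
    [Finite (RingHom.ker (π.comp φ)).Cotangent]
    (hcard : Nat.card (RingHom.ker (π.comp φ)).Cotangent ≤ Nat.card (𝒪 ⧸ etaIdeal π)) :
    Function.Bijective φ ∧
      Nat.card (RingHom.ker (π.comp φ)).Cotangent = Nat.card (𝒪 ⧸ etaIdeal π) := by
  have hfin : Finite (RingHom.ker ((π.comp φ : R →ₐ[𝒪] 𝒪) : R →+* 𝒪)).Cotangent :=
    ‹Finite (RingHom.ker (π.comp φ)).Cotangent›
  exact numerical_criterion_full φ hφ π hcard

/-- The cotangent space of `T` is a quotient of that of `R`. -/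
theorem finite_cotangent_of_surjective (φ : R →ₐ[𝒪] T) (hφ : Function.Surjective φ)
    (π : T →ₐ[𝒪] 𝒪) [Finite (RingHom.ker (π.comp φ)).Cotangent] :
    Finite (RingHom.ker π).Cotangent ∧
      Nat.card (RingHom.ker π).Cotangent ≤ Nat.card (RingHom.ker (π.comp φ)).Cotangent := by
  set 𝔭R : Ideal R := RingHom.ker (π.comp φ) with h𝔭R
  set 𝔭T : Ideal T := RingHom.ker π with h𝔭T
  have hle : 𝔭R ≤ 𝔭T.comap φ := fun r hr => hr
  let mapCot : 𝔭R.Cotangent →ₗ[𝒪] 𝔭T.Cotangent := Ideal.mapCotangent 𝔭R 𝔭T φ hle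
  have hmapCot : ∀ r : 𝔭R, mapCot (𝔭R.toCotangent r) = 𝔭T.toCotangent ⟨φ r, hle r.2⟩ :=
    fun r => Ideal.mapCotangent_toCotangent 𝔭R 𝔭T φ hle r
  have hsurj : Function.Surjective mapCot := by
    intro y
    obtain ⟨⟨t, ht⟩, rfl⟩ := 𝔭T.toCotangent_surjective y
    obtain ⟨r, rfl⟩ := hφ t
    exact ⟨𝔭R.toCotangent ⟨r, ht⟩, hmapCot _⟩
  exact ⟨Finite.of_surjective _ hsurj, Nat.card_le_card_of_surjective _ hsurj⟩

variable [IsLocalRing T]

/-- **Gorenstein property** from the numerical equality, vocabulary `etaIdeal`. -/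
theorem exists_socle_generator_eta (π : T →ₐ[𝒪] 𝒪) [Finite (RingHom.ker π).Cotangent]
    (hcard : Nat.card (RingHom.ker π).Cotangent ≤ Nat.card (𝒪 ⧸ etaIdeal π))
    {ϖ : 𝒪} (hϖ : Irreducible ϖ) :
    ∃ θ : T, (∀ s, π s = 0 → θ * s = 0) ∧ π θ ≠ 0 ∧ etaIdeal π = Ideal.span {π θ} ∧
      ∀ t : T, (∀ s, π s = 0 → ∃ t', s * t = ϖ • t') →
        ∃ (c : 𝒪) (t' : T), t = c • θ + ϖ • t' := by
  have hfin : Finite (RingHom.ker (π : T →+* 𝒪)).Cotangent :=
    ‹Finite (RingHom.ker π).Cotangent›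
  exact exists_socle_generator π hcard hϖ

end Eta

section Module

variable {𝒪 : Type u} [CommRing 𝒪] [IsDomain 𝒪] [IsDiscreteValuationRing 𝒪]
  [Finite (ResidueField 𝒪)]
variable {T : Type v} [CommRing T] [Algebra 𝒪 T] [Module.Free 𝒪 T] [Module.Finite 𝒪 T]
variable (M : Type x) [AddCommGroup M] [Module 𝒪 M] [Module T M]
  [IsScalarTower 𝒪 T M] [Module.Free 𝒪 M] [Module.Finite 𝒪 M]

/-- A generator of `I = Ann (ker π)` when `η ≠ 0`. -/
theorem exists_ann_generator (π : T →ₐ[𝒪] 𝒪) (hη : etaIdeal π ≠ ⊥) :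
    ∃ θ : T, (∀ s, π s = 0 → θ * s = 0) ∧ π θ ≠ 0 ∧ etaIdeal π = Ideal.span {π θ} := by
  obtain ⟨g, hg⟩ := (IsPrincipalIdealRing.principal (etaIdeal π)).principal
  have hg' : etaIdeal π = Ideal.span {g} := hg
  have hgη : g ∈ etaIdeal π := by rw [hg']; exact Ideal.subset_span rfl
  have hsurj : Function.Surjective π := fun c => ⟨algebraMap 𝒪 T c, π.commutes c⟩
  rw [etaIdeal, Ideal.mem_map_iff_of_surjective _ hsurj] at hgη
  obtain ⟨θ, hθ, rfl⟩ := hgη
  refine ⟨θ, ?_, ?_, hg'⟩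
  · intro s hs
    exact (Submodule.mem_annihilator.mp hθ) s (RingHom.mem_ker.mpr hs)
  · intro h0
    apply hη
    rw [hg', h0]
    exact Ideal.span_singleton_eq_bot.mpr rfl

/-- **`#Ω ≤ #(𝒪/η)^d`**. -/
theorem card_omegaMod_le (π : T →ₐ[𝒪] 𝒪) (hη : etaIdeal π ≠ ⊥) :
    Finite (OmegaMod π M) ∧ Nat.card (OmegaMod π M) ≤
      Nat.card (𝒪 ⧸ etaIdeal π) ^ Module.finrank 𝒪 (augTorsion π M) := by
  obtain ⟨θ, hθ, hθ0, hηθ⟩ := exists_ann_generator π hη
  obtain ⟨h1, h2, -⟩ := card_omegaMod_le_aux π M hθ hθ0 hηθ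
  exact ⟨h1, h2⟩

variable {R : Type w} [CommRing R] [Algebra 𝒪 R] [IsLocalRing R] [IsNoetherianRing R]

/-- **Criterion II** (Diamond; Darmon–Diamond–Taylor): the numerical criterion in module form. -/
theorem criterionII (φ : R →ₐ[𝒪] T) (hφ : Function.Surjective φ) (π : T →ₐ[𝒪] 𝒪)
    [Finite (RingHom.ker (π.comp φ)).Cotangent]
    (hd : 0 < Module.finrank 𝒪 (augTorsion π M))
    (hrank : Module.finrank 𝒪 M ≤ Module.finrank 𝒪 (augTorsion π M) * Module.finrank 𝒪 T)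
    (hcard : Nat.card (RingHom.ker (π.comp φ)).Cotangent ^ Module.finrank 𝒪 (augTorsion π M) ≤
      Nat.card (OmegaMod π M)) :
    Function.Bijective φ ∧
      (∃ m : Fin (Module.finrank 𝒪 (augTorsion π M)) → M,
        Function.Bijective (Fintype.linearCombination T m)) ∧
      Nat.card (RingHom.ker (π.comp φ)).Cotangent = Nat.card (𝒪 ⧸ etaIdeal π) ∧
      Nat.card (OmegaMod π M) =
        Nat.card (RingHom.ker (π.comp φ)).Cotangent ^ Module.finrank 𝒪 (augTorsion π M) := by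
  classical
  -- `T` is local
  haveI : Nontrivial T := (π : T →+* 𝒪).domain_nontrivial
  haveI : IsLocalRing T := IsLocalRing.of_surjective' (φ : R →+* T) hφ
  obtain ⟨hfinT, hcardT⟩ := finite_cotangent_of_surjective φ hφ π
  haveI := hfinT
  obtain ⟨hη, -⟩ := Fermat.Agent.S59.H360.card_quot_etaIdeal_le π
  obtain ⟨-, hΩle⟩ := card_omegaMod_le M π hη
  -- the numerical inequality
  have h1 : Nat.card (RingHom.ker (π.comp φ)).Cotangent ≤ Nat.card (𝒪 ⧸ etaIdeal π) :=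
    (Nat.pow_le_pow_iff_left hd.ne').mp (hcard.trans hΩle)
  obtain ⟨hbij, heq⟩ := numerical_criterion_eta φ hφ π h1
  have hΩeq : Nat.card (OmegaMod π M) =
      Nat.card (𝒪 ⧸ etaIdeal π) ^ Module.finrank 𝒪 (augTorsion π M) :=
    le_antisymm hΩle (by rw [← heq]; exact hcard)
  -- Gorenstein
  obtain ⟨ϖ, hϖ⟩ := IsDiscreteValuationRing.exists_irreducible 𝒪
  obtain ⟨θ, hθ, hθ0, hηθ, hsoc⟩ := exists_socle_generator_eta π (hcardT.trans h1) hϖ
  obtain ⟨-, -, hLθ⟩ := card_omegaMod_le_aux π M hθ hθ0 hηθ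
  refine ⟨hbij, ?_, heq, by rw [heq]; exact hΩeq⟩
  exact exists_bijective_linearCombination_of_socle π M hϖ hθ hsoc (hLθ hΩeq) hrank

end Module

end Fermat.Agent.S59.H427
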