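import Fermat.Agent.S59.H427.Koszul

/-!
# S59 / N1 (helper427): degree bookkeeping for multivariate polynomials

`DegLT d u` : every monomial of `u` has degree `< d`; plus the behaviour of homogeneous
components under multiplication by a pure power.
-/

set_option autoImplicit false

namespace Fermat.Agent.S59.H427

open MvPolynomial

variable {A : Type*} [CommRing A] {ι : Type*}

/-- Every monomial of `u` has degree `< d`. -/
def DegLT (d : ℕ) (u : MvPolynomial ι A) : Prop :=
  ∀ s : ι →₀ ℕ, d ≤ s.degree → coeff s u = 0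

theorem degLT_zero (d : ℕ) : DegLT d (0 : MvPolynomial ι A) := fun _ _ => by simp

theorem DegLT.eq_zero {u : MvPolynomial ι A} (h : DegLT 0 u) : u = 0 := by
  ext s
  simpa using h s (Nat.zero_le _)

theorem DegLT.mono {d e : ℕ} (hde : d ≤ e) {u : MvPolynomial ι A} (h : DegLT d u) : DegLT e u :=
  fun s hs => h s (hde.trans hs)

theorem DegLT.add {d : ℕ} {u v : MvPolynomial ι A} (hu : DegLT d u) (hv : DegLT d v) :
    DegLT d (u + v) := fun s hs => by
  rw [coeff_add, hu s hs, hv s hs, add_zero]

theorem DegLT.neg {d : ℕ} {u : MvPolynomial ι A} (hu : DegLT d u) : DegLT d (-u) := fun s hs => by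
  rw [coeff_neg, hu s hs, neg_zero]

theorem DegLT.sub {d : ℕ} {u v : MvPolynomial ι A} (hu : DegLT d u) (hv : DegLT d v) :
    DegLT d (u - v) := fun s hs => by
  rw [coeff_sub, hu s hs, hv s hs, sub_zero]

theorem DegLT.smul {d : ℕ} (a : A) {u : MvPolynomial ι A} (hu : DegLT d u) :
    DegLT d (a • u) := fun s hs => by
  rw [coeff_smul, hu s hs, smul_zero]

theorem DegLT.sum {κ : Type*} {d : ℕ} (t : Finset κ) (u : κ → MvPolynomial ι A)
    (hu : ∀ k ∈ t, DegLT d (u k)) : DegLT d (∑ k ∈ t, u k) := fun s hs => by
  rw [coeff_sum]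
  exact Finset.sum_eq_zero fun k hk => hu k hk s hs

theorem degLT_of_totalDegree_lt {d : ℕ} {u : MvPolynomial ι A} (h : u.totalDegree < d) :
    DegLT d u := fun s hs =>
  coeff_eq_zero_of_totalDegree_lt (by rw [← Finsupp.degree_apply]; omega)

theorem DegLT.totalDegree_le {d : ℕ} {u : MvPolynomial ι A} (h : DegLT (d + 1) u) :
    u.totalDegree ≤ d := by
  refine Finset.sup_le fun s hs => ?_
  by_contra hlt
  have h1 : d + 1 ≤ s.degree := by
    rw [Finsupp.degree_apply]
    have : (s.sum fun _ e => e) = ∑ i ∈ s.support, s i := rfl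
    omega
  exact (mem_support_iff.mp hs) (h s h1)

theorem degLT_monomial {d : ℕ} {s : ι →₀ ℕ} (hs : s.degree < d) (a : A) :
    DegLT d (monomial s a) := fun t ht => by
  classical
  rw [coeff_monomial, if_neg]
  rintro rfl
  omega

theorem DegLT.mul {d e : ℕ} {u v : MvPolynomial ι A} (hu : DegLT (d + 1) u)
    (hv : DegLT (e + 1) v) : DegLT (d + e + 1) (u * v) :=
  degLT_of_totalDegree_lt <| by
    have := totalDegree_mul u v
    have := hu.totalDegree_le
    have := hv.totalDegree_le
    omega

theorem degLT_homogeneousComponent (n : ℕ) (u : MvPolynomial ι A) :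
    DegLT (n + 1) (homogeneousComponent n u) := fun s hs => by
  rw [coeff_homogeneousComponent, if_neg]
  omega

theorem DegLT.sub_homogeneousComponent {d : ℕ} {u : MvPolynomial ι A} (hu : DegLT (d + 1) u) :
    DegLT d (u - homogeneousComponent d u) := fun s hs => by
  rw [coeff_sub, coeff_homogeneousComponent]
  by_cases h : s.degree = d
  · rw [if_pos h, sub_self]
  · rw [if_neg h, sub_zero]
    exact hu s (by omega)

/-- Shifted homogeneous component: the component of degree `d - D` if `D ≤ d`, zero otherwise. -/
noncomputable def shiftComp (d D : ℕ) : MvPolynomial ι A →ₗ[A] MvPolynomial ι A :=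
  if D ≤ d then homogeneousComponent (d - D) else 0

theorem homogeneousComponent_mul_X_pow (d D : ℕ) (a : MvPolynomial ι A) (i : ι) :
    homogeneousComponent d (a * X i ^ D) = shiftComp d D a * X i ^ D := by
  classical
  ext s
  rw [coeff_homogeneousComponent, X_pow_eq_monomial, coeff_mul_monomial', coeff_mul_monomial']
  by_cases hts : Finsupp.single i D ≤ s
  · rw [if_pos hts, if_pos hts, mul_one, mul_one]
    have hdeg : s.degree = (s - Finsupp.single i D).degree + D := by
      conv_lhs => rw [← tsub_add_cancel_of_le hts]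
      rw [map_add, Finsupp.degree_single]
    unfold shiftComp
    by_cases hD : D ≤ d
    · rw [if_pos hD, coeff_homogeneousComponent]
      by_cases h1 : s.degree = d
      · rw [if_pos h1, if_pos (by omega)]
      · rw [if_neg h1, if_neg (by omega)]
    · rw [if_neg hD, if_neg (by omega)]
      simp
  · rw [if_neg hts, if_neg hts]
    simp

theorem shiftComp_degLT (d D : ℕ) (a : MvPolynomial ι A) :
    DegLT (d - D + 1) (shiftComp d D a) := by
  unfold shiftComp
  split_ifs
  · exact degLT_homogeneousComponent _ _
  · exact degLT_zero _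

theorem shiftComp_eq_zero {d D : ℕ} (h : d < D) (a : MvPolynomial ι A) :
    shiftComp d D a = 0 := by
  unfold shiftComp
  rw [if_neg (by omega)]
  rfl

end Fermat.Agent.S59.H427
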