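import Fermat.Agent.S59.H427.Omega

/-!
# S59 / N1 (helper427): freeness of the module in "Criterion II"

* `bijective_of_injective_mod` : a linear map between finite free modules over a local ring with
  principal maximal ideal `(ϖ)` which is injective modulo `ϖ`, with `rank Y ≤ rank X`, is bijective.
* `exists_linearEquiv_of_socle` : `T` finite free local over the DVR `𝒪` with augmentation `π`,
  `θ ∈ Ann (ker π)` spanning the socle of `T/ϖT` (Gorenstein), `M` a `T`-module finite free over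
  `𝒪` with `M[𝔭] = θ M` and `rank_𝒪 M ≤ d · rank_𝒪 T`, `d = rank_𝒪 M[𝔭]`.  Then `M ≅ T^d`.
-/

set_option autoImplicit false
set_option linter.unusedSectionVars false
set_option linter.unusedVariables false
set_option linter.style.haveILetI false

namespace Fermat.Agent.S59.H427

open IsLocalRing TensorProduct Fermat.Agent.S59.H67

section LemA

variable {𝒪 : Type*} [CommRing 𝒪] [IsLocalRing 𝒪]

theorem one_tmul_eq_zero_iff {ϖ : 𝒪} (hmax : maximalIdeal 𝒪 = Ideal.span {ϖ})
    (Z : Type*) [AddCommGroup Z] [Module 𝒪 Z] (z : Z) :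
    (1 : ResidueField 𝒪) ⊗ₜ[𝒪] z = 0 ↔ ∃ z' : Z, z = ϖ • z' := by
  have h1 : (1 : ResidueField 𝒪) ⊗ₜ[𝒪] z = 0 ↔
      z ∈ LinearMap.ker (TensorProduct.mk 𝒪 (𝒪 ⧸ maximalIdeal 𝒪) Z 1) := Iff.rfl
  rw [h1, LinearMap.ker_tensorProductMk, hmax, Submodule.ideal_span_singleton_smul,
    Submodule.mem_smul_pointwise_iff_exists]
  constructor
  · rintro ⟨z', -, hz'⟩
    exact ⟨z', hz'.symm⟩
  · rintro ⟨z', rfl⟩
    exact ⟨z', Submodule.mem_top, rfl⟩

variable {X Y : Type*} [AddCommGroup X] [Module 𝒪 X] [Module.Free 𝒪 X] [Module.Finite 𝒪 X]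
  [AddCommGroup Y] [Module 𝒪 Y] [Module.Free 𝒪 Y] [Module.Finite 𝒪 Y]

/-- A linear map of finite free modules over a local ring with maximal ideal `(ϖ)` which is
injective modulo `ϖ`, with `rank Y ≤ rank X`, is bijective. -/
theorem bijective_of_injective_mod {ϖ : 𝒪} (hmax : maximalIdeal 𝒪 = Ideal.span {ϖ})
    (φ : X →ₗ[𝒪] Y) (hφ : ∀ x : X, (∃ y : Y, φ x = ϖ • y) → ∃ x' : X, x = ϖ • x')
    (hrank : Module.finrank 𝒪 Y ≤ Module.finrank 𝒪 X) : Function.Bijective φ := by
  have hinj : Function.Injective (φ.lTensor (ResidueField 𝒪)) := by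
    rw [← LinearMap.ker_eq_bot, LinearMap.ker_eq_bot']
    intro ξ hξ
    obtain ⟨x, rfl⟩ := TensorProduct.mk_surjective 𝒪 X (ResidueField 𝒪)
      Ideal.Quotient.mk_surjective ξ
    rw [TensorProduct.mk_apply, LinearMap.lTensor_tmul] at hξ
    rw [TensorProduct.mk_apply]
    exact (one_tmul_eq_zero_iff hmax X x).mpr (hφ x ((one_tmul_eq_zero_iff hmax Y (φ x)).mp hξ))
  obtain ⟨l', hl'⟩ := (IsLocalRing.split_injective_iff_lTensor_residueField_injective φ).mpr hinj
  have hφinj : Function.Injective φ :=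
    Function.HasLeftInverse.injective ⟨l', LinearMap.congr_fun hl'⟩
  refine ⟨hφinj, ?_⟩
  have hinj' : Function.Injective (φ.baseChange (ResidueField 𝒪)) := by
    rw [LinearMap.baseChange_eq_ltensor]; exact hinj
  have hfr : Module.finrank (ResidueField 𝒪) (ResidueField 𝒪 ⊗[𝒪] X) =
      Module.finrank (ResidueField 𝒪) (ResidueField 𝒪 ⊗[𝒪] Y) := by
    apply le_antisymm (LinearMap.finrank_le_finrank_of_injective hinj')
    rw [Module.finrank_baseChange, Module.finrank_baseChange]
    exact hrank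
  have hsurj' : Function.Surjective (φ.baseChange (ResidueField 𝒪)) :=
    (LinearMap.injective_iff_surjective_of_finrank_eq_finrank hfr).mp hinj'
  rw [← LinearMap.range_eq_top, ← IsLocalRing.map_tensorProduct_mk_eq_top, eq_top_iff]
  intro ζ _
  obtain ⟨ξ, rfl⟩ := hsurj' ζ
  obtain ⟨x, rfl⟩ := TensorProduct.mk_surjective 𝒪 X (ResidueField 𝒪)
    Ideal.Quotient.mk_surjective ξ
  rw [TensorProduct.mk_apply, LinearMap.baseChange_tmul]
  exact ⟨φ x, ⟨x, rfl⟩, rfl⟩

end LemA

section Free

variable {𝒪 : Type*} [CommRing 𝒪] [IsDomain 𝒪] [IsDiscreteValuationRing 𝒪]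
variable {T : Type*} [CommRing T] [IsLocalRing T] [Algebra 𝒪 T] [Module.Free 𝒪 T]
  [Module.Finite 𝒪 T]
variable (π : T →ₐ[𝒪] 𝒪) (M : Type*) [AddCommGroup M] [Module 𝒪 M] [Module T M]
  [IsScalarTower 𝒪 T M] [Module.Free 𝒪 M] [Module.Finite 𝒪 M]

/-- **Freeness.**  If `θ` spans the socle of `T/ϖT`, `M[𝔭] = θ M` and
`rank_𝒪 M ≤ d · rank_𝒪 T` with `d = rank_𝒪 M[𝔭]`, then `M` is free of rank `d` over `T`. -/
theorem exists_bijective_linearCombination_of_socle {ϖ : 𝒪} (hϖ : Irreducible ϖ) {θ : T}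
    (hθ : ∀ s, π s = 0 → θ * s = 0)
    (hsoc : ∀ t : T, (∀ s, π s = 0 → ∃ t', s * t = ϖ • t') →
      ∃ (c : 𝒪) (t' : T), t = c • θ + ϖ • t')
    (hLθ : ∀ n ∈ augTorsion π M, ∃ m : M, θ • m = n)
    (hrank : Module.finrank 𝒪 M ≤ Module.finrank 𝒪 (augTorsion π M) * Module.finrank 𝒪 T) :
    ∃ m : Fin (Module.finrank 𝒪 (augTorsion π M)) → M,
      Function.Bijective (Fintype.linearCombination T m) := by
  classical
  have hmax : maximalIdeal 𝒪 = Ideal.span {ϖ} :=
    (IsDiscreteValuationRing.irreducible_iff_uniformizer ϖ).mp hϖ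
  have hϖ0 : ϖ ≠ 0 := hϖ.ne_zero
  set L : Submodule 𝒪 M := augTorsion π M with hL
  set d := Module.finrank 𝒪 L with hd
  let b : Module.Basis (Fin d) 𝒪 L := Module.finBasis 𝒪 L
  choose m hm using fun i => hLθ (b i : M) (b i).2
  refine ⟨m, ?_⟩
  set φT : (Fin d → T) →ₗ[T] M := Fintype.linearCombination T m with hφT
  have hφTapp : ∀ t, φT t = ∑ i, t i • m i := fun t => Fintype.linearCombination_apply T m t
  let φ : (Fin d → T) →ₗ[𝒪] M := φT.restrictScalars 𝒪
  have hφapp : ∀ t, φ t = ∑ i, t i • m i := hφTapp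
  have hkerπ : RingHom.ker π ≤ maximalIdeal T :=
    IsLocalRing.le_maximalIdeal (RingHom.ker_ne_top _)
  -- the induction on the nilpotency order
  have hP : ∀ k : ℕ, ∀ t : Fin d → T, (∃ y : M, φ t = ϖ • y) →
      (∀ s ∈ maximalIdeal T ^ k, ∃ t' : Fin d → T, s • t = ϖ • t') →
      ∃ t' : Fin d → T, t = ϖ • t' := by
    intro k
    induction k with
    | zero =>
      intro t _ h
      obtain ⟨t', ht'⟩ := h 1 (by rw [pow_zero, Ideal.one_eq_top]; exact Submodule.mem_top)
      exact ⟨t', by rw [← ht', one_smul]⟩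
    | succ k ih =>
      intro t hy h
      obtain ⟨y, hy⟩ := hy
      -- Step 1
      have h1 : ∀ r ∈ maximalIdeal T, ∃ t' : Fin d → T, r • t = ϖ • t' := by
        intro r hr
        refine ih (r • t) ⟨r • y, ?_⟩ ?_
        · have : φ (r • t) = r • φ t := map_smul φT r t
          rw [this, hy, smul_comm]
        · intro s hs
          have hsr : s * r ∈ maximalIdeal T ^ (k + 1) := by
            rw [pow_succ]
            exact Ideal.mul_mem_mul hs hr
          obtain ⟨t', ht'⟩ := h (s * r) hsr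
          exact ⟨t', by rw [smul_smul, ht']⟩
      -- Step 2
      have h2 : ∀ i, ∃ (c : 𝒪) (u : T), t i = c • θ + ϖ • u := by
        intro i
        apply hsoc
        intro s hs
        obtain ⟨t', ht'⟩ := h1 s (hkerπ (RingHom.mem_ker.mpr hs))
        refine ⟨t' i, ?_⟩
        have := congrFun ht' i
        simpa using this
      choose c u hcu using h2
      -- Step 3
      have h3 : ∑ i, c i • (b i : M) = ϖ • (y - φ u) := by
        rw [smul_sub, ← hy, hφapp, hφapp, Finset.smul_sum, ← Finset.sum_sub_distrib]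
        refine Finset.sum_congr rfl fun i _ => ?_
        rw [hcu i, add_smul, smul_assoc, hm i, smul_assoc]
        abel
      -- Step 4
      have h4 : y - φ u ∈ L := by
        intro s hs
        have h5 : ϖ • (s • (y - φ u)) = 0 := by
          rw [smul_comm, ← h3]
          have h6 : ∑ i, c i • (b i : M) ∈ L :=
            Submodule.sum_mem _ fun i _ => Submodule.smul_mem _ _ (b i).2
          exact h6 s hs
        exact (smul_eq_zero.mp h5).resolve_left hϖ0
      -- Step 5
      have h5 : ∀ i, c i = ϖ * b.repr ⟨y - φ u, h4⟩ i := by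
        intro i
        have h6 : (∑ j, c j • b j : L) = ϖ • (⟨y - φ u, h4⟩ : L) := by
          apply Subtype.ext
          rw [Submodule.coe_sum, Submodule.coe_smul]
          exact h3
        have h7 := congrArg (fun z => b.repr z i) h6
        simp only [Module.Basis.repr_sum_self, map_smul, Finsupp.smul_apply, smul_eq_mul] at h7
        exact h7
      refine ⟨fun i => b.repr ⟨y - φ u, h4⟩ i • θ + u i, ?_⟩
      funext i
      rw [Pi.smul_apply, hcu i, h5 i, smul_add, mul_smul]
  -- nilpotency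
  obtain ⟨a, ha⟩ := exists_maximalIdeal_pow_le_map (O := 𝒪) (T := T)
  have hmod : ∀ t : Fin d → T, (∃ y : M, φ t = ϖ • y) → ∃ t' : Fin d → T, t = ϖ • t' := by
    intro t hy
    refine hP a t hy ?_
    intro s hs
    have h1 := ha hs
    rw [hmax, Ideal.map_span, Set.image_singleton, Ideal.mem_span_singleton'] at h1
    obtain ⟨s', hs'⟩ := h1
    refine ⟨s' • t, ?_⟩
    rw [← hs', mul_smul, algebraMap_smul, smul_comm]
  have hrank' : Module.finrank 𝒪 M ≤ Module.finrank 𝒪 (Fin d → T) := by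
    rw [Module.finrank_pi_fintype, Finset.sum_const, Finset.card_univ, Fintype.card_fin,
      smul_eq_mul]
    exact hrank
  exact bijective_of_injective_mod hmax φ hmod hrank'

end Free

end Fermat.Agent.S59.H427
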