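import Fermat.Agent.S59.H427.Pairing

/-!
# S59 / N1 (helper427): the unit multiplier

Let `T` be a finite free algebra over a discrete valuation ring `𝒪` with an augmentation
`π : T → 𝒪`, let `x i` be elements of `ker π`, and let `f i = ∑ j, a i j * X j` be polynomials
vanishing at `x` of the shape `X i ^ (m+1) + (degree ≤ m)`.  If `det a(0) ≠ 0` generates the
congruence ideal `π (Ann (x))`, then there is a polynomial `y` with unit constant term such that
`y * g ∈ (f)` for every polynomial `g` vanishing at `x`.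
-/

set_option autoImplicit false
set_option linter.unusedSectionVars false

namespace Fermat.Agent.S59.H427

open MvPolynomial

section Cramer

variable {A : Type*} [CommRing A] {ι : Type*} [Fintype ι] [DecidableEq ι]

/-- Cramer's rule: `det a * X j` lies in the ideal generated by the `∑ j, a i j * X j`. -/
theorem det_mul_X_mem_span (a : Matrix ι ι (MvPolynomial ι A)) (j : ι) :
    a.det * X j ∈ Ideal.span (Set.range fun i => ∑ k, a i k * (X k : MvPolynomial ι A)) := by
  have h1 : a.adjugate.mulVec (a.mulVec (fun k => (X k : MvPolynomial ι A))) =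
      a.det • (fun k => (X k : MvPolynomial ι A)) := by
    rw [Matrix.mulVec_mulVec, Matrix.adjugate_mul, Matrix.smul_mulVec, Matrix.one_mulVec]
  have h2 := congrFun h1 j
  simp only [Matrix.mulVec, dotProduct, Pi.smul_apply, smul_eq_mul] at h2
  rw [← h2]
  exact Ideal.sum_mem _ fun i _ => Ideal.mul_mem_left _ _ (Ideal.subset_span ⟨i, rfl⟩)

/-- `det a * q` lies in `(f)` for every `q` without constant term. -/
theorem det_mul_mem_span_of_constantCoeff_eq_zero (a : Matrix ι ι (MvPolynomial ι A))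
    {q : MvPolynomial ι A} (hq : constantCoeff q = 0) :
    a.det * q ∈ Ideal.span (Set.range fun i => ∑ k, a i k * (X k : MvPolynomial ι A)) := by
  have h1 : q ∈ idealOfVars ι A := by
    have : q ∈ idealOfVars ι A ^ 1 := by
      rw [mem_pow_idealOfVars_iff']
      intro s hs
      have hs0 : s = 0 := by
        have : s.degree = 0 := by omega
        exact (Finsupp.degree_eq_zero_iff s).mp this
      rw [hs0]
      exact hq
    simpa using this
  refine Submodule.span_induction (p := fun q _ => a.det * q ∈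
    Ideal.span (Set.range fun i => ∑ k, a i k * (X k : MvPolynomial ι A))) ?_ ?_ ?_ ?_ h1
  · rintro _ ⟨j, rfl⟩
    exact det_mul_X_mem_span a j
  · simp
  · intro u v _ _ hu hv
    rw [mul_add]
    exact Ideal.add_mem _ hu hv
  · intro r u _ hu
    rw [smul_eq_mul, mul_left_comm]
    exact Ideal.mul_mem_left _ _ hu

end Cramer

section Main

variable {𝒪 : Type*} [CommRing 𝒪] [IsDomain 𝒪] [IsDiscreteValuationRing 𝒪]
variable {T : Type*} [CommRing T] [Algebra 𝒪 T] [Module.Free 𝒪 T] [Module.Finite 𝒪 T]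
variable {ι : Type*} [Fintype ι] [DecidableEq ι]

theorem aug_aeval (π : T →ₐ[𝒪] 𝒪) (x : ι → T) (hx : ∀ i, π (x i) = 0)
    (g : MvPolynomial ι 𝒪) : π (aeval x g) = constantCoeff g := by
  have h1 : π.comp (aeval x) = aeval (fun _ : ι => (0 : 𝒪)) := by
    apply MvPolynomial.algHom_ext
    intro i
    simp [hx i]
  have h2 := DFunLike.congr_fun h1 g
  rw [AlgHom.comp_apply] at h2
  rw [h2]
  have := aeval_zero' (S₁ := 𝒪) g
  simp

/-- A primitive vector of a finite free module over a DVR has a functional taking value `1`. -/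
theorem exists_dual_eq_one_of_primitive (t₀ : T)
    (hprim : ∀ (ϖ : 𝒪) (t' : T), t₀ = ϖ • t' → IsUnit ϖ) :
    ∃ μ : T →ₗ[𝒪] 𝒪, μ t₀ = 1 := by
  classical
  let b := Module.Free.chooseBasis 𝒪 T
  have : Fintype (Module.Free.ChooseBasisIndex 𝒪 T) := Module.Free.ChooseBasisIndex.fintype 𝒪 T
  obtain ⟨ϖ, hϖ⟩ := IsDiscreteValuationRing.exists_irreducible 𝒪
  by_cases hex : ∃ k, IsUnit (b.repr t₀ k)
  · obtain ⟨k, hk⟩ := hex
    obtain ⟨u, hu⟩ := hk
    refine ⟨(↑u⁻¹ : 𝒪) • b.coord k, ?_⟩
    rw [LinearMap.smul_apply, Module.Basis.coord_apply, ← hu, smul_eq_mul, Units.inv_mul]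
  · exfalso
    push Not at hex
    have hmax := (IsDiscreteValuationRing.irreducible_iff_uniformizer ϖ).mp hϖ
    have hdvd : ∀ k, ∃ c, b.repr t₀ k = ϖ * c := by
      intro k
      have h1 : b.repr t₀ k ∈ IsLocalRing.maximalIdeal 𝒪 := (IsLocalRing.mem_maximalIdeal _).mpr (hex k)
      rw [hmax, Ideal.mem_span_singleton] at h1
      exact h1
    choose c hc using hdvd
    have h2 : t₀ = ϖ • ∑ k, c k • b k := by
      conv_lhs => rw [← b.sum_repr t₀]
      rw [Finset.smul_sum]
      refine Finset.sum_congr rfl fun k _ => ?_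
      rw [hc k, mul_smul]
    exact hϖ.not_isUnit (hprim ϖ _ h2)

/-- **The unit multiplier.** -/
theorem exists_unit_multiplier (π : T →ₐ[𝒪] 𝒪) (x : ι → T) (hx : ∀ i, π (x i) = 0)
    (m : ℕ) (a : Matrix ι ι (MvPolynomial ι 𝒪))
    (hdeg : ∀ i, (∑ j, a i j * X j - X i ^ (m + 1)).totalDegree ≤ m)
    (hker : ∀ i, aeval x (∑ j, a i j * X j) = 0)
    (hdet : constantCoeff a.det ≠ 0)
    (hη : ∀ t : T, (∀ i, t * x i = 0) → ∃ c : 𝒪, π t = c * constantCoeff a.det) :
    ∃ y : MvPolynomial ι 𝒪, IsUnit (constantCoeff y) ∧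
      ∀ g, aeval x g = 0 →
        y * g ∈ Ideal.span (Set.range fun i => ∑ j, a i j * (X j : MvPolynomial ι 𝒪)) := by
  classical
  set f : ι → MvPolynomial ι 𝒪 := fun i => ∑ j, a i j * X j with hf
  set h : ι → MvPolynomial ι 𝒪 := fun i => f i - X i ^ (m + 1) with hh'
  have hh : ∀ i, (h i).totalDegree ≤ m := hdeg
  have hgen : boxGen m h = f := by
    funext i
    simp only [boxGen, hh']
    ring
  have hI : boxIdeal m h = Ideal.span (Set.range f) := by
    rw [boxIdeal, hgen]
  -- evaluation at `x` kills the ideal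
  have hψI : ∀ g ∈ boxIdeal m h, aeval x g = 0 := by
    intro g hg
    have : boxIdeal m h ≤ RingHom.ker (aeval x : MvPolynomial ι 𝒪 →ₐ[𝒪] T) := by
      rw [hI, Ideal.span_le]
      rintro _ ⟨i, rfl⟩
      exact hker i
    exact this hg
  let ψbar : (MvPolynomial ι 𝒪 ⧸ boxIdeal m h) →ₐ[𝒪] T :=
    Ideal.Quotient.liftₐ (boxIdeal m h) (aeval x) hψI
  have hψbar : ∀ g, ψbar (Ideal.Quotient.mk _ g) = aeval x g := fun g => rfl
  -- the Cramer element
  set Δ := a.det with hΔ
  set t₀ : T := aeval x Δ with ht₀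
  have ht₀x : ∀ i, t₀ * x i = 0 := by
    intro i
    have h1 := det_mul_X_mem_span a i
    have h2 : aeval x (Δ * X i) = 0 := hψI _ (by rw [hI]; exact h1)
    rw [map_mul, aeval_X] at h2
    exact h2
  have hπt₀ : π t₀ = constantCoeff Δ := aug_aeval π x hx Δ
  -- primitivity
  have hprim : ∀ (ϖ : 𝒪) (t' : T), t₀ = ϖ • t' → IsUnit ϖ := by
    intro ϖ t' ht'
    have hϖ0 : ϖ ≠ 0 := by
      rintro rfl
      rw [zero_smul] at ht'
      rw [ht', map_zero] at hπt₀
      exact hdet hπt₀.symm
    have h1 : ∀ i, t' * x i = 0 := by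
      intro i
      have h2 : ϖ • (t' * x i) = 0 := by
        rw [← smul_mul_assoc, ← ht', ht₀x]
      exact (smul_eq_zero.mp h2).resolve_left hϖ0
    obtain ⟨c, hc⟩ := hη t' h1
    have h3 : π t₀ = ϖ * π t' := by
      rw [ht', map_smul, smul_eq_mul]
    rw [hc, hπt₀] at h3
    have h4 : (1 - ϖ * c) * constantCoeff Δ = 0 := by
      rw [sub_mul, one_mul, mul_assoc, ← h3, sub_self]
    have h5 : 1 - ϖ * c = 0 := (mul_eq_zero.mp h4).resolve_right hdet
    exact IsUnit.of_mul_eq_one c (sub_eq_zero.mp h5).symm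
  obtain ⟨μ, hμ⟩ := exists_dual_eq_one_of_primitive t₀ hprim
  -- the multiplier
  obtain ⟨yC, hyC⟩ := exists_boxLam_mul_eq hh (μ ∘ₗ ψbar.toLinearMap)
  obtain ⟨y, rfl⟩ := Ideal.Quotient.mk_surjective yC
  refine ⟨y, ?_, ?_⟩
  · -- unit constant term
    have h1 : boxLam hh (Ideal.Quotient.mk _ y * Ideal.Quotient.mk _ Δ) = 1 := by
      rw [hyC]
      show μ (ψbar (Ideal.Quotient.mk _ Δ)) = 1
      rw [hψbar]
      exact hμ
    have h2 : Ideal.Quotient.mk (boxIdeal m h) y * Ideal.Quotient.mk _ Δ =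
        constantCoeff y • Ideal.Quotient.mk (boxIdeal m h) Δ := by
      have e1 : y * Δ = C (constantCoeff y) * Δ + Δ * (y - C (constantCoeff y)) := by ring
      have e2 : Δ * (y - C (constantCoeff y)) ∈ boxIdeal m h := by
        rw [hI]
        apply det_mul_mem_span_of_constantCoeff_eq_zero
        simp
      rw [← map_mul, e1, map_add, Ideal.Quotient.eq_zero_iff_mem.mpr e2, add_zero,
        ← smul_eq_C_mul]
      exact map_smul (Ideal.Quotient.mkₐ 𝒪 (boxIdeal m h)) (constantCoeff y) Δ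
    rw [h2, map_smul, smul_eq_mul] at h1
    exact IsUnit.of_mul_eq_one _ h1
  · intro g hg
    rw [← hI, ← Ideal.Quotient.eq_zero_iff_mem]
    apply eq_zero_of_boxLam_mul_eq_zero hh
    intro c'
    have e : Ideal.Quotient.mk (boxIdeal m h) (y * g) * c' =
        Ideal.Quotient.mk (boxIdeal m h) y * (Ideal.Quotient.mk (boxIdeal m h) g * c') := by
      rw [RingHom.map_mul, mul_assoc]
    rw [e, hyC]
    show μ (ψbar (Ideal.Quotient.mk _ g * c')) = 0
    rw [map_mul, hψbar, hg, zero_mul, map_zero]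

end Main

end Fermat.Agent.S59.H427
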