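import Fermat.Agent.S59.H427.Duality

/-!
# S59 / N1 (helper427): injectivity from a unit multiplier

The last step of the numerical criterion, in polynomial form.
-/

set_option autoImplicit false
set_option linter.unusedSectionVars false

namespace Fermat.Agent.S59.H427

open MvPolynomial

section LinearPart

variable {𝒪 : Type*} [CommRing 𝒪] [IsDomain 𝒪] {ι : Type*} [Fintype ι] [DecidableEq ι]

theorem coeff_single_one_mul_sum (a : ι → MvPolynomial ι 𝒪) (b : MvPolynomial ι 𝒪) (k : ι) :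
    coeff (Finsupp.single k 1) (b * ∑ l, a l * X l) = constantCoeff b * constantCoeff (a k) := by
  rw [Finset.mul_sum, coeff_sum]
  have h1 : ∀ l ∈ (Finset.univ : Finset ι), coeff (Finsupp.single k 1) (b * (a l * X l)) =
      if l = k then constantCoeff b * constantCoeff (a k) else 0 := by
    intro l _
    rw [← mul_assoc, coeff_mul_X']
    by_cases hl : l = k
    · subst hl
      have : l ∈ (Finsupp.single l 1).support := by simp
      rw [if_pos this, if_pos rfl, tsub_self]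
      exact map_mul constantCoeff b (a l)
    · have : l ∉ (Finsupp.single k 1).support := by
        simp [hl]
      rw [if_neg this, if_neg hl]
  rw [Finset.sum_congr rfl h1, Finset.sum_ite_eq' Finset.univ k]
  simp

/-- If `∑ j, b j * f j` has no linear part and the linear parts of the `f j` are independent,
then the `b j` have no constant term. -/
theorem constantCoeff_eq_zero_of_sum_mem_sq (a : Matrix ι ι (MvPolynomial ι 𝒪))
    (hdet : constantCoeff a.det ≠ 0) (b : ι → MvPolynomial ι 𝒪)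
    (hb : ∑ j, b j * ∑ l, a j l * X l ∈ idealOfVars ι 𝒪 ^ 2) (j : ι) :
    constantCoeff (b j) = 0 := by
  have h1 : ∀ k, ∑ j, constantCoeff (b j) * constantCoeff (a j k) = 0 := by
    intro k
    have h2 := (mem_pow_idealOfVars_iff' 2 _).mp hb (Finsupp.single k 1)
      (by rw [Finsupp.degree_single]; omega)
    rw [coeff_sum] at h2
    rw [← h2]
    exact Finset.sum_congr rfl fun j _ => (coeff_single_one_mul_sum (a j) (b j) k).symm
  have h3 : Matrix.vecMul (fun j => constantCoeff (b j)) (a.map constantCoeff) = 0 := by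
    funext k
    simp only [Matrix.vecMul, dotProduct, Matrix.map_apply, Pi.zero_apply]
    exact h1 k
  have h4 : (a.map (constantCoeff : MvPolynomial ι 𝒪 →+* 𝒪)).det ≠ 0 := by
    have : (a.map (constantCoeff : MvPolynomial ι 𝒪 →+* 𝒪)).det = constantCoeff a.det := by
      rw [RingHom.map_det]
      rfl
    rw [this]
    exact hdet
  exact congrFun (Matrix.eq_zero_of_vecMul_eq_zero h4 h3) j

end LinearPart

section Main

variable {𝒪 : Type*} [CommRing 𝒪] [IsDomain 𝒪]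
variable {R : Type*} [CommRing R] [Algebra 𝒪 R]
variable {T : Type*} [CommRing T] [Algebra 𝒪 T]
variable {ι : Type*} [Fintype ι] [DecidableEq ι]

theorem aug_aeval' (π : T →ₐ[𝒪] 𝒪) (x : ι → T) (hx : ∀ i, π (x i) = 0)
    (g : MvPolynomial ι 𝒪) : π (aeval x g) = constantCoeff g := by
  have h1 : π.comp (aeval x) = aeval (fun _ : ι => (0 : 𝒪)) := by
    apply MvPolynomial.algHom_ext
    intro i
    simp [hx i]
  have h2 := DFunLike.congr_fun h1 g
  rw [AlgHom.comp_apply] at h2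
  rw [h2]
  simp

/-- **Injectivity from a unit multiplier.** -/
theorem injective_of_unit_multiplier (φ : R →ₐ[𝒪] T) (hφ : Function.Surjective φ)
    (π : T →ₐ[𝒪] 𝒪)
    (hJfg : (RingHom.ker (φ : R →+* T)).FG)
    (hjac : RingHom.ker ((π.comp φ : R →ₐ[𝒪] 𝒪) : R →+* 𝒪) ≤ Ideal.jacobson ⊥)
    (hH1 : RingHom.ker (φ : R →+* T) ≤ RingHom.ker ((π.comp φ : R →ₐ[𝒪] 𝒪) : R →+* 𝒪) ^ 2)
    (x : ι → T) (hx : ∀ i, π (x i) = 0)
    (hspan : ∀ t, π t = 0 → t ∈ Submodule.span 𝒪 (Set.range x))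
    (a : Matrix ι ι (MvPolynomial ι 𝒪))
    (hker : ∀ i, aeval x (∑ j, a i j * X j) = 0)
    (hdet : constantCoeff a.det ≠ 0)
    (y : MvPolynomial ι 𝒪) (hy : IsUnit (constantCoeff y))
    (hyI : ∀ g, aeval x g = 0 →
      y * g ∈ Ideal.span (Set.range fun i => ∑ j, a i j * (X j : MvPolynomial ι 𝒪))) :
    Function.Injective φ := by
  classical
  set 𝔭 : Ideal R := RingHom.ker ((π.comp φ : R →ₐ[𝒪] 𝒪) : R →+* 𝒪) with h𝔭
  set J : Ideal R := RingHom.ker (φ : R →+* T) with hJ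
  set f : ι → MvPolynomial ι 𝒪 := fun i => ∑ j, a i j * X j with hf
  have mem𝔭 : ∀ ρ : R, ρ ∈ 𝔭 ↔ π (φ ρ) = 0 := fun ρ => Iff.rfl
  have memJ : ∀ ρ : R, ρ ∈ J ↔ φ ρ = 0 := fun ρ => Iff.rfl
  have hJ𝔭 : J ≤ 𝔭 := fun ρ hρ => by
    rw [mem𝔭, (memJ ρ).mp hρ, map_zero]
  have hKJ : 𝔭 * J ≤ J := Ideal.mul_le_right
  choose r hr using fun i => hφ (x i)
  set ev : MvPolynomial ι 𝒪 →ₐ[𝒪] R := aeval r with hev
  have hφev : ∀ g, φ (ev g) = aeval x g := by
    intro g
    have h1 : φ.comp ev = aeval x := by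
      apply MvPolynomial.algHom_ext
      intro i
      simp [hev, hr i]
    exact DFunLike.congr_fun h1 g
  have ev_mem_𝔭 : ∀ g, constantCoeff g = 0 → ev g ∈ 𝔭 := by
    intro g hg
    rw [mem𝔭, hφev, aug_aeval' π x hx, hg]
  have ev_sub_mem : ∀ g, ev g - algebraMap 𝒪 R (constantCoeff g) ∈ 𝔭 := by
    intro g
    have h1 : ev g - algebraMap 𝒪 R (constantCoeff g) = ev (g - C (constantCoeff g)) := by
      rw [map_sub, hev, aeval_C]
    rw [h1]
    exact ev_mem_𝔭 _ (by simp)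
  have ev_mem_J : ∀ g, aeval x g = 0 → ev g ∈ J := by
    intro g hg
    rw [memJ, hφev, hg]
  -- (F1) decomposition of `𝔭`
  have F1 : ∀ ρ ∈ 𝔭, ∃ l : MvPolynomial ι 𝒪, l ∈ idealOfVars ι 𝒪 ∧ ρ - ev l ∈ J := by
    intro ρ hρ
    have h1 := hspan (φ ρ) ((mem𝔭 ρ).mp hρ)
    rw [Submodule.mem_span_range_iff_exists_fun] at h1
    obtain ⟨c, hc⟩ := h1
    refine ⟨∑ i, C (c i) * X i, ?_, ?_⟩
    · exact Ideal.sum_mem _ fun i _ => Ideal.mul_mem_left _ _ (Ideal.subset_span ⟨i, rfl⟩)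
    · rw [memJ, map_sub, hφev, map_sum]
      simp only [map_mul, aeval_C, aeval_X]
      rw [← hc, sub_eq_zero]
      exact Finset.sum_congr rfl fun i _ => by rw [Algebra.smul_def]
  -- (F2) decomposition of `𝔭 ^ 2`
  have F2 : ∀ ρ ∈ 𝔭 ^ 2, ∃ q : MvPolynomial ι 𝒪, q ∈ idealOfVars ι 𝒪 ^ 2 ∧ ρ - ev q ∈ 𝔭 * J := by
    intro ρ hρ
    rw [pow_two] at hρ
    refine Submodule.mul_induction_on hρ ?_ ?_
    · intro ρ₁ h₁ ρ₂ h₂
      obtain ⟨l₁, hl₁, hj₁⟩ := F1 ρ₁ h₁
      obtain ⟨l₂, hl₂, hj₂⟩ := F1 ρ₂ h₂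
      refine ⟨l₁ * l₂, by rw [pow_two]; exact Ideal.mul_mem_mul hl₁ hl₂, ?_⟩
      have e : ρ₁ * ρ₂ - ev (l₁ * l₂) = ev l₁ * (ρ₂ - ev l₂) + ρ₂ * (ρ₁ - ev l₁) := by
        rw [map_mul]; ring
      rw [e]
      refine Ideal.add_mem _ (Ideal.mul_mem_mul ?_ hj₂) (Ideal.mul_mem_mul h₂ hj₁)
      apply ev_mem_𝔭
      have := (mem_pow_idealOfVars_iff' 1 l₁).mp (by simpa using hl₁) 0 (by simp)
      simpa [constantCoeff_eq] using this
    · rintro ρ₁ ρ₂ ⟨q₁, hq₁, hk₁⟩ ⟨q₂, hq₂, hk₂⟩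
      refine ⟨q₁ + q₂, Ideal.add_mem _ hq₁ hq₂, ?_⟩
      have e : ρ₁ + ρ₂ - ev (q₁ + q₂) = (ρ₁ - ev q₁) + (ρ₂ - ev q₂) := by
        rw [map_add]; ring
      rw [e]
      exact Ideal.add_mem _ hk₁ hk₂
  -- (★)
  have star : ∀ g, aeval x g = 0 → ∃ b : ι → MvPolynomial ι 𝒪, y * g = ∑ j, b j * f j ∧
      algebraMap 𝒪 R (constantCoeff y) * ev g -
        ∑ j, algebraMap 𝒪 R (constantCoeff (b j)) * ev (f j) ∈ 𝔭 * J := by
    intro g hg
    have h1 := hyI g hg
    rw [Ideal.mem_span_range_iff_exists_fun] at h1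
    obtain ⟨b, hb⟩ := h1
    refine ⟨b, hb.symm, ?_⟩
    have h2 : ev y * ev g = ∑ j, ev (b j) * ev (f j) := by
      rw [← map_mul, ← hb, map_sum]
      exact Finset.sum_congr rfl fun j _ => map_mul _ _ _
    have e : algebraMap 𝒪 R (constantCoeff y) * ev g -
        ∑ j, algebraMap 𝒪 R (constantCoeff (b j)) * ev (f j) =
        ∑ j, (ev (b j) - algebraMap 𝒪 R (constantCoeff (b j))) * ev (f j) -
          (ev y - algebraMap 𝒪 R (constantCoeff y)) * ev g := by
      simp only [sub_mul, Finset.sum_sub_distrib]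
      rw [← h2]
      ring
    rw [e]
    refine Ideal.sub_mem _ (Ideal.sum_mem _ fun j _ => ?_) ?_
    · exact Ideal.mul_mem_mul (ev_sub_mem _) (ev_mem_J _ (hker j))
    · exact Ideal.mul_mem_mul (ev_sub_mem _) (ev_mem_J _ hg)
  -- unit cancellation
  have cancel : ∀ ρ : R, algebraMap 𝒪 R (constantCoeff y) * ρ ∈ 𝔭 * J → ρ ∈ 𝔭 * J := by
    intro ρ hρ
    obtain ⟨u, hu⟩ := hy
    have h1 : ρ = algebraMap 𝒪 R (↑u⁻¹ : 𝒪) * (algebraMap 𝒪 R (constantCoeff y) * ρ) := by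
      rw [← mul_assoc, ← map_mul, ← hu, Units.inv_mul, map_one, one_mul]
    rw [h1]
    exact Ideal.mul_mem_left _ _ hρ
  -- (M0) for `q ∈ idealOfVars ^ 2` vanishing at `x`: `y₀ * ev q ≡ ∑ b₀ ev f`
  -- (M1) `ev (f i) ∈ 𝔭 * J`
  have M1 : ∀ i, ev (f i) ∈ 𝔭 * J := by
    intro i
    obtain ⟨q, hq, hk⟩ := F2 (ev (f i)) (hH1 (ev_mem_J _ (hker i)))
    have hqx : aeval x q = 0 := by
      have h1 : φ (ev (f i) - ev q) = 0 := (memJ _).mp (hKJ hk)
      rw [map_sub, hφev, hφev, hker i, zero_sub, neg_eq_zero] at h1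
      exact h1
    obtain ⟨b, hb, hstar⟩ := star q hqx
    have hb0 : ∀ j, constantCoeff (b j) = 0 := by
      apply constantCoeff_eq_zero_of_sum_mem_sq a hdet b
      have : ∑ j, b j * ∑ l, a j l * X l = y * q := hb.symm
      rw [this]
      exact Ideal.mul_mem_left _ _ hq
    have h2 : algebraMap 𝒪 R (constantCoeff y) * ev q ∈ 𝔭 * J := by
      have e : algebraMap 𝒪 R (constantCoeff y) * ev q =
          algebraMap 𝒪 R (constantCoeff y) * ev q -
            ∑ j, algebraMap 𝒪 R (constantCoeff (b j)) * ev (f j) := by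
        have : ∑ j, algebraMap 𝒪 R (constantCoeff (b j)) * ev (f j) = 0 :=
          Finset.sum_eq_zero fun j _ => by rw [hb0 j, map_zero, zero_mul]
        rw [this, sub_zero]
      rw [e]
      exact hstar
    have h3 := cancel _ h2
    have e : ev (f i) = (ev (f i) - ev q) + ev q := by ring
    rw [e]
    exact Ideal.add_mem _ hk h3
  -- (M2) `J ≤ 𝔭 * J`
  have M2 : J ≤ 𝔭 * J := by
    intro j hj
    obtain ⟨q, hq, hk⟩ := F2 j (hH1 hj)
    have hqx : aeval x q = 0 := by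
      have h1 : φ (j - ev q) = 0 := (memJ _).mp (hKJ hk)
      rw [map_sub, hφev, (memJ j).mp hj, zero_sub, neg_eq_zero] at h1
      exact h1
    obtain ⟨b, hb, hstar⟩ := star q hqx
    have h2 : algebraMap 𝒪 R (constantCoeff y) * ev q ∈ 𝔭 * J := by
      have e : algebraMap 𝒪 R (constantCoeff y) * ev q =
          (algebraMap 𝒪 R (constantCoeff y) * ev q -
            ∑ j, algebraMap 𝒪 R (constantCoeff (b j)) * ev (f j)) +
            ∑ j, algebraMap 𝒪 R (constantCoeff (b j)) * ev (f j) := by ring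
      rw [e]
      exact Ideal.add_mem _ hstar (Ideal.sum_mem _ fun j _ => Ideal.mul_mem_left _ _ (M1 j))
    have h3 := cancel _ h2
    have e : j = (j - ev q) + ev q := by ring
    rw [e]
    exact Ideal.add_mem _ hk h3
  -- Nakayama
  have hbot : J = ⊥ :=
    Submodule.eq_bot_of_le_smul_of_le_jacobson_bot 𝔭 J hJfg (by simpa using M2) hjac
  exact (RingHom.injective_iff_ker_eq_bot (φ : R →+* T)).mpr hbot

end Main

section Core

variable {𝒪 : Type*} [CommRing 𝒪] [IsDomain 𝒪] [IsDiscreteValuationRing 𝒪]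
variable {R : Type*} [CommRing R] [Algebra 𝒪 R] [IsLocalRing R] [IsNoetherianRing R]
variable {T : Type*} [CommRing T] [Algebra 𝒪 T] [Module.Free 𝒪 T] [Module.Finite 𝒪 T]
variable {ι : Type*} [Fintype ι] [DecidableEq ι]

/-- **Numerical criterion, core form.**  `φ : R ↠ T` with `R` Noetherian local, `T` finite free
over the DVR `𝒪`, augmentation `π : T → 𝒪`.  Assume `ker φ ≤ 𝔭_R ^ 2`, that `x` spans `ker π` over
`𝒪`, and that there are polynomial relations `f i = ∑ j, a i j * X j = X i ^ (m+1) + (deg ≤ m)`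
among the `x i` such that `det a(0)` is nonzero and generates the congruence ideal
`π (Ann_T (ker π))`.  Then `φ` is injective. -/
theorem injective_of_numerical_data (φ : R →ₐ[𝒪] T) (hφ : Function.Surjective φ)
    (π : T →ₐ[𝒪] 𝒪)
    (hH1 : RingHom.ker (φ : R →+* T) ≤ RingHom.ker ((π.comp φ : R →ₐ[𝒪] 𝒪) : R →+* 𝒪) ^ 2)
    (x : ι → T) (hx : ∀ i, π (x i) = 0)
    (hspan : ∀ t, π t = 0 → t ∈ Submodule.span 𝒪 (Set.range x))
    (m : ℕ) (a : Matrix ι ι (MvPolynomial ι 𝒪))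
    (hdeg : ∀ i, (∑ j, a i j * X j - X i ^ (m + 1)).totalDegree ≤ m)
    (hker : ∀ i, aeval x (∑ j, a i j * X j) = 0)
    (hdet : constantCoeff a.det ≠ 0)
    (hη : ∀ t : T, (∀ i, t * x i = 0) → ∃ c : 𝒪, π t = c * constantCoeff a.det) :
    Function.Injective φ := by
  obtain ⟨y, hy, hyI⟩ := exists_unit_multiplier π x hx m a hdeg hker hdet hη
  refine injective_of_unit_multiplier φ hφ π (IsNoetherian.noetherian _) ?_ hH1 x hx hspan a hker
    hdet y hy hyI
  -- the augmentation ideal is proper, hence inside the Jacobson radical of the local ring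
  have hne : RingHom.ker ((π.comp φ : R →ₐ[𝒪] 𝒪) : R →+* 𝒪) ≠ ⊤ :=
    RingHom.ker_ne_top _
  rw [IsLocalRing.jacobson_eq_maximalIdeal ⊥ bot_ne_top]
  exact IsLocalRing.le_maximalIdeal hne

end Core

end Fermat.Agent.S59.H427
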