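import Fermat.Agent.S59.H427.Numerical

/-!
# S59 / N1 (helper427): the Gorenstein property from the numerical criterion

`socle_of_numerical_data`: in the situation of the numerical criterion (`T` finite free local over
the DVR `𝒪`, augmentation `π`, box relations `f = a · X` with `det a(0)` generating the congruence
ideal), the socle of `T / ϖ T` is spanned by the class of `θ = det a (x)`: if `𝔭 t ⊆ ϖ T` then
`t ∈ 𝒪 θ + ϖ T`.

`exists_socle_generator`: the same from the numerical hypothesis `#Φ_T ≤ #(𝒪/η_T)`.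
-/

set_option autoImplicit false
set_option linter.unusedSectionVars false
set_option linter.unusedVariables false
set_option linter.style.haveILetI false

namespace Fermat.Agent.S59.H427

open MvPolynomial

section GorCore

variable {𝒪 : Type*} [CommRing 𝒪] [IsDomain 𝒪] [IsDiscreteValuationRing 𝒪]
variable {T : Type*} [CommRing T] [IsLocalRing T] [Algebra 𝒪 T] [Module.Free 𝒪 T]
  [Module.Finite 𝒪 T]
variable {ι : Type*} [Fintype ι] [DecidableEq ι]

/-- In a local ring with an augmentation, an element with unit augmentation is a unit. -/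
theorem isUnit_of_isUnit_aug (π : T →ₐ[𝒪] 𝒪) {s : T} (hs : IsUnit (π s)) : IsUnit s := by
  by_contra hns
  have h1 : s ∈ IsLocalRing.maximalIdeal T := (IsLocalRing.mem_maximalIdeal _).mpr hns
  obtain ⟨u, hu⟩ := hs
  have h2 : algebraMap 𝒪 T (↑u⁻¹ : 𝒪) * s ∈ IsLocalRing.maximalIdeal T :=
    Ideal.mul_mem_left _ _ h1
  have h3 : 1 - algebraMap 𝒪 T (↑u⁻¹ : 𝒪) * s ∈ RingHom.ker π := by
    rw [RingHom.mem_ker, map_sub, map_one, map_mul, AlgHom.commutes, ← hu]
    simp
  have h4 : RingHom.ker π ≤ IsLocalRing.maximalIdeal T :=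
    IsLocalRing.le_maximalIdeal (RingHom.ker_ne_top _)
  have h5 : (1 : T) ∈ IsLocalRing.maximalIdeal T := by
    have := Ideal.add_mem _ (h4 h3) h2
    rwa [sub_add_cancel] at this
  exact (Ideal.ne_top_iff_one _).mp (IsLocalRing.maximalIdeal.isMaximal T).ne_top h5

/-- **The socle of `T / ϖ T`** in the situation of the numerical criterion. -/
theorem socle_of_numerical_data (π : T →ₐ[𝒪] 𝒪) (x : ι → T) (hx : ∀ i, π (x i) = 0)
    (hspan : ∀ t, π t = 0 → t ∈ Submodule.span 𝒪 (Set.range x))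
    (m : ℕ) (a : Matrix ι ι (MvPolynomial ι 𝒪))
    (hdeg : ∀ i, (∑ j, a i j * X j - X i ^ (m + 1)).totalDegree ≤ m)
    (hker : ∀ i, aeval x (∑ j, a i j * X j) = 0)
    (hdet : constantCoeff a.det ≠ 0)
    (hη : ∀ t : T, (∀ i, t * x i = 0) → ∃ c : 𝒪, π t = c * constantCoeff a.det)
    {ϖ : 𝒪} (hϖ : Irreducible ϖ) (t : T) (ht : ∀ i, ∃ t', x i * t = ϖ • t') :
    ∃ (c : 𝒪) (t' : T), t = c • aeval x a.det + ϖ • t' := by
  classical
  set f : ι → MvPolynomial ι 𝒪 := fun i => ∑ j, a i j * X j with hf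
  set h : ι → MvPolynomial ι 𝒪 := fun i => f i - X i ^ (m + 1) with hh'
  have hh : ∀ i, (h i).totalDegree ≤ m := hdeg
  have hgen : boxGen m h = f := by
    funext i
    simp only [boxGen, hh']
    ring
  have hI : boxIdeal m h = Ideal.span (Set.range f) := by
    rw [boxIdeal, hgen]
  have hψI : ∀ g ∈ boxIdeal m h, aeval x g = 0 := by
    intro g hg
    have : boxIdeal m h ≤ RingHom.ker (aeval x : MvPolynomial ι 𝒪 →ₐ[𝒪] T) := by
      rw [hI, Ideal.span_le]
      rintro _ ⟨i, rfl⟩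
      exact hker i
    exact this hg
  let ψbar : (MvPolynomial ι 𝒪 ⧸ boxIdeal m h) →ₐ[𝒪] T :=
    Ideal.Quotient.liftₐ (boxIdeal m h) (aeval x) hψI
  have hψbar : ∀ g, ψbar (Ideal.Quotient.mk _ g) = aeval x g := fun g => rfl
  -- the Cramer element
  set Δ := a.det with hΔ
  set t₀ : T := aeval x Δ with ht₀
  have ht₀x : ∀ i, t₀ * x i = 0 := by
    intro i
    have h1 := det_mul_X_mem_span a i
    have h2 : aeval x (Δ * X i) = 0 := hψI _ (by rw [hI]; exact h1)
    rw [map_mul, aeval_X] at h2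
    exact h2
  have hπt₀ : π t₀ = constantCoeff Δ := aug_aeval π x hx Δ
  -- primitivity
  have hprim : ∀ (ϖ : 𝒪) (t' : T), t₀ = ϖ • t' → IsUnit ϖ := by
    intro ϖ t' ht'
    have hϖ0 : ϖ ≠ 0 := by
      rintro rfl
      rw [zero_smul] at ht'
      rw [ht', map_zero] at hπt₀
      exact hdet hπt₀.symm
    have h1 : ∀ i, t' * x i = 0 := by
      intro i
      have h2 : ϖ • (t' * x i) = 0 := by
        rw [← smul_mul_assoc, ← ht', ht₀x]
      exact (smul_eq_zero.mp h2).resolve_left hϖ0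
    obtain ⟨c, hc⟩ := hη t' h1
    have h3 : π t₀ = ϖ * π t' := by
      rw [ht', map_smul, smul_eq_mul]
    rw [hc, hπt₀] at h3
    have h4 : (1 - ϖ * c) * constantCoeff Δ = 0 := by
      rw [sub_mul, one_mul, mul_assoc, ← h3, sub_self]
    have h5 : 1 - ϖ * c = 0 := (mul_eq_zero.mp h4).resolve_right hdet
    exact IsUnit.of_mul_eq_one c (sub_eq_zero.mp h5).symm
  obtain ⟨μ, hμ⟩ := exists_dual_eq_one_of_primitive t₀ hprim
  -- the multiplier
  obtain ⟨yC, hyC⟩ := exists_boxLam_mul_eq hh (μ ∘ₗ ψbar.toLinearMap)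
  have hyC' : ∀ c, boxLam hh (yC * c) = μ (ψbar c) := hyC
  obtain ⟨y, rfl⟩ := Ideal.Quotient.mk_surjective yC
  have hyunit : IsUnit (constantCoeff y) := by
    have h1 : boxLam hh (Ideal.Quotient.mk _ y * Ideal.Quotient.mk _ Δ) = 1 := by
      rw [hyC', hψbar]
      exact hμ
    have h2 : Ideal.Quotient.mk (boxIdeal m h) y * Ideal.Quotient.mk _ Δ =
        constantCoeff y • Ideal.Quotient.mk (boxIdeal m h) Δ := by
      have e1 : y * Δ = C (constantCoeff y) * Δ + Δ * (y - C (constantCoeff y)) := by ring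
      have e2 : Δ * (y - C (constantCoeff y)) ∈ boxIdeal m h := by
        rw [hI]
        apply det_mul_mem_span_of_constantCoeff_eq_zero
        simp
      rw [← map_mul, e1, map_add, Ideal.Quotient.eq_zero_iff_mem.mpr e2, add_zero,
        ← smul_eq_C_mul]
      exact map_smul (Ideal.Quotient.mkₐ 𝒪 (boxIdeal m h)) (constantCoeff y) Δ
    rw [h2, map_smul, smul_eq_mul] at h1
    exact IsUnit.of_mul_eq_one _ h1
  have hyT : IsUnit (aeval x y) := by
    apply isUnit_of_isUnit_aug π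
    rw [aug_aeval π x hx y]
    exact hyunit
  -- decomposition of elements of `T`
  have hdecomp : ∀ s : T, ∃ c : ι → 𝒪, s = algebraMap 𝒪 T (π s) + ∑ i, c i • x i := by
    intro s
    have h1 : π (s - algebraMap 𝒪 T (π s)) = 0 := by
      rw [map_sub, AlgHom.commutes, sub_eq_zero]; rfl
    have h2 := hspan _ h1
    rw [Submodule.mem_span_range_iff_exists_fun] at h2
    obtain ⟨c, hc⟩ := h2
    exact ⟨c, by rw [hc]; ring⟩
  -- `ψbar` is surjective
  have hsurj : Function.Surjective ψbar := by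
    intro s
    obtain ⟨c, hc⟩ := hdecomp s
    refine ⟨Ideal.Quotient.mk _ (C (π s) + ∑ i, C (c i) * X i), ?_⟩
    rw [hψbar, map_add, aeval_C, map_sum]
    conv_rhs => rw [hc]
    congr 1
    refine Finset.sum_congr rfl fun i _ => ?_
    rw [map_mul, aeval_C, aeval_X, Algebra.smul_def]
  obtain ⟨cq, hcq⟩ := hsurj t
  choose t' ht' using ht
  -- the key congruences
  have hkey1 : ∀ s : T, ∃ r : 𝒪, μ (t * s) = π s * μ t + ϖ * r := by
    intro s
    obtain ⟨c, hc⟩ := hdecomp s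
    refine ⟨μ (∑ i, c i • t' i), ?_⟩
    have h1 : t * s = π s • t + ϖ • ∑ i, c i • t' i := by
      conv_lhs => rw [hc]
      rw [mul_add, Finset.mul_sum, Finset.smul_sum, mul_comm, ← Algebra.smul_def]
      congr 1
      refine Finset.sum_congr rfl fun i _ => ?_
      rw [mul_smul_comm, mul_comm, ht' i, smul_comm]
    rw [h1, map_add, map_smul, map_smul, smul_eq_mul, smul_eq_mul]
  have hkey2 : ∀ s : T, μ (t₀ * s) = π s := by
    intro s
    obtain ⟨c, hc⟩ := hdecomp s
    have h1 : t₀ * s = π s • t₀ := by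
      conv_lhs => rw [hc]
      rw [mul_add, Finset.mul_sum, mul_comm, ← Algebra.smul_def]
      rw [Finset.sum_eq_zero, add_zero]
      intro i _
      rw [mul_smul_comm, ht₀x, smul_zero]
    rw [h1, map_smul, hμ, smul_eq_mul, mul_one]
  set z : MvPolynomial ι 𝒪 ⧸ boxIdeal m h :=
    Ideal.Quotient.mk _ y * (cq - μ t • Ideal.Quotient.mk _ Δ) with hz
  have hzg : ∀ g, ∃ r : 𝒪, boxLam hh (z * g) = ϖ * r := by
    intro g
    obtain ⟨r, hr⟩ := hkey1 (ψbar g)
    refine ⟨r, ?_⟩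
    have e : z * g = Ideal.Quotient.mk _ y * (cq * g) -
        μ t • (Ideal.Quotient.mk _ y * (Ideal.Quotient.mk _ Δ * g)) := by
      rw [hz]
      simp only [mul_sub, sub_mul, mul_smul_comm, smul_mul_assoc, mul_assoc]
    rw [e, map_sub, map_smul, hyC', hyC', map_mul ψbar cq g, map_mul ψbar _ g, hcq, hψbar, hr,
      hkey2, smul_eq_mul]
    ring
  -- perfectness modulo `ϖ`
  have hzdiv : ∃ z', z = ϖ • z' := by
    haveI := boxQuot_finite hh
    haveI := boxQuot_free hh
    let b := Module.Free.chooseBasis 𝒪 (MvPolynomial ι 𝒪 ⧸ boxIdeal m h)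
    haveI : Fintype (Module.Free.ChooseBasisIndex 𝒪 (MvPolynomial ι 𝒪 ⧸ boxIdeal m h)) :=
      Module.Free.ChooseBasisIndex.fintype 𝒪 _
    have hcoord : ∀ k, ∃ r : 𝒪, b.repr z k = ϖ * r := by
      intro k
      obtain ⟨w, hw⟩ := exists_boxLam_mul_eq hh (b.coord k)
      obtain ⟨r, hr⟩ := hzg w
      refine ⟨r, ?_⟩
      rw [← hr, mul_comm z w, hw]
      rfl
    choose r hr using hcoord
    refine ⟨∑ k, r k • b k, ?_⟩
    conv_lhs => rw [← b.sum_repr z]
    rw [Finset.smul_sum]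
    refine Finset.sum_congr rfl fun k _ => ?_
    rw [hr k, mul_smul]
  obtain ⟨z', hz'⟩ := hzdiv
  -- conclusion
  have hfin : aeval x y * (t - μ t • t₀) = ϖ • ψbar z' := by
    have h1 := congrArg ψbar hz'
    rw [hz, map_mul, map_sub, map_smul, map_smul, hψbar, hψbar, hcq] at h1
    exact h1
  obtain ⟨u, hu⟩ := hyT
  refine ⟨μ t, (↑u⁻¹ : T) * ψbar z', ?_⟩
  have h2 : t - μ t • t₀ = ϖ • ((↑u⁻¹ : T) * ψbar z') := by
    have h3 : ϖ • ((↑u⁻¹ : T) * ψbar z') = (↑u⁻¹ : T) * (ϖ • ψbar z') := (mul_smul_comm _ _ _).symm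
    rw [h3, ← hfin, ← hu, ← mul_assoc, Units.inv_mul, one_mul]
  rw [← h2]
  ring

end GorCore

section GorNum

universe u v

variable {𝒪 : Type u} [CommRing 𝒪] [IsDomain 𝒪] [IsDiscreteValuationRing 𝒪]
variable {T : Type v} [CommRing T] [IsLocalRing T] [Algebra 𝒪 T] [Module.Free 𝒪 T]
  [Module.Finite 𝒪 T]

/-- **Gorenstein property from the numerical equality.**  If `Φ_T` is finite and
`#Φ_T ≤ #(𝒪/η_T)`, there is `θ ∈ Ann (ker π)` with `η_T = (π θ) ≠ 0` whose class spans the socle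
of `T / ϖ T`: every `t` with `(ker π) t ⊆ ϖ T` lies in `𝒪 θ + ϖ T`. -/
theorem exists_socle_generator (π : T →ₐ[𝒪] 𝒪)
    [Finite (RingHom.ker (π : T →+* 𝒪)).Cotangent]
    (hcard : Nat.card (RingHom.ker (π : T →+* 𝒪)).Cotangent ≤
      Nat.card (𝒪 ⧸ Ideal.map (π : T →+* 𝒪)
        (Submodule.annihilator (RingHom.ker (π : T →+* 𝒪)))))
    {ϖ : 𝒪} (hϖ : Irreducible ϖ) :
    ∃ θ : T, (∀ s, π s = 0 → θ * s = 0) ∧ π θ ≠ 0 ∧
      Ideal.map (π : T →+* 𝒪) (Submodule.annihilator (RingHom.ker (π : T →+* 𝒪))) =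
        Ideal.span {π θ} ∧
      ∀ t : T, (∀ s, π s = 0 → ∃ t', s * t = ϖ • t') →
        ∃ (c : 𝒪) (t' : T), t = c • θ + ϖ • t' := by
  classical
  set 𝔭T : Ideal T := RingHom.ker (π : T →+* 𝒪) with h𝔭T
  set η : Ideal 𝒪 := Ideal.map (π : T →+* 𝒪) (Submodule.annihilator 𝔭T) with hη
  have mem𝔭T : ∀ t : T, t ∈ 𝔭T ↔ π t = 0 := fun t => Iff.rfl
  obtain ⟨ι, hι, x, d, hx, hspan, hrel, hprod, hcardT⟩ := exists_diag_relations π
  set v : Matrix ι ι 𝒪 := Matrix.diagonal d with hv
  have hdet : v.det = ∏ i, d i := Matrix.det_diagonal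
  have hvrel : ∀ i, ∑ j, v i j • x j ∈ 𝔭T ^ 2 := by
    intro i
    have : ∑ j, v i j • x j = d i • x i := by
      rw [Finset.sum_eq_single i]
      · rw [hv, Matrix.diagonal_apply_eq]
      · intro j _ hji
        rw [hv, Matrix.diagonal_apply_ne _ (Ne.symm hji), zero_smul]
      · intro h
        exact absurd (Finset.mem_univ i) h
    rw [this]
    exact hrel i
  obtain ⟨a, hdeg, hker, hconst⟩ := exists_poly_data π x hx hspan v hvrel
  have hd := constantCoeff_det_eq a v hconst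
  set θ : T := MvPolynomial.aeval x a.det with hθ
  have hθx : ∀ j, θ * x j = 0 := by
    intro j
    have h2 := det_mul_X_mem_span a j
    have h3 : Ideal.span (Set.range fun i => ∑ k, a i k * (X k : MvPolynomial ι 𝒪)) ≤
        RingHom.ker (aeval x : MvPolynomial ι 𝒪 →ₐ[𝒪] T) := by
      rw [Ideal.span_le]
      rintro _ ⟨i, rfl⟩
      exact hker i
    have h4 : aeval x (a.det * X j) = 0 := h3 h2
    rw [map_mul, aeval_X] at h4
    exact h4
  have hθann : ∀ s, π s = 0 → θ * s = 0 := by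
    intro s hs
    have h1 := hspan s hs
    rw [Submodule.mem_span_range_iff_exists_fun] at h1
    obtain ⟨c, rfl⟩ := h1
    rw [Finset.mul_sum]
    refine Finset.sum_eq_zero fun i _ => ?_
    rw [mul_smul_comm, hθx, smul_zero]
  have hπθ : π θ = v.det := by
    rw [hθ, aug_aeval π x hx, hd]
  have hdetη : v.det ∈ η := by
    rw [← hπθ]
    refine Ideal.mem_map_of_mem _ ?_
    rw [Submodule.mem_annihilator]
    intro s hs
    exact hθann s ((mem𝔭T s).mp hs)
  have hspanη : Ideal.span {v.det} ≤ η := (Ideal.span_singleton_le_iff_mem _).mpr hdetη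
  have hc1 : Nat.card (𝒪 ⧸ Ideal.span {v.det}) = Nat.card 𝔭T.Cotangent := by
    rw [hdet]; exact hcardT
  have hfin : Finite (𝒪 ⧸ Ideal.span {v.det}) := by
    apply Nat.finite_of_card_ne_zero
    rw [hc1]
    exact Nat.card_pos.ne'
  have hc3 : Nat.card (𝒪 ⧸ η) ≤ Nat.card (𝒪 ⧸ Ideal.span {v.det}) :=
    Nat.card_le_card_of_surjective _ (Ideal.Quotient.factor_surjective hspanη)
  have hc4 : Nat.card (𝒪 ⧸ Ideal.span {v.det}) = Nat.card (𝒪 ⧸ η) := by omega
  have hfac : Function.Bijective (Ideal.Quotient.factor hspanη) :=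
    (Nat.bijective_iff_surjective_and_card _).mpr ⟨Ideal.Quotient.factor_surjective hspanη, hc4⟩
  have hηle : η ≤ Ideal.span {v.det} := by
    intro c hc
    have h1 : Ideal.Quotient.factor hspanη (Ideal.Quotient.mk _ c) = 0 := by
      rw [Ideal.Quotient.factor_mk]
      exact Ideal.Quotient.eq_zero_iff_mem.mpr hc
    have h2 := hfac.1 (h1.trans (map_zero _).symm)
    exact Ideal.Quotient.eq_zero_iff_mem.mp h2
  have hdet0 : v.det ≠ 0 := by rw [hdet]; exact hprod
  refine ⟨θ, hθann, by rw [hπθ]; exact hdet0, ?_, ?_⟩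
  · rw [hπθ]
    exact le_antisymm hηle hspanη
  · intro t ht
    refine socle_of_numerical_data π x hx hspan 2 a hdeg hker (by rw [hd]; exact hdet0) ?_ hϖ t
      (fun i => ht (x i) (hx i))
    intro t₁ ht₁
    rw [hd]
    have h1 : π t₁ ∈ η := by
      refine Ideal.mem_map_of_mem _ ?_
      rw [Submodule.mem_annihilator]
      intro s hs
      have h2 := hspan s ((mem𝔭T s).mp hs)
      rw [Submodule.mem_span_range_iff_exists_fun] at h2
      obtain ⟨c, rfl⟩ := h2
      rw [smul_eq_mul, Finset.mul_sum]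
      refine Finset.sum_eq_zero fun i _ => ?_
      rw [mul_smul_comm, ht₁, smul_zero]
    obtain ⟨c, hc⟩ := Ideal.mem_span_singleton'.mp (hηle h1)
    exact ⟨c, hc.symm⟩

end GorNum

end Fermat.Agent.S59.H427
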