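import Mathlib

/-!
# S59 / N1 (helper427): Koszul syzygies of pure powers

For a commutative ring `A`, the pure powers `X i ^ D` in `MvPolynomial ι A` have only the trivial
(Koszul) syzygies: if `∑ i ∈ s, a i * X i ^ D = 0` then `a i = ∑ j ∈ s, c i j * X j ^ D` for an
alternating family `c`.  Everything is elementary (monomial ideals).
-/

set_option autoImplicit false

namespace Fermat.Agent.S59.H427

open MvPolynomial

variable {A : Type*} [CommRing A] {ι : Type*}

/-- The monomial ideal generated by the pure powers `X i ^ D`, `i ∈ s`. -/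
noncomputable def powIdeal (A : Type*) [CommRing A] {ι : Type*} (D : ℕ) (s : Set ι) :
    Ideal (MvPolynomial ι A) :=
  Ideal.span ((fun i => (X i : MvPolynomial ι A) ^ D) '' s)

theorem mem_powIdeal_iff {D : ℕ} {s : Set ι} {g : MvPolynomial ι A} :
    g ∈ powIdeal A D s ↔ ∀ m ∈ g.support, ∃ i ∈ s, D ≤ m i := by
  classical
  have h1 : ((fun i => (X i : MvPolynomial ι A) ^ D) '' s) =
      (fun t => monomial t (1 : A)) '' ((fun i => Finsupp.single i D) '' s) := by
    rw [Set.image_image]
    refine Set.image_congr fun i _ => ?_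
    exact X_pow_eq_monomial
  rw [powIdeal, h1, mem_ideal_span_monomial_image]
  refine forall₂_congr fun m _ => ?_
  constructor
  · rintro ⟨_, ⟨i, hi, rfl⟩, hle⟩
    exact ⟨i, hi, by simpa using hle i⟩
  · rintro ⟨i, hi, hle⟩
    refine ⟨_, ⟨i, hi, rfl⟩, ?_⟩
    intro j
    by_cases hj : j = i
    · subst hj; simpa using hle
    · simp [Ne.symm hj]

theorem X_pow_mem_powIdeal {D : ℕ} {s : Set ι} {i : ι} (hi : i ∈ s) :
    (X i : MvPolynomial ι A) ^ D ∈ powIdeal A D s :=
  Ideal.subset_span ⟨i, hi, rfl⟩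

/-- `X k ^ D` is a nonzerodivisor modulo the pure powers of the other variables. -/
theorem mem_powIdeal_of_mul_X_pow_mem {D : ℕ} {s : Set ι} {k : ι} (hk : k ∉ s)
    {a : MvPolynomial ι A} (h : a * X k ^ D ∈ powIdeal A D s) : a ∈ powIdeal A D s := by
  classical
  rw [mem_powIdeal_iff] at h ⊢
  intro m hm
  have hm' : m + Finsupp.single k D ∈ (a * X k ^ D).support := by
    rw [mem_support_iff, X_pow_eq_monomial, coeff_mul_monomial, mul_one]
    exact mem_support_iff.mp hm
  obtain ⟨i, hi, hle⟩ := h _ hm'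
  refine ⟨i, hi, ?_⟩
  have hik : k ≠ i := fun e => hk (e ▸ hi)
  simpa [Finsupp.single_apply, hik] using hle

/-- Elements of the monomial ideal are combinations of the generators. -/
theorem exists_eq_sum_of_mem_powIdeal {D : ℕ} (s : Finset ι) {a : MvPolynomial ι A}
    (h : a ∈ powIdeal A D (s : Set ι)) :
    ∃ c : ι → MvPolynomial ι A, a = ∑ j ∈ s, c j * X j ^ D := by
  classical
  have h1 : ((fun i => (X i : MvPolynomial ι A) ^ D) '' (s : Set ι)) =
      Set.range (fun i : s => (X (i : ι) : MvPolynomial ι A) ^ D) := by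
    ext p
    constructor
    · rintro ⟨i, hi, rfl⟩; exact ⟨⟨i, hi⟩, rfl⟩
    · rintro ⟨⟨i, hi⟩, rfl⟩; exact ⟨i, hi, rfl⟩
  rw [powIdeal, h1, Ideal.mem_span_range_iff_exists_fun] at h
  obtain ⟨c, hc⟩ := h
  refine ⟨fun j => if hj : j ∈ s then c ⟨j, hj⟩ else 0, ?_⟩
  rw [← hc, ← Finset.sum_coe_sort s]
  refine Finset.sum_congr rfl fun j _ => ?_
  simp

/-- **Koszul syzygies of pure powers.** -/
theorem koszul_pow [DecidableEq ι] (D : ℕ) (s : Finset ι) :
    ∀ a : ι → MvPolynomial ι A, ∑ i ∈ s, a i * X i ^ D = 0 →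
      ∃ c : ι → ι → MvPolynomial ι A, (∀ i j, c i j = - c j i) ∧ (∀ i, c i i = 0) ∧
        ∀ i ∈ s, a i = ∑ j ∈ s, c i j * X j ^ D := by
  induction s using Finset.induction_on with
  | empty =>
    intro a _
    exact ⟨fun _ _ => 0, by simp, by simp, by simp⟩
  | insert k s hk ih =>
    intro a ha
    rw [Finset.sum_insert hk] at ha
    -- `a k ∈ powIdeal s`
    have h1 : a k * X k ^ D ∈ powIdeal A D (s : Set ι) := by
      have : a k * X k ^ D = - ∑ i ∈ s, a i * X i ^ D := eq_neg_of_add_eq_zero_left ha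
      rw [this]
      refine neg_mem (Ideal.sum_mem _ fun i hi => ?_)
      exact Ideal.mul_mem_left _ _ (X_pow_mem_powIdeal (by simpa using hi))
    have h2 := mem_powIdeal_of_mul_X_pow_mem (by simpa using hk) h1
    obtain ⟨γ, hγ⟩ := exists_eq_sum_of_mem_powIdeal s h2
    -- modified coefficients
    have h3 : ∑ i ∈ s, (a i + γ i * X k ^ D) * X i ^ D = 0 := by
      have : ∑ i ∈ s, (a i + γ i * X k ^ D) * X i ^ D =
          ∑ i ∈ s, a i * X i ^ D + (∑ i ∈ s, γ i * X i ^ D) * X k ^ D := by
        rw [Finset.sum_mul, ← Finset.sum_add_distrib]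
        refine Finset.sum_congr rfl fun i _ => ?_
        ring
      rw [this, ← hγ, add_comm]
      exact ha
    obtain ⟨c', hc1, hc2, hc3⟩ := ih _ h3
    refine ⟨fun i j => if i = k then (if j = k then 0 else γ j)
        else if j = k then - γ i else c' i j, ?_, ?_, ?_⟩
    · intro i j
      by_cases hi : i = k <;> by_cases hj : j = k <;> simp [hi, hj, hc1 i j]
    · intro i
      by_cases hi : i = k <;> simp [hi, hc2]
    · intro i hi
      rw [Finset.mem_insert] at hi
      rw [Finset.sum_insert hk]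
      rcases hi with rfl | hi
      · simp only [if_true, zero_mul, zero_add]
        rw [hγ]
        refine Finset.sum_congr rfl fun j hj => ?_
        have : j ≠ i := fun e => hk (e ▸ hj)
        simp [this]
      · have hik : i ≠ k := fun e => hk (e ▸ hi)
        simp only [hik, if_false, if_true]
        have h4 := hc3 i hi
        have h5 : ∑ j ∈ s, (if j = k then - γ i else c' i j) * X j ^ D =
            ∑ j ∈ s, c' i j * X j ^ D := by
          refine Finset.sum_congr rfl fun j hj => ?_
          have : j ≠ k := fun e => hk (e ▸ hj)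
          simp [this]
        rw [h5, ← h4]
        ring

end Fermat.Agent.S59.H427
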