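import Mathlib
import Fermat.Agent.S59.H360.NCFlat

/-!
# S59 / N1 (helper427): cokernel of a square matrix over a PID

`card_quotient_range_mulVecLin`: for a square matrix `J` over a principal ideal domain `O` with
`det J ≠ 0`, `#(Oⁿ / J Oⁿ) = #(O / det J)` (as `Nat.card`, no finiteness assumption).
-/

set_option autoImplicit false
set_option linter.unusedSectionVars false

namespace Fermat.Agent.S59.H427

open Module Submodule

section LenDet

variable {O : Type*} [CommRing O] [IsDomain O] [IsPrincipalIdealRing O]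

/-- Cramer's rule over any commutative ring: `det G * v j ∈ (G v)`. -/
theorem det_mul_mem_span_mulVec {A : Type*} [CommRing A] {ι : Type*} [Fintype ι] [DecidableEq ι]
    (G : Matrix ι ι A) (v : ι → A) (j : ι) :
    G.det * v j ∈ Ideal.span (Set.range fun i => ∑ k, G i k * v k) := by
  have h1 : G.adjugate.mulVec (G.mulVec v) = G.det • v := by
    rw [Matrix.mulVec_mulVec, Matrix.adjugate_mul, Matrix.smul_mulVec, Matrix.one_mulVec]
  have h2 := congrFun h1 j
  simp only [Matrix.mulVec, dotProduct, Pi.smul_apply, smul_eq_mul] at h2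
  rw [← h2]
  exact Ideal.sum_mem _ fun i _ => Ideal.mul_mem_left _ _ (Ideal.subset_span ⟨i, rfl⟩)

/-- **LENDET**: `#(Oⁿ / J Oⁿ) = #(O / det J)` for `det J ≠ 0` over a PID. -/
theorem card_quotient_range_mulVecLin {n : ℕ} (J : Matrix (Fin n) (Fin n) O) (hdet : J.det ≠ 0) :
    Nat.card ((Fin n → O) ⧸ LinearMap.range J.mulVecLin) =
      Nat.card (O ⧸ Ideal.span {J.det}) := by
  classical
  set f : (Fin n → O) →ₗ[O] (Fin n → O) := J.mulVecLin with hf
  have hinj : Function.Injective f := by
    rw [← LinearMap.ker_eq_bot, LinearMap.ker_eq_bot']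
    intro v hv
    exact Matrix.eq_zero_of_mulVec_eq_zero hdet hv
  set N : Submodule O (Fin n → O) := LinearMap.range f with hN
  let e : (Fin n → O) ≃ₗ[O] N := LinearEquiv.ofInjective f hinj
  have h : Module.finrank O N = Module.finrank O (Fin n → O) := e.symm.finrank_eq
  let b : Basis (Fin n) O (Fin n → O) := Pi.basisFun O (Fin n)
  let a := smithNormalFormCoeffs b h
  let b' := smithNormalFormTopBasis b h
  let ab := smithNormalFormBotBasis b h
  have ab_eq := smithNormalFormBotBasis_def b h
  let e' : (Fin n → O) ≃ₗ[O] N := b'.equiv ab (Equiv.refl _)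
  let g : (Fin n → O) →ₗ[O] (Fin n → O) := N.subtype.comp (e' : (Fin n → O) →ₗ[O] N)
  have hg : ∀ i, g (b' i) = a i • b' i := by
    intro i
    show ((b'.equiv ab (Equiv.refl _) (b' i) : N) : Fin n → O) = _
    rw [b'.equiv_apply, Equiv.refl_apply]
    exact ab_eq i
  have hdetg : LinearMap.det g = ∏ i, a i := by
    rw [← LinearMap.det_toMatrix b', ← Matrix.det_diagonal]
    congr 1
    ext i j
    rw [LinearMap.toMatrix_apply, hg, map_smul, Basis.repr_self, Finsupp.smul_single,
      smul_eq_mul, mul_one]
    by_cases hij : i = j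
    · rw [hij, Matrix.diagonal_apply_eq, Finsupp.single_eq_same]
    · rw [Matrix.diagonal_apply_ne _ hij, Finsupp.single_eq_of_ne hij]
  have hfe : f = N.subtype.comp (e : (Fin n → O) →ₗ[O] N) := by
    ext v : 1
    rfl
  have hdetf : LinearMap.det f = J.det := by
    rw [hf, ← Matrix.toLin'_apply', LinearMap.det_toLin']
  have hassoc : Associated J.det (∏ i, a i) := by
    rw [← hdetf, ← hdetg, hfe]
    exact LinearMap.associated_det_comp_equiv _ _ _
  have hspan : Ideal.span {J.det} = Ideal.span {∏ i, a i} :=
    Ideal.span_singleton_eq_span_singleton.mpr hassoc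
  rw [hspan, Nat.card_congr (quotientEquivPiSpan N b h).toEquiv, Nat.card_pi]
  have := Fermat.Agent.S59.H360.card_quot_span_prod (O := O) Finset.univ a
    (fun i _ => smithNormalFormCoeffs_ne_zero b h i)
  rw [this]

end LenDet

end Fermat.Agent.S59.H427
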