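import Fermat.Agent.S59.H427.ReducedCot
import Fermat.Agent.S59.TW.H959.Iface

/-!
# S59, cell TW, LEAF NUM (helper427): `TW.H959.MinNumStatement`

The numerical equality `#(𝔭/𝔭²) = #(𝒪/η) < ∞` for a reduced complete intersection, VERBATIM in
the shape frozen in `Fermat/Agent/S59/TW/H959/Iface.lean`.

Proof: Tate's formula `card_cotangent_eq_of_ci` (`TateRecenter.lean`), transport along the
isomorphism `φ` (`NCBridge.lean`), and finiteness of the cotangent space of a reduced finite
`𝒪`-algebra (`ReducedCot.lean`).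
-/

set_option autoImplicit false

namespace Fermat.Agent.S59.H427

/-- **LEAF NUM** of cell TW (`TW.H959.MinNumStatement`, verbatim). -/
theorem minNum : Fermat.Agent.S59.TW.H959.MinNumStatement := by
  intro 𝒪 _ _ _ _ _ _ r R _ _ T _ _ _ _ _ _ φ hφ ψ hψ g hker π
  exact numEq_of_ci_of_isReduced φ hφ π ψ hψ g hker

end Fermat.Agent.S59.H427
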