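import Fermat.Agent.S59.H427.Structure

/-!
# S59 / N1 (helper427): the Wiles–Lenstra numerical criterion

`𝒪` a discrete valuation ring, `R` a Noetherian local `𝒪`-algebra, `T` a finite free
`𝒪`-algebra, `φ : R ↠ T` a surjective `𝒪`-algebra map and `π : T → 𝒪` an augmentation.
With `𝔭_R = ker (π ∘ φ)`, `Φ_R = 𝔭_R / 𝔭_R ^ 2` and `η_T = π (Ann_T (ker π))`:

  if `Φ_R` is finite and `#Φ_R ≤ #(𝒪 / η_T)`, then `φ` is an isomorphism.

No completeness assumption is needed.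
-/

set_option autoImplicit false
set_option linter.unusedSectionVars false

namespace Fermat.Agent.S59.H427

open IsLocalRing

universe u v w

variable {𝒪 : Type u} [CommRing 𝒪] [IsDomain 𝒪] [IsDiscreteValuationRing 𝒪]
variable {R : Type w} [CommRing R] [Algebra 𝒪 R] [IsLocalRing R] [IsNoetherianRing R]
variable {T : Type v} [CommRing T] [Algebra 𝒪 T] [Module.Free 𝒪 T] [Module.Finite 𝒪 T]

/-- **Wiles–Lenstra numerical criterion** (Mathlib-only statement), with the resulting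
equality `#Φ_R = #(𝒪 / η_T)`. -/
theorem numerical_criterion_full (φ : R →ₐ[𝒪] T) (hφ : Function.Surjective φ) (π : T →ₐ[𝒪] 𝒪)
    [Finite (RingHom.ker ((π.comp φ : R →ₐ[𝒪] 𝒪) : R →+* 𝒪)).Cotangent]
    (hcard : Nat.card (RingHom.ker ((π.comp φ : R →ₐ[𝒪] 𝒪) : R →+* 𝒪)).Cotangent ≤
      Nat.card (𝒪 ⧸ Ideal.map (π : T →+* 𝒪)
        (Submodule.annihilator (RingHom.ker (π : T →+* 𝒪))))) :
    Function.Bijective φ ∧
      Nat.card (RingHom.ker ((π.comp φ : R →ₐ[𝒪] 𝒪) : R →+* 𝒪)).Cotangent =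
        Nat.card (𝒪 ⧸ Ideal.map (π : T →+* 𝒪)
          (Submodule.annihilator (RingHom.ker (π : T →+* 𝒪)))) := by
  classical
  refine ⟨⟨?_, hφ⟩, ?_⟩
  swap
  · -- the equality of cardinalities is re-derived below; here we only need `≥`
    refine le_antisymm hcard ?_
    set 𝔭R : Ideal R := RingHom.ker ((π.comp φ : R →ₐ[𝒪] 𝒪) : R →+* 𝒪) with h𝔭R
    set 𝔭T : Ideal T := RingHom.ker (π : T →+* 𝒪) with h𝔭T
    set η : Ideal 𝒪 := Ideal.map (π : T →+* 𝒪) (Submodule.annihilator 𝔭T) with hη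
    have mem𝔭T : ∀ t : T, t ∈ 𝔭T ↔ π t = 0 := fun t => Iff.rfl
    have hle : 𝔭R ≤ 𝔭T.comap φ := fun r hr => hr
    let mapCot : 𝔭R.Cotangent →ₗ[𝒪] 𝔭T.Cotangent := Ideal.mapCotangent 𝔭R 𝔭T φ hle
    have hmapCot : ∀ r : 𝔭R, mapCot (𝔭R.toCotangent r) = 𝔭T.toCotangent ⟨φ r, hle r.2⟩ :=
      fun r => Ideal.mapCotangent_toCotangent 𝔭R 𝔭T φ hle r
    have hsurj : Function.Surjective mapCot := by
      intro y
      obtain ⟨⟨t, ht⟩, rfl⟩ := 𝔭T.toCotangent_surjective y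
      obtain ⟨r, rfl⟩ := hφ t
      exact ⟨𝔭R.toCotangent ⟨r, ht⟩, hmapCot _⟩
    have : Finite 𝔭T.Cotangent := Finite.of_surjective _ hsurj
    obtain ⟨ι, hι, x, d, hx, hspan, hrel, hprod, hcardT⟩ := exists_diag_relations π
    set v : Matrix ι ι 𝒪 := Matrix.diagonal d with hv
    have hdet : v.det = ∏ i, d i := Matrix.det_diagonal
    have hvrel : ∀ i, ∑ j, v i j • x j ∈ 𝔭T ^ 2 := by
      intro i
      have : ∑ j, v i j • x j = d i • x i := by
        rw [Finset.sum_eq_single i]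
        · rw [hv, Matrix.diagonal_apply_eq]
        · intro j _ hji
          rw [hv, Matrix.diagonal_apply_ne _ (Ne.symm hji), zero_smul]
        · intro h
          exact absurd (Finset.mem_univ i) h
      rw [this]
      exact hrel i
    obtain ⟨t₀, ht₀, hπt₀⟩ := exists_ann_of_relations π x hx hspan v hvrel
    have hdetη : v.det ∈ η := by
      rw [← hπt₀]
      refine Ideal.mem_map_of_mem _ ?_
      rw [Submodule.mem_annihilator]
      intro s hs
      exact ht₀ s ((mem𝔭T s).mp hs)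
    have hspanη : Ideal.span {v.det} ≤ η := (Ideal.span_singleton_le_iff_mem _).mpr hdetη
    have hc1 : Nat.card (𝒪 ⧸ Ideal.span {v.det}) = Nat.card 𝔭T.Cotangent := by
      rw [hdet]; exact hcardT
    have hc2 : Nat.card 𝔭T.Cotangent ≤ Nat.card 𝔭R.Cotangent :=
      Nat.card_le_card_of_surjective _ hsurj
    have hfin : Finite (𝒪 ⧸ Ideal.span {v.det}) := by
      apply Nat.finite_of_card_ne_zero
      rw [hc1]
      exact Nat.card_pos.ne'
    have hc3 : Nat.card (𝒪 ⧸ η) ≤ Nat.card (𝒪 ⧸ Ideal.span {v.det}) :=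
      Nat.card_le_card_of_surjective _ (Ideal.Quotient.factor_surjective hspanη)
    omega
  set 𝔭R : Ideal R := RingHom.ker ((π.comp φ : R →ₐ[𝒪] 𝒪) : R →+* 𝒪) with h𝔭R
  set 𝔭T : Ideal T := RingHom.ker (π : T →+* 𝒪) with h𝔭T
  set η : Ideal 𝒪 := Ideal.map (π : T →+* 𝒪) (Submodule.annihilator 𝔭T) with hη
  have mem𝔭R : ∀ r : R, r ∈ 𝔭R ↔ π (φ r) = 0 := fun r => Iff.rfl
  have mem𝔭T : ∀ t : T, t ∈ 𝔭T ↔ π t = 0 := fun t => Iff.rfl
  -- the map on cotangent spaces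
  have hle : 𝔭R ≤ 𝔭T.comap φ := fun r hr => hr
  let mapCot : 𝔭R.Cotangent →ₗ[𝒪] 𝔭T.Cotangent := Ideal.mapCotangent 𝔭R 𝔭T φ hle
  have hmapCot : ∀ r : 𝔭R, mapCot (𝔭R.toCotangent r) = 𝔭T.toCotangent ⟨φ r, hle r.2⟩ :=
    fun r => Ideal.mapCotangent_toCotangent 𝔭R 𝔭T φ hle r
  have hsurj : Function.Surjective mapCot := by
    intro y
    obtain ⟨⟨t, ht⟩, rfl⟩ := 𝔭T.toCotangent_surjective y
    obtain ⟨r, rfl⟩ := hφ t
    exact ⟨𝔭R.toCotangent ⟨r, ht⟩, hmapCot _⟩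
  have : Finite 𝔭T.Cotangent := Finite.of_surjective _ hsurj
  -- adapted generators
  obtain ⟨ι, hι, x, d, hx, hspan, hrel, hprod, hcardT⟩ := exists_diag_relations π
  set v : Matrix ι ι 𝒪 := Matrix.diagonal d with hv
  have hdet : v.det = ∏ i, d i := Matrix.det_diagonal
  have hvrel : ∀ i, ∑ j, v i j • x j ∈ 𝔭T ^ 2 := by
    intro i
    have : ∑ j, v i j • x j = d i • x i := by
      rw [Finset.sum_eq_single i]
      · rw [hv, Matrix.diagonal_apply_eq]
      · intro j _ hji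
        rw [hv, Matrix.diagonal_apply_ne _ (Ne.symm hji), zero_smul]
      · intro h
        exact absurd (Finset.mem_univ i) h
    rw [this]
    exact hrel i
  -- `det v ∈ η`
  obtain ⟨t₀, ht₀, hπt₀⟩ := exists_ann_of_relations π x hx hspan v hvrel
  have hdetη : v.det ∈ η := by
    rw [← hπt₀]
    refine Ideal.mem_map_of_mem _ ?_
    rw [Submodule.mem_annihilator]
    intro s hs
    exact ht₀ s ((mem𝔭T s).mp hs)
  have hspanη : Ideal.span {v.det} ≤ η := (Ideal.span_singleton_le_iff_mem _).mpr hdetη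
  -- cardinalities
  have hc1 : Nat.card (𝒪 ⧸ Ideal.span {v.det}) = Nat.card 𝔭T.Cotangent := by
    rw [hdet]; exact hcardT
  have hc2 : Nat.card 𝔭T.Cotangent ≤ Nat.card 𝔭R.Cotangent :=
    Nat.card_le_card_of_surjective _ hsurj
  have hfin : Finite (𝒪 ⧸ Ideal.span {v.det}) := by
    apply Nat.finite_of_card_ne_zero
    rw [hc1]
    exact Nat.card_pos.ne'
  have hc3 : Nat.card (𝒪 ⧸ η) ≤ Nat.card (𝒪 ⧸ Ideal.span {v.det}) :=
    Nat.card_le_card_of_surjective _ (Ideal.Quotient.factor_surjective hspanη)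
  have hc4 : Nat.card (𝒪 ⧸ Ideal.span {v.det}) = Nat.card (𝒪 ⧸ η) := by omega
  have hc5 : Nat.card 𝔭R.Cotangent = Nat.card 𝔭T.Cotangent := by omega
  -- `η = (det v)`
  have hfac : Function.Bijective (Ideal.Quotient.factor hspanη) :=
    (Nat.bijective_iff_surjective_and_card _).mpr ⟨Ideal.Quotient.factor_surjective hspanη, hc4⟩
  have hηle : η ≤ Ideal.span {v.det} := by
    intro c hc
    have h1 : Ideal.Quotient.factor hspanη (Ideal.Quotient.mk _ c) = 0 := by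
      rw [Ideal.Quotient.factor_mk]
      exact Ideal.Quotient.eq_zero_iff_mem.mpr hc
    have h2 := hfac.1 (h1.trans (map_zero _).symm)
    exact Ideal.Quotient.eq_zero_iff_mem.mp h2
  -- injectivity on cotangent spaces gives `ker φ ≤ 𝔭R ^ 2`
  have hbij : Function.Bijective mapCot :=
    (Nat.bijective_iff_surjective_and_card _).mpr ⟨hsurj, hc5⟩
  have hH1 : RingHom.ker (φ : R →+* T) ≤ 𝔭R ^ 2 := by
    intro j hj
    have hj0 : φ j = 0 := hj
    have hj𝔭 : j ∈ 𝔭R := by rw [mem𝔭R, hj0, map_zero]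
    have h1 : mapCot (𝔭R.toCotangent ⟨j, hj𝔭⟩) = 0 := by
      rw [hmapCot, Ideal.toCotangent_eq_zero]
      show φ j ∈ 𝔭T ^ 2
      rw [hj0]
      exact Ideal.zero_mem _
    have h2 := hbij.1 (h1.trans (map_zero _).symm)
    exact (Ideal.toCotangent_eq_zero _ _).mp h2
  -- apply the core theorem
  refine injective_of_relations φ hφ π hH1 x hx hspan v hvrel (by rw [hdet]; exact hprod) ?_
  intro t ht
  have h1 : π t ∈ η := by
    refine Ideal.mem_map_of_mem _ ?_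
    rw [Submodule.mem_annihilator]
    intro s hs
    exact ht s ((mem𝔭T s).mp hs)
  obtain ⟨c, hc⟩ := Ideal.mem_span_singleton'.mp (hηle h1)
  exact ⟨c, hc.symm⟩

/-- **Wiles–Lenstra numerical criterion** (Mathlib-only statement). -/
theorem numerical_criterion (φ : R →ₐ[𝒪] T) (hφ : Function.Surjective φ) (π : T →ₐ[𝒪] 𝒪)
    [Finite (RingHom.ker ((π.comp φ : R →ₐ[𝒪] 𝒪) : R →+* 𝒪)).Cotangent]
    (hcard : Nat.card (RingHom.ker ((π.comp φ : R →ₐ[𝒪] 𝒪) : R →+* 𝒪)).Cotangent ≤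
      Nat.card (𝒪 ⧸ Ideal.map (π : T →+* 𝒪)
        (Submodule.annihilator (RingHom.ker (π : T →+* 𝒪))))) :
    Function.Bijective φ :=
  (numerical_criterion_full φ hφ π hcard).1

end Fermat.Agent.S59.H427
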