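import Fermat.Agent.S59.H427.Numerical
import Fermat.Agent.S59.NC.Defs

/-!
# S59 / N1 (helper427): the numerical criterion in the vocabulary of `S59/NC/Defs.lean`

`Fermat.Agent.S59.NC.Cot`, `Fermat.Agent.S59.NC.congIdeal` are the cotangent module and the
congruence ideal of an augmented `𝒪`-algebra.
-/

set_option autoImplicit false
set_option linter.unusedSectionVars false

namespace Fermat.Agent.S59.H427

open Fermat.Agent.S59.NC

universe u v w

variable {𝒪 : Type u} [CommRing 𝒪] [IsDomain 𝒪] [IsDiscreteValuationRing 𝒪]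
variable {R : Type w} [CommRing R] [Algebra 𝒪 R] [IsLocalRing R] [IsNoetherianRing R]
variable {T : Type v} [CommRing T] [Algebra 𝒪 T] [Module.Free 𝒪 T] [Module.Finite 𝒪 T]

/-- **Wiles–Lenstra numerical criterion**: if `#Φ_R ≤ #(𝒪 / η_T)` (with `Φ_R` finite), then the
surjection `φ : R ↠ T` is an isomorphism. -/
theorem numerical_criterion_NC (φ : R →ₐ[𝒪] T) (hφ : Function.Surjective φ) (π : T →ₐ[𝒪] 𝒪)
    [Finite (Cot (π.comp φ))]
    (hcard : Nat.card (Cot (π.comp φ)) ≤ Nat.card (𝒪 ⧸ congIdeal π)) :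
    Function.Bijective φ := by
  have hfin : Finite (RingHom.ker ((π.comp φ : R →ₐ[𝒪] 𝒪) : R →+* 𝒪)).Cotangent :=
    ‹Finite (Cot (π.comp φ))›
  exact numerical_criterion φ hφ π hcard

/-- The same, packaged as an algebra isomorphism. -/
theorem exists_algEquiv_of_numerical_criterion (φ : R →ₐ[𝒪] T) (hφ : Function.Surjective φ)
    (π : T →ₐ[𝒪] 𝒪) [Finite (Cot (π.comp φ))]
    (hcard : Nat.card (Cot (π.comp φ)) ≤ Nat.card (𝒪 ⧸ congIdeal π)) :
    ∃ e : R ≃ₐ[𝒪] T, ∀ r, e r = φ r :=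
  ⟨AlgEquiv.ofBijective φ (numerical_criterion_NC φ hφ π hcard), fun _ => rfl⟩

end Fermat.Agent.S59.H427
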