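import Fermat.Agent.S59.H427.Gor
import Fermat.Agent.S59.H427.TateFormula

/-!
# S59 / N1 (helper427): the congruence module `Ω` of a module (Diamond, DDT "Criterion II")

`T` an augmented `𝒪`-algebra (`π : T → 𝒪`, `𝔭 = ker π`, `I = Ann 𝔭`, `η = π I`), `M` a
`T`-module which is finite free over the DVR `𝒪`.

* `augTorsion π M = M[𝔭]`, `annTorsion π M = M[I]` (as `𝒪`-submodules of `M`);
* `OmegaMod π M = M ⧸ (M[𝔭] ⊔ M[I])`;
* `card_omegaMod_le` : `#Ω ≤ #(𝒪/η)^d`, `d = rank_𝒪 M[𝔭]`;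
* `augTorsion_le_range_of_card_omegaMod_eq` : in case of equality, `M[𝔭] = θ M` for a generator
  `θ` of `I`.
-/

set_option autoImplicit false
set_option linter.unusedSectionVars false
set_option linter.unusedVariables false
set_option linter.style.haveILetI false

namespace Fermat.Agent.S59.H427

open IsLocalRing Fermat.Agent.S59.H67

section Defs

variable {𝒪 : Type*} [CommRing 𝒪] {T : Type*} [CommRing T] [Algebra 𝒪 T]
variable (π : T →ₐ[𝒪] 𝒪) (M : Type*) [AddCommGroup M] [Module 𝒪 M] [Module T M]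
  [IsScalarTower 𝒪 T M]

/-- `M[𝔭]`: the elements of `M` killed by `𝔭 = ker π`. -/
def augTorsion : Submodule 𝒪 M where
  carrier := {m | ∀ s : T, π s = 0 → s • m = 0}
  zero_mem' := fun s _ => smul_zero s
  add_mem' := fun {a b} ha hb s hs => by rw [smul_add, ha s hs, hb s hs, add_zero]
  smul_mem' := fun c m hm s hs => by rw [smul_comm, hm s hs, smul_zero]

/-- `M[I]`: the elements of `M` killed by `I = Ann (ker π)`. -/
def annTorsion : Submodule 𝒪 M where
  carrier := {m | ∀ s : T, (∀ r : T, π r = 0 → s * r = 0) → s • m = 0}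
  zero_mem' := fun s _ => smul_zero s
  add_mem' := fun {a b} ha hb s hs => by rw [smul_add, ha s hs, hb s hs, add_zero]
  smul_mem' := fun c m hm s hs => by rw [smul_comm, hm s hs, smul_zero]

variable {π M}

theorem mem_augTorsion {m : M} : m ∈ augTorsion π M ↔ ∀ s : T, π s = 0 → s • m = 0 := Iff.rfl

theorem mem_annTorsion {m : M} :
    m ∈ annTorsion π M ↔ ∀ s : T, (∀ r : T, π r = 0 → s * r = 0) → s • m = 0 := Iff.rfl

/-- On `M[𝔭]`, `T` acts through `π`. -/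
theorem smul_eq_aug_smul_of_mem_augTorsion {m : M} (hm : m ∈ augTorsion π M) (s : T) :
    s • m = π s • m := by
  have h1 : π (s - algebraMap 𝒪 T (π s)) = 0 := by
    rw [map_sub, AlgHom.commutes, sub_eq_zero]; rfl
  have h2 := hm _ h1
  rw [sub_smul, sub_eq_zero, algebraMap_smul] at h2
  exact h2

/-- `I M ⊆ M[𝔭]`. -/
theorem smul_mem_augTorsion {θ : T} (hθ : ∀ s, π s = 0 → θ * s = 0) (m : M) :
    θ • m ∈ augTorsion π M := by
  intro s hs
  rw [smul_smul, mul_comm, hθ s hs, zero_smul]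

variable (π M)

/-- The congruence module `Ω = M ⧸ (M[𝔭] ⊔ M[I])`. -/
abbrev OmegaMod : Type _ := M ⧸ (augTorsion π M ⊔ annTorsion π M)

end Defs

section Core

variable {𝒪 : Type*} [CommRing 𝒪] [IsDomain 𝒪] [IsDiscreteValuationRing 𝒪]
variable {T : Type*} [CommRing T] [Algebra 𝒪 T] [Module.Free 𝒪 T]
variable (π : T →ₐ[𝒪] 𝒪) (M : Type*) [AddCommGroup M] [Module 𝒪 M] [Module T M]
  [IsScalarTower 𝒪 T M] [Module.Free 𝒪 M] [Module.Finite 𝒪 M]

/-- If `η = (π θ) ≠ 0` with `θ ∈ I`, then `I = 𝒪 θ`. -/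
theorem exists_smul_eq_of_mem_ann {θ : T} (hθ : ∀ s, π s = 0 → θ * s = 0) (hθ0 : π θ ≠ 0)
    (hηθ : etaIdeal π = Ideal.span {π θ}) {s : T} (hs : ∀ r : T, π r = 0 → s * r = 0) :
    ∃ c : 𝒪, s = c • θ := by
  have hη : etaIdeal π ≠ ⊥ := by
    rw [hηθ]
    intro h
    rw [Ideal.span_singleton_eq_bot] at h
    exact hθ0 h
  have hsI : s ∈ (RingHom.ker π).annihilator := by
    rw [Submodule.mem_annihilator]
    intro r hr
    exact hs r (RingHom.mem_ker.mp hr)
  have hθI : θ ∈ (RingHom.ker π).annihilator := by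
    rw [Submodule.mem_annihilator]
    intro r hr
    exact hθ r (RingHom.mem_ker.mp hr)
  have h1 : π s ∈ etaIdeal π := Ideal.mem_map_of_mem _ hsI
  rw [hηθ, Ideal.mem_span_singleton'] at h1
  obtain ⟨c, hc⟩ := h1
  refine ⟨c, ?_⟩
  refine Fermat.Agent.S59.H360.eq_of_mem_annihilator_of_map_eq π hη hsI
    (Submodule.smul_of_tower_mem _ c hθI) ?_
  rw [map_smul, smul_eq_mul, hc]

/-- The comparison map `Θ : M → (𝒪/η)^d`, `m ↦ (coordinates of θ m in a basis of M[𝔭]) mod η`: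
its kernel is `M[𝔭] ⊔ M[I]`, and if it is surjective then `M[𝔭] = θ M`. -/
theorem exists_omega_map {θ : T} (hθ : ∀ s, π s = 0 → θ * s = 0) (hθ0 : π θ ≠ 0)
    (hηθ : etaIdeal π = Ideal.span {π θ}) :
    ∃ Θ : M →ₗ[𝒪] (Fin (Module.finrank 𝒪 (augTorsion π M)) → 𝒪 ⧸ Ideal.span {π θ}),
      LinearMap.ker Θ = augTorsion π M ⊔ annTorsion π M ∧
      (Function.Surjective Θ → ∀ n ∈ augTorsion π M, ∃ m : M, θ • m = n) := by
  classical
  set L : Submodule 𝒪 M := augTorsion π M with hL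
  let b : Module.Basis (Fin (Module.finrank 𝒪 L)) 𝒪 L := Module.finBasis 𝒪 L
  let θmul : M →ₗ[𝒪] L :=
    { toFun := fun m => ⟨θ • m, smul_mem_augTorsion hθ m⟩
      map_add' := fun m₁ m₂ => Subtype.ext (smul_add θ m₁ m₂)
      map_smul' := fun c m => Subtype.ext (smul_comm θ c m) }
  have hθmul : ∀ m, ((θmul m : L) : M) = θ • m := fun m => rfl
  let Ψ : L →ₗ[𝒪] (Fin (Module.finrank 𝒪 L) → 𝒪 ⧸ Ideal.span {π θ}) :=
    LinearMap.pi fun i => (Submodule.mkQ (Ideal.span {π θ})).comp (b.coord i)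
  have hΨ : ∀ n i, Ψ n i = Submodule.Quotient.mk (b.repr n i) := fun n i => rfl
  -- kernel of `Ψ`
  have hΨker : ∀ n : L, Ψ n = 0 ↔ ∃ n₁ : L, n = π θ • n₁ := by
    intro n
    constructor
    · intro h
      have h1 : ∀ i, ∃ c : 𝒪, b.repr n i = π θ * c := by
        intro i
        have h2 := congrFun h i
        rw [hΨ, Pi.zero_apply, Submodule.Quotient.mk_eq_zero] at h2
        obtain ⟨c, hc⟩ := Ideal.mem_span_singleton'.mp h2
        exact ⟨c, by rw [← hc, mul_comm]⟩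
      choose c hc using h1
      refine ⟨∑ i, c i • b i, ?_⟩
      conv_lhs => rw [← b.sum_repr n]
      rw [Finset.smul_sum]
      refine Finset.sum_congr rfl fun i _ => ?_
      rw [hc i, mul_smul]
    · rintro ⟨n₁, rfl⟩
      funext i
      rw [hΨ, Pi.zero_apply, Submodule.Quotient.mk_eq_zero, map_smul, Finsupp.smul_apply,
        smul_eq_mul]
      exact Ideal.mul_mem_right _ _ (Ideal.subset_span rfl)
  have hθL : ∀ n : L, θ • (n : M) = π θ • (n : M) := fun n =>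
    smul_eq_aug_smul_of_mem_augTorsion n.2 θ
  refine ⟨Ψ.comp θmul, ?_, ?_⟩
  · ext m
    rw [LinearMap.mem_ker, LinearMap.comp_apply, hΨker, Submodule.mem_sup]
    constructor
    · rintro ⟨n₁, hn₁⟩
      have h1 : θ • m = θ • (n₁ : M) := by
        rw [hθL, ← hθmul, hn₁]
        rfl
      refine ⟨n₁, n₁.2, m - n₁, ?_, by abel⟩
      intro s hs
      obtain ⟨c, rfl⟩ := exists_smul_eq_of_mem_ann π hθ hθ0 hηθ hs
      rw [smul_assoc, smul_sub, h1, sub_self, smul_zero]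
    · rintro ⟨n, hn, n', hn', rfl⟩
      refine ⟨⟨n, hn⟩, Subtype.ext ?_⟩
      rw [hθmul, smul_add, hn' θ hθ, add_zero, hθL ⟨n, hn⟩]
      rfl
  · intro hsurj n hn
    obtain ⟨m, hm⟩ := hsurj (Ψ ⟨n, hn⟩)
    have h1 : Ψ (θmul m - ⟨n, hn⟩) = 0 := by
      rw [map_sub, sub_eq_zero]
      exact hm
    obtain ⟨n₁, hn₁⟩ := (hΨker _).mp h1
    refine ⟨m - n₁, ?_⟩
    have h2 := congrArg (fun z : L => (z : M)) hn₁
    simp only [Submodule.coe_sub, Submodule.coe_smul, hθmul] at h2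
    rw [smul_sub, hθL n₁, ← h2]
    abel

end Core

section Card

variable {𝒪 : Type*} [CommRing 𝒪] [IsDomain 𝒪] [IsDiscreteValuationRing 𝒪]
  [Finite (ResidueField 𝒪)]
variable {T : Type*} [CommRing T] [Algebra 𝒪 T] [Module.Free 𝒪 T]
variable (π : T →ₐ[𝒪] 𝒪) (M : Type*) [AddCommGroup M] [Module 𝒪 M] [Module T M]
  [IsScalarTower 𝒪 T M] [Module.Free 𝒪 M] [Module.Finite 𝒪 M]

/-- **`#Ω ≤ #(𝒪/η)^d`**, and in case of equality `M[𝔭] = θ M`. -/
theorem card_omegaMod_le_aux {θ : T} (hθ : ∀ s, π s = 0 → θ * s = 0) (hθ0 : π θ ≠ 0)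
    (hηθ : etaIdeal π = Ideal.span {π θ}) :
    Finite (OmegaMod π M) ∧
    Nat.card (OmegaMod π M) ≤
      Nat.card (𝒪 ⧸ etaIdeal π) ^ Module.finrank 𝒪 (augTorsion π M) ∧
    (Nat.card (OmegaMod π M) =
      Nat.card (𝒪 ⧸ etaIdeal π) ^ Module.finrank 𝒪 (augTorsion π M) →
      ∀ n ∈ augTorsion π M, ∃ m : M, θ • m = n) := by
  classical
  obtain ⟨Θ, hker, hsurj⟩ := exists_omega_map π M hθ hθ0 hηθ
  haveI hfin : Finite (𝒪 ⧸ Ideal.span {π θ}) := finite_quotient_span_singleton_of_ne_zero hθ0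
  have hcardtarget : Nat.card (Fin (Module.finrank 𝒪 (augTorsion π M)) → 𝒪 ⧸ Ideal.span {π θ}) =
      Nat.card (𝒪 ⧸ etaIdeal π) ^ Module.finrank 𝒪 (augTorsion π M) := by
    rw [Nat.card_fun, Nat.card_fin, hηθ]
  let ι : OmegaMod π M →ₗ[𝒪] (Fin (Module.finrank 𝒪 (augTorsion π M)) → 𝒪 ⧸ Ideal.span {π θ}) :=
    (augTorsion π M ⊔ annTorsion π M).liftQ Θ hker.ge
  have hι : Function.Injective ι := by
    rw [← LinearMap.ker_eq_bot]
    exact Submodule.ker_liftQ_eq_bot _ _ _ hker.le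
  have hfinΩ : Finite (OmegaMod π M) := Finite.of_injective ι hι
  refine ⟨hfinΩ, ?_, ?_⟩
  · rw [← hcardtarget]
    exact Nat.card_le_card_of_injective ι hι
  · intro hcard
    apply hsurj
    have hbij : Function.Bijective ι :=
      (Nat.bijective_iff_injective_and_card ι).mpr ⟨hι, by rw [hcard, hcardtarget]⟩
    intro y
    obtain ⟨ω, hω⟩ := hbij.2 y
    obtain ⟨m, rfl⟩ := Submodule.Quotient.mk_surjective _ ω
    exact ⟨m, hω⟩

end Card

end Fermat.Agent.S59.H427
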