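import Fermat.Agent.S59.H427.NCBridge

/-!
# S59 / N1 (helper427): the congruence module of a free module, and the induction step

* `card_omegaMod_eq_iff` : `#Ω_M = #(𝒪/η)^d` if and only if `M[𝔭] = θ M`.
* `card_omegaMod_of_free` : if `M ≅ T^d` as `T`-modules then `rank_𝒪 M[𝔭] = d` and
  `#Ω_M = #(𝒪/η_T)^d`  (start of the induction: the minimal level, where S57 gives `M` free).
* `criterionII_step` : the induction step `Σ → Σ ∪ {q}` in module form (Diamond): from
  `#Ω_M = (#Φ_R)^d` at level `Σ`, the Selmer bound `#Φ_{R'} ≤ #Φ_R · c` and the Ihara bound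
  `#Ω_M · c^d ≤ #Ω_{M'}`, conclude `R' ≅ T'`, `M'` free over `T'`, `#Φ_{R'} = #(𝒪/η_{T'})` and
  `#Ω_{M'} = (#Φ_{R'})^d`.
-/

set_option autoImplicit false
set_option linter.unusedSectionVars false
set_option linter.unusedVariables false
set_option linter.style.haveILetI false

namespace Fermat.Agent.S59.H427

open IsLocalRing Fermat.Agent.S59.NC Fermat.Agent.S59.H67

universe u v w x

section Iff

variable {𝒪 : Type*} [CommRing 𝒪] [IsDomain 𝒪] [IsDiscreteValuationRing 𝒪]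
  [Finite (ResidueField 𝒪)]
variable {T : Type*} [CommRing T] [Algebra 𝒪 T] [Module.Free 𝒪 T]
variable (π : T →ₐ[𝒪] 𝒪) (M : Type*) [AddCommGroup M] [Module 𝒪 M] [Module T M]
  [IsScalarTower 𝒪 T M] [Module.Free 𝒪 M] [Module.Finite 𝒪 M]

/-- If `M[𝔭] = θ M` then `#Ω_M = #(𝒪/η)^d`. -/
theorem card_omegaMod_eq_of_augTorsion_le {θ : T} (hθ : ∀ s, π s = 0 → θ * s = 0)
    (hθ0 : π θ ≠ 0) (hηθ : etaIdeal π = Ideal.span {π θ})
    (hLθ : ∀ n ∈ augTorsion π M, ∃ m : M, θ • m = n) :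
    Nat.card (OmegaMod π M) =
      Nat.card (𝒪 ⧸ etaIdeal π) ^ Module.finrank 𝒪 (augTorsion π M) := by
  classical
  obtain ⟨hfinΩ, hle, -⟩ := card_omegaMod_le_aux π M hθ hθ0 hηθ
  refine le_antisymm hle ?_
  -- a surjection `M → (𝒪/η)^d` killing `M[𝔭] ⊔ M[I]`
  set L : Submodule 𝒪 M := augTorsion π M with hL
  let b : Module.Basis (Fin (Module.finrank 𝒪 L)) 𝒪 L := Module.finBasis 𝒪 L
  haveI hfin : Finite (𝒪 ⧸ Ideal.span {π θ}) := finite_quotient_span_singleton_of_ne_zero hθ0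
  have hcardtarget : Nat.card (Fin (Module.finrank 𝒪 L) → 𝒪 ⧸ Ideal.span {π θ}) =
      Nat.card (𝒪 ⧸ etaIdeal π) ^ Module.finrank 𝒪 L := by
    rw [Nat.card_fun, Nat.card_fin, hηθ]
  rw [← hcardtarget]
  -- choose, for every vector of classes, an element of `M`
  have hex : ∀ y : Fin (Module.finrank 𝒪 L) → 𝒪 ⧸ Ideal.span {π θ},
      ∃ m : M, ∃ c : Fin (Module.finrank 𝒪 L) → 𝒪,
        (∀ i, Ideal.Quotient.mk _ (c i) = y i) ∧ θ • m = ((∑ i, c i • b i : L) : M) := by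
    intro y
    choose c hc using fun i => Ideal.Quotient.mk_surjective (y i)
    obtain ⟨m, hm⟩ := hLθ ((∑ i, c i • b i : L) : M) (∑ i, c i • b i : L).2
    exact ⟨m, c, hc, hm⟩
  choose mOf cOf hcOf hmOf using hex
  let g : (Fin (Module.finrank 𝒪 L) → 𝒪 ⧸ Ideal.span {π θ}) → OmegaMod π M :=
    fun y => Submodule.Quotient.mk (mOf y)
  refine Nat.card_le_card_of_injective g ?_
  intro y₁ y₂ h12
  have h1 : mOf y₁ - mOf y₂ ∈ augTorsion π M ⊔ annTorsion π M :=
    (Submodule.Quotient.eq _).mp h12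
  obtain ⟨n, hn, n', hn', hsum⟩ := Submodule.mem_sup.mp h1
  -- apply `θ`
  have h2 : θ • (mOf y₁ - mOf y₂) = π θ • n := by
    rw [← hsum, smul_add, hn' θ hθ, add_zero]
    exact smul_eq_aug_smul_of_mem_augTorsion hn θ
  rw [smul_sub, hmOf, hmOf] at h2
  have h3 : (∑ i, cOf y₁ i • b i : L) - (∑ i, cOf y₂ i • b i : L) = π θ • (⟨n, hn⟩ : L) := by
    apply Subtype.ext
    rw [Submodule.coe_sub, Submodule.coe_smul]
    exact h2
  funext i
  rw [← hcOf y₁ i, ← hcOf y₂ i, Ideal.Quotient.eq, Ideal.mem_span_singleton]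
  have h4 := congrArg (fun z => b.repr z i) h3
  simp only [map_sub, Module.Basis.repr_sum_self, map_smul, Finsupp.sub_apply,
    Finsupp.smul_apply, smul_eq_mul] at h4
  exact ⟨_, h4⟩

/-- **`#Ω_M = #(𝒪/η)^d` iff `M[𝔭] = θ M`.** -/
theorem card_omegaMod_eq_iff {θ : T} (hθ : ∀ s, π s = 0 → θ * s = 0)
    (hθ0 : π θ ≠ 0) (hηθ : etaIdeal π = Ideal.span {π θ}) :
    Nat.card (OmegaMod π M) =
        Nat.card (𝒪 ⧸ etaIdeal π) ^ Module.finrank 𝒪 (augTorsion π M) ↔
      ∀ n ∈ augTorsion π M, ∃ m : M, θ • m = n :=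
  ⟨(card_omegaMod_le_aux π M hθ hθ0 hηθ).2.2,
    card_omegaMod_eq_of_augTorsion_le π M hθ hθ0 hηθ⟩

end Iff

section FreeCase

variable {𝒪 : Type*} [CommRing 𝒪] [IsDomain 𝒪] [IsDiscreteValuationRing 𝒪]
  [Finite (ResidueField 𝒪)]
variable {T : Type*} [CommRing T] [Algebra 𝒪 T] [Module.Free 𝒪 T] [Module.Finite 𝒪 T]
variable (π : T →ₐ[𝒪] 𝒪) (M : Type*) [AddCommGroup M] [Module 𝒪 M] [Module T M]
  [IsScalarTower 𝒪 T M] [Module.Free 𝒪 M] [Module.Finite 𝒪 M]

/-- **Free modules**: if `M ≅ T^d` then `rank_𝒪 M[𝔭] = d` and `#Ω_M = #(𝒪/η_T)^d`. -/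
theorem card_omegaMod_of_free (hη : etaIdeal π ≠ ⊥) {d : ℕ} (e : (Fin d → T) ≃ₗ[T] M) :
    Module.finrank 𝒪 (augTorsion π M) = d ∧
      Nat.card (OmegaMod π M) = Nat.card (𝒪 ⧸ etaIdeal π) ^ d := by
  classical
  obtain ⟨θ, hθ, hθ0, hηθ⟩ := exists_ann_generator π hη
  have hθne : θ ≠ 0 := fun h => hθ0 (by rw [h, map_zero])
  -- description of `M[𝔭]`
  have hdesc : ∀ n ∈ augTorsion π M, ∃ c : Fin d → 𝒪, n = e (fun i => c i • θ) := by
    intro n hn
    have h1 : ∀ i, ∃ c : 𝒪, e.symm n i = c • θ := by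
      intro i
      apply exists_smul_eq_of_mem_ann π hθ hθ0 hηθ
      intro r hr
      have h2 : r • n = 0 := hn r hr
      have h3 : e.symm (r • n) i = 0 := by rw [h2, map_zero]; rfl
      rw [map_smul, Pi.smul_apply, smul_eq_mul] at h3
      rw [mul_comm]
      exact h3
    choose c hc using h1
    refine ⟨c, ?_⟩
    have : (fun i => c i • θ) = e.symm n := funext fun i => (hc i).symm
    rw [this, e.apply_symm_apply]
  have hmem : ∀ c : Fin d → 𝒪, e (fun i => c i • θ) ∈ augTorsion π M := by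
    intro c s hs
    rw [← map_smul]
    have : s • (fun i => c i • θ) = (0 : Fin d → T) := by
      funext i
      rw [Pi.smul_apply, smul_eq_mul, mul_smul_comm, mul_comm, hθ s hs, smul_zero]
      rfl
    rw [this, map_zero]
  -- the rank
  have hsm : ∀ (a : 𝒪) (x : Fin d → T), e (a • x) = a • e x := fun a x => by
    rw [← algebraMap_smul T a x, map_smul, algebraMap_smul]
  let j : (Fin d → 𝒪) →ₗ[𝒪] augTorsion π M :=
    { toFun := fun c => ⟨e (fun i => c i • θ), hmem c⟩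
      map_add' := fun c₁ c₂ => by
        apply Subtype.ext
        show e (fun i => (c₁ + c₂) i • θ) = e (fun i => c₁ i • θ) + e (fun i => c₂ i • θ)
        rw [← map_add]
        congr 1
        funext i
        rw [Pi.add_apply, Pi.add_apply, add_smul]
      map_smul' := fun a c => by
        apply Subtype.ext
        show e (fun i => (a • c) i • θ) = a • e (fun i => c i • θ)
        rw [← hsm]
        congr 1
        funext i
        rw [Pi.smul_apply, Pi.smul_apply, smul_eq_mul, mul_smul] }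
  have hj : Function.Bijective j := by
    constructor
    · rw [← LinearMap.ker_eq_bot, LinearMap.ker_eq_bot']
      intro c hc
      have h1 : e (fun i => c i • θ) = 0 := congrArg Subtype.val hc
      have h2 : (fun i => c i • θ) = (0 : Fin d → T) := e.injective (h1.trans (map_zero e).symm)
      funext i
      have h3 := congrFun h2 i
      exact (smul_eq_zero.mp h3).resolve_right hθne
    · rintro ⟨n, hn⟩
      obtain ⟨c, hc⟩ := hdesc n hn
      exact ⟨c, Subtype.ext hc.symm⟩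
  have hrank : Module.finrank 𝒪 (augTorsion π M) = d := by
    rw [← (LinearEquiv.ofBijective j hj).finrank_eq, Module.finrank_fin_fun]
  refine ⟨hrank, ?_⟩
  rw [← hrank]
  refine card_omegaMod_eq_of_augTorsion_le π M hθ hθ0 hηθ ?_
  intro n hn
  obtain ⟨c, hc⟩ := hdesc n hn
  refine ⟨e (fun i => algebraMap 𝒪 T (c i)), ?_⟩
  rw [hc, ← map_smul]
  congr 1
  funext i
  rw [Pi.smul_apply, smul_eq_mul, Algebra.smul_def, mul_comm]

end FreeCase

section Step

variable {𝒪 : Type u} [CommRing 𝒪] [IsDomain 𝒪] [IsDiscreteValuationRing 𝒪]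
  [Finite (ResidueField 𝒪)]
variable {T' : Type v} [CommRing T'] [Algebra 𝒪 T'] [Module.Free 𝒪 T'] [Module.Finite 𝒪 T']
variable (M' : Type x) [AddCommGroup M'] [Module 𝒪 M'] [Module T' M']
  [IsScalarTower 𝒪 T' M'] [Module.Free 𝒪 M'] [Module.Finite 𝒪 M']
variable {R' : Type w} [CommRing R'] [Algebra 𝒪 R'] [IsLocalRing R'] [IsNoetherianRing R']

/-- **The induction step in module form.**  `a = #Φ_R`, `b = #Ω_M` at the old level with
`b = a ^ d`; `c = #(𝒪/c_q)`.  Selmer: `#Φ_{R'} ≤ a * c`; Ihara: `b * c ^ d ≤ #Ω_{M'}`. -/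
theorem criterionII_step (φ' : R' →ₐ[𝒪] T') (hφ' : Function.Surjective φ') (π' : T' →ₐ[𝒪] 𝒪)
    [Finite (Cot (π'.comp φ'))]
    (hd : 0 < Module.finrank 𝒪 (augTorsion π' M'))
    (hrank : Module.finrank 𝒪 M' ≤ Module.finrank 𝒪 (augTorsion π' M') * Module.finrank 𝒪 T')
    (a b c : ℕ) (hab : b = a ^ Module.finrank 𝒪 (augTorsion π' M'))
    (hsel : Nat.card (Cot (π'.comp φ')) ≤ a * c)
    (hih : b * c ^ Module.finrank 𝒪 (augTorsion π' M') ≤ Nat.card (OmegaMod π' M')) :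
    Function.Bijective φ' ∧
      (∃ m : Fin (Module.finrank 𝒪 (augTorsion π' M')) → M',
        Function.Bijective (Fintype.linearCombination T' m)) ∧
      Nat.card (Cot (π'.comp φ')) = Nat.card (𝒪 ⧸ congIdeal π') ∧
      Nat.card (OmegaMod π' M') =
        Nat.card (Cot (π'.comp φ')) ^ Module.finrank 𝒪 (augTorsion π' M') := by
  refine criterionII_NC M' φ' hφ' π' hd hrank ?_
  calc Nat.card (Cot (π'.comp φ')) ^ Module.finrank 𝒪 (augTorsion π' M')
      ≤ (a * c) ^ Module.finrank 𝒪 (augTorsion π' M') := Nat.pow_le_pow_left hsel _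
    _ = b * c ^ Module.finrank 𝒪 (augTorsion π' M') := by rw [mul_pow, hab]
    _ ≤ Nat.card (OmegaMod π' M') := hih

end Step

end Fermat.Agent.S59.H427
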