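import Fermat.Agent.S59.H427.Box

/-!
# S59 / N1 (helper427): the residue pairing on `A[X] / (X_i^(m+1) + h_i)` is perfect

With `C = A[X] / (f)`, `f i = X i ^ (m+1) + h i`, `totalDegree (h i) ≤ m`, and `boxLam` the
"top coefficient" functional, the map `C → Dual C`, `c ↦ boxLam (c * ·)` is bijective.
-/

set_option autoImplicit false
set_option linter.unusedSectionVars false

namespace Fermat.Agent.S59.H427

open MvPolynomial

variable {A : Type*} [CommRing A] {ι : Type*} [Fintype ι] [DecidableEq ι]
variable {m : ℕ} {h : ι → MvPolynomial ι A}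

/-- The pairing map `c ↦ boxLam (c * ·)`. -/
noncomputable def boxPair (hh : ∀ i, (h i).totalDegree ≤ m) :
    (MvPolynomial ι A ⧸ boxIdeal m h) →ₗ[A] Module.Dual A (MvPolynomial ι A ⧸ boxIdeal m h) :=
  (LinearMap.mul A (MvPolynomial ι A ⧸ boxIdeal m h)).compr₂ (boxLam hh)

theorem boxPair_apply (hh : ∀ i, (h i).totalDegree ≤ m)
    (c c' : MvPolynomial ι A ⧸ boxIdeal m h) : boxPair hh c c' = boxLam hh (c * c') := rfl

/-- A functional is determined by its values on the box monomials. -/
theorem dual_eq_zero_of_box (hh : ∀ i, (h i).totalDegree ≤ m)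
    (l : Module.Dual A (MvPolynomial ι A ⧸ boxIdeal m h))
    (hl : ∀ s : ι →₀ ℕ, (∀ i, s i ≤ m) →
      l (Ideal.Quotient.mk (boxIdeal m h) (monomial s 1)) = 0) : l = 0 := by
  refine LinearMap.ext fun c => ?_
  rw [LinearMap.zero_apply, ← mk_boxNF hh c]
  have hb := boxNF_mem hh c
  rw [mem_restrictDegree] at hb
  set b := boxNF hh c with hbdef
  have e0 : b = ∑ s ∈ b.support, coeff s b • monomial s (1 : A) := by
    conv_lhs => rw [as_sum b]
    exact Finset.sum_congr rfl fun s _ => by rw [smul_monomial, smul_eq_mul, mul_one]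
  rw [e0, map_sum, map_sum]
  refine Finset.sum_eq_zero fun s hs => ?_
  have : Ideal.Quotient.mk (boxIdeal m h) (coeff s b • monomial s (1 : A)) =
      coeff s b • Ideal.Quotient.mk (boxIdeal m h) (monomial s (1 : A)) :=
    map_smul (Ideal.Quotient.mkₐ A (boxIdeal m h)) (coeff s b) (monomial s 1)
  rw [this, map_smul, hl s (hb s hs), smul_zero]

theorem le_boxTop_iff (s : ι →₀ ℕ) : s ≤ boxTop ι m ↔ ∀ i, s i ≤ m := Iff.rfl

theorem degree_le_of_le_boxTop {s : ι →₀ ℕ} (hs : ∀ i, s i ≤ m) :
    s.degree ≤ (boxTop ι m).degree := by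
  rw [Finsupp.degree_eq_sum, Finsupp.degree_eq_sum]
  exact Finset.sum_le_sum fun i _ => by simpa using hs i

theorem degree_boxTop_sub {s : ι →₀ ℕ} (hs : ∀ i, s i ≤ m) :
    (boxTop ι m - s).degree + s.degree = (boxTop ι m).degree := by
  rw [← map_add, tsub_add_cancel_of_le ((le_boxTop_iff s).mpr hs)]

/-- The pairing of complementary box monomials. -/
theorem boxPair_monomial (hh : ∀ i, (h i).totalDegree ≤ m) {β γ : ι →₀ ℕ}
    (hβ : ∀ i, β i ≤ m) (hγ : γ.degree ≤ β.degree) :
    boxPair hh (Ideal.Quotient.mk (boxIdeal m h) (monomial (boxTop ι m - β) 1))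
      (Ideal.Quotient.mk (boxIdeal m h) (monomial γ 1)) = if γ = β then 1 else 0 := by
  rw [boxPair_apply, ← map_mul, monomial_mul, one_mul, boxLam_mk_monomial]
  · congr 1
    apply propext
    constructor
    · intro e
      ext i
      have h1 := DFunLike.congr_fun e i
      have h2 := hβ i
      simp only [Finsupp.coe_add, Finsupp.coe_tsub, Pi.add_apply, Pi.sub_apply,
        boxTop_apply] at h1
      omega
    · rintro rfl
      exact tsub_add_cancel_of_le ((le_boxTop_iff γ).mpr hβ)
  · rw [map_add]
    have := degree_boxTop_sub (m := m) hβ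
    omega

/-- The pairing map is surjective. -/
theorem boxPair_surjective (hh : ∀ i, (h i).totalDegree ≤ m) :
    Function.Surjective (boxPair hh) := by
  -- downward induction on the degree below which the functional vanishes on box monomials
  have claim : ∀ j k : ℕ, k + j = (boxTop ι m).degree + 1 →
      ∀ l : Module.Dual A (MvPolynomial ι A ⧸ boxIdeal m h),
      (∀ s : ι →₀ ℕ, (∀ i, s i ≤ m) → s.degree < k →
        l (Ideal.Quotient.mk (boxIdeal m h) (monomial s 1)) = 0) →
      l ∈ LinearMap.range (boxPair hh) := by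
    intro j
    induction j with
    | zero =>
      intro k hk l hl
      have : l = 0 := dual_eq_zero_of_box hh l fun s hs =>
        hl s hs (by have := degree_le_of_le_boxTop (m := m) hs; omega)
      rw [this]
      exact Submodule.zero_mem _
    | succ j ih =>
      intro k hk l hl
      set F : Finset (ι →₀ ℕ) := (Finset.Iic (boxTop ι m)).filter fun β => β.degree = k
        with hF
      set y : MvPolynomial ι A ⧸ boxIdeal m h :=
        ∑ β ∈ F, l (Ideal.Quotient.mk (boxIdeal m h) (monomial β 1)) •
          Ideal.Quotient.mk (boxIdeal m h) (monomial (boxTop ι m - β) 1) with hy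
      have hmemF : ∀ β, β ∈ F ↔ (∀ i, β i ≤ m) ∧ β.degree = k := by
        intro β
        rw [hF, Finset.mem_filter, Finset.mem_Iic, le_boxTop_iff]
      have key : ∀ γ : ι →₀ ℕ, (∀ i, γ i ≤ m) → γ.degree ≤ k →
          boxPair hh y (Ideal.Quotient.mk (boxIdeal m h) (monomial γ 1)) =
            if γ.degree = k then l (Ideal.Quotient.mk (boxIdeal m h) (monomial γ 1)) else 0 := by
        intro γ hγ hγk
        rw [hy, map_sum, LinearMap.sum_apply]
        have e1 : ∀ β ∈ F, boxPair hh
            (l (Ideal.Quotient.mk (boxIdeal m h) (monomial β 1)) •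
              Ideal.Quotient.mk (boxIdeal m h) (monomial (boxTop ι m - β) 1))
            (Ideal.Quotient.mk (boxIdeal m h) (monomial γ 1)) =
            if γ = β then l (Ideal.Quotient.mk (boxIdeal m h) (monomial γ 1)) else 0 := by
          intro β hβ
          rw [hmemF] at hβ
          rw [map_smul, LinearMap.smul_apply, boxPair_monomial hh hβ.1 (by omega)]
          by_cases e : γ = β
          · subst e; simp
          · simp [e]
        rw [Finset.sum_congr rfl e1, Finset.sum_ite_eq]
        by_cases hk' : γ.degree = k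
        · rw [if_pos ((hmemF γ).mpr ⟨hγ, hk'⟩), if_pos hk']
        · rw [if_neg (fun hmem => hk' ((hmemF γ).mp hmem).2), if_neg hk']
      have h1 : l - boxPair hh y ∈ LinearMap.range (boxPair hh) := by
        apply ih (k + 1) (by omega)
        intro s hs hsk
        rw [LinearMap.sub_apply, key s hs (by omega)]
        by_cases hk' : s.degree = k
        · rw [if_pos hk', sub_self]
        · rw [if_neg hk', sub_zero]
          exact hl s hs (by omega)
      have h2 : l = (l - boxPair hh y) + boxPair hh y := by abel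
      rw [h2]
      exact Submodule.add_mem _ h1 (LinearMap.mem_range_self _ _)
  intro l
  have := claim ((boxTop ι m).degree + 1) 0 (by omega) l (fun s _ hs => absurd hs (by omega))
  exact LinearMap.mem_range.mp this

theorem boxQuot_finite (hh : ∀ i, (h i).totalDegree ≤ m) :
    Module.Finite A (MvPolynomial ι A ⧸ boxIdeal m h) :=
  Module.Finite.equiv (boxEquiv hh)

theorem boxQuot_free (hh : ∀ i, (h i).totalDegree ≤ m) :
    Module.Free A (MvPolynomial ι A ⧸ boxIdeal m h) :=
  Module.Free.of_equiv' (Module.Free.of_basis (basisRestrictSupport A _)) (boxEquiv hh)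

/-- The pairing map is injective: `boxLam (c * ·) = 0` implies `c = 0`. -/
theorem boxPair_injective (hh : ∀ i, (h i).totalDegree ≤ m) :
    Function.Injective (boxPair hh) := by
  have := boxQuot_finite hh
  have := boxQuot_free hh
  let b := Module.Free.chooseBasis A (MvPolynomial ι A ⧸ boxIdeal m h)
  have : Fintype (Module.Free.ChooseBasisIndex A (MvPolynomial ι A ⧸ boxIdeal m h)) :=
    Module.Free.ChooseBasisIndex.fintype A _
  let e := b.toDualEquiv
  have hs : Function.Surjective (e.symm.toLinearMap ∘ₗ boxPair hh) := by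
    rw [LinearMap.coe_comp]
    exact e.symm.surjective.comp (boxPair_surjective hh)
  have hi := OrzechProperty.injective_of_surjective_endomorphism _ hs
  rw [LinearMap.coe_comp] at hi
  exact Function.Injective.of_comp hi

theorem boxPair_bijective (hh : ∀ i, (h i).totalDegree ≤ m) :
    Function.Bijective (boxPair hh) :=
  ⟨boxPair_injective hh, boxPair_surjective hh⟩

/-- Non-degeneracy in usable form. -/
theorem eq_zero_of_boxLam_mul_eq_zero (hh : ∀ i, (h i).totalDegree ≤ m)
    {c : MvPolynomial ι A ⧸ boxIdeal m h} (hc : ∀ c', boxLam hh (c * c') = 0) : c = 0 := by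
  apply boxPair_injective hh
  rw [map_zero]
  exact LinearMap.ext fun c' => hc c'

/-- Representability of functionals. -/
theorem exists_boxLam_mul_eq (hh : ∀ i, (h i).totalDegree ≤ m)
    (l : Module.Dual A (MvPolynomial ι A ⧸ boxIdeal m h)) :
    ∃ y : MvPolynomial ι A ⧸ boxIdeal m h, ∀ c, boxLam hh (y * c) = l c := by
  obtain ⟨y, hy⟩ := boxPair_surjective hh l
  exact ⟨y, fun c => by rw [← hy]; rfl⟩

end Fermat.Agent.S59.H427
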