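import Fermat.Agent.S59.H427.Final

/-!
# S59 / N1 (helper427): from linear relations modulo `𝔭²` to polynomial relation data

Given `x` spanning `𝔭 = ker π` over `𝒪` and a matrix `v` over `𝒪` with
`∑ j, v i j • x j ∈ 𝔭 ^ 2`, we construct the polynomial data needed by the core theorem:
`f i = X i ^ 3 + (degree ≤ 2)` vanishing at `x`, with linear parts `v`.
Consequences: `det v` lies in the congruence ideal, and the core theorem in terms of `v`.
-/

set_option autoImplicit false
set_option linter.unusedSectionVars false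

namespace Fermat.Agent.S59.H427

open MvPolynomial

section Poly

variable {𝒪 : Type*} [CommRing 𝒪]
variable {T : Type*} [CommRing T] [Algebra 𝒪 T]
variable {ι : Type*} [Fintype ι] [DecidableEq ι]

/-- Elements of `𝔭 ^ 2` are `𝒪`-combinations of the products `x a * x b`. -/
theorem exists_quadratic_of_mem_sq (π : T →ₐ[𝒪] 𝒪) (x : ι → T)
    (hspan : ∀ t, π t = 0 → t ∈ Submodule.span 𝒪 (Set.range x))
    {t : T} (ht : t ∈ RingHom.ker (π : T →+* 𝒪) ^ 2) :
    ∃ w : ι → ι → 𝒪, t = ∑ a, ∑ b, w a b • (x a * x b) := by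
  rw [pow_two] at ht
  refine Submodule.mul_induction_on ht ?_ ?_
  · intro t₁ h₁ t₂ h₂
    have e₁ := hspan t₁ h₁
    have e₂ := hspan t₂ h₂
    rw [Submodule.mem_span_range_iff_exists_fun] at e₁ e₂
    obtain ⟨c, hc⟩ := e₁
    obtain ⟨d, hd⟩ := e₂
    refine ⟨fun a b => c a * d b, ?_⟩
    rw [← hc, ← hd, Finset.sum_mul_sum]
    refine Finset.sum_congr rfl fun a _ => Finset.sum_congr rfl fun b _ => ?_
    rw [smul_mul_smul_comm]
  · rintro t₁ t₂ ⟨w₁, hw₁⟩ ⟨w₂, hw₂⟩
    refine ⟨fun a b => w₁ a b + w₂ a b, ?_⟩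
    rw [hw₁, hw₂, ← Finset.sum_add_distrib]
    refine Finset.sum_congr rfl fun a _ => ?_
    rw [← Finset.sum_add_distrib]
    refine Finset.sum_congr rfl fun b _ => ?_
    rw [add_smul]

theorem degLT_C_mul_X (c : 𝒪) (i : ι) : DegLT 3 (C c * X i : MvPolynomial ι 𝒪) := by
  have : (C c * X i : MvPolynomial ι 𝒪) = monomial (Finsupp.single i 1) c := by
    rw [X, C_mul_monomial, mul_one]
  rw [this]
  exact degLT_monomial (by rw [Finsupp.degree_single]; omega) c

theorem degLT_C_mul_X_mul_X (c : 𝒪) (i j : ι) :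
    DegLT 3 (C c * X i * X j : MvPolynomial ι 𝒪) := by
  have : (C c * X i * X j : MvPolynomial ι 𝒪) =
      monomial (Finsupp.single i 1 + Finsupp.single j 1) c := by
    rw [X, X, C_mul_monomial, monomial_mul, mul_one, mul_one]
  rw [this]
  exact degLT_monomial (by rw [map_add, Finsupp.degree_single, Finsupp.degree_single]; omega) c

theorem aug_aeval_gen (π : T →ₐ[𝒪] 𝒪) (x : ι → T) (hx : ∀ i, π (x i) = 0)
    (g : MvPolynomial ι 𝒪) : π (aeval x g) = constantCoeff g := by
  have h1 : π.comp (aeval x) = aeval (fun _ : ι => (0 : 𝒪)) := by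
    apply MvPolynomial.algHom_ext
    intro i
    simp [hx i]
  have h2 := DFunLike.congr_fun h1 g
  rw [AlgHom.comp_apply] at h2
  rw [h2]
  simp

/-- **Polynomial relation data from linear relations modulo `𝔭 ^ 2`.** -/
theorem exists_poly_data (π : T →ₐ[𝒪] 𝒪) (x : ι → T) (hx : ∀ i, π (x i) = 0)
    (hspan : ∀ t, π t = 0 → t ∈ Submodule.span 𝒪 (Set.range x))
    (v : Matrix ι ι 𝒪) (hv : ∀ i, ∑ j, v i j • x j ∈ RingHom.ker (π : T →+* 𝒪) ^ 2) :
    ∃ a : Matrix ι ι (MvPolynomial ι 𝒪),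
      (∀ i, (∑ j, a i j * X j - X i ^ (2 + 1)).totalDegree ≤ 2) ∧
      (∀ i, aeval x (∑ j, a i j * X j) = 0) ∧
      ∀ i j, constantCoeff (a i j) = v i j := by
  have hw := fun i => exists_quadratic_of_mem_sq π x hspan (hv i)
  choose w hw using hw
  have hc : ∀ i, ∃ c : ι → 𝒪, x i * x i = ∑ j, c j • x j := by
    intro i
    have h1 : π (x i * x i) = 0 := by rw [map_mul, hx i, zero_mul]
    have h2 := hspan _ h1
    rw [Submodule.mem_span_range_iff_exists_fun] at h2
    obtain ⟨c, hc⟩ := h2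
    exact ⟨c, hc.symm⟩
  choose c hc using hc
  refine ⟨fun i j => (if i = j then X i ^ 2 else 0) + C (v i j) - C (c i j) * X i -
    ∑ k, C (w i k j) * X k, ?_, ?_, ?_⟩
  · -- degree
    intro i
    have e : ∑ j, ((if i = j then X i ^ 2 else 0) + C (v i j) - C (c i j) * X i -
        ∑ k, C (w i k j) * X k) * X j - X i ^ (2 + 1) =
        ∑ j, C (v i j) * X j - ∑ j, C (c i j) * X i * X j -
          ∑ j, ∑ k, C (w i k j) * X k * X j := by
      simp only [sub_mul, add_mul, Finset.sum_sub_distrib, Finset.sum_add_distrib, ite_mul,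
        zero_mul, Finset.sum_ite_eq, Finset.mem_univ, if_true, Finset.sum_mul]
      ring
    rw [e]
    apply DegLT.totalDegree_le
    refine ((DegLT.sum _ _ fun j _ => degLT_C_mul_X _ _).sub
      (DegLT.sum _ _ fun j _ => degLT_C_mul_X_mul_X _ _ _)).sub
      (DegLT.sum _ _ fun j _ => DegLT.sum _ _ fun k _ => degLT_C_mul_X_mul_X _ _ _)
  · -- vanishing
    intro i
    have e : ∑ j, ((if i = j then X i ^ 2 else 0) + C (v i j) - C (c i j) * X i -
        ∑ k, C (w i k j) * X k) * X j =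
        X i ^ 3 + ∑ j, C (v i j) * X j - X i * ∑ j, C (c i j) * X j -
          ∑ j, ∑ k, C (w i k j) * (X k * X j) := by
      simp only [sub_mul, add_mul, Finset.sum_sub_distrib, Finset.sum_add_distrib, ite_mul,
        zero_mul, Finset.sum_ite_eq, Finset.mem_univ, if_true, Finset.sum_mul, Finset.mul_sum]
      have : ∀ j k : ι, C (w i k j) * X k * X j = C (w i k j) * (X k * X j : MvPolynomial ι 𝒪) :=
        fun j k => by ring
      simp only [this]
      have : ∀ j : ι, C (c i j) * X i * X j = X i * (C (c i j) * X j : MvPolynomial ι 𝒪) :=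
        fun j => by ring
      simp only [this]
      ring
    rw [e]
    simp only [map_sub, map_add, map_pow, map_mul, map_sum, aeval_X, aeval_C,
      ← Algebra.smul_def]
    rw [← hc i]
    have h1 : ∑ j, v i j • x j = ∑ j, ∑ k, w i k j • (x k * x j) := by
      rw [hw i, Finset.sum_comm]
    rw [h1]
    ring
  · intro i j
    simp only [map_sub, map_add, map_sum, map_mul, constantCoeff_C, constantCoeff_X, mul_zero,
      Finset.sum_const_zero, sub_zero]
    split_ifs <;> simp

theorem constantCoeff_det_eq (a : Matrix ι ι (MvPolynomial ι 𝒪)) (v : Matrix ι ι 𝒪)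
    (h : ∀ i j, constantCoeff (a i j) = v i j) : constantCoeff a.det = v.det := by
  rw [RingHom.map_det]
  congr 1
  ext i j
  exact h i j

/-- **Cramer in `T`**: `det v` is the image of an element killing all the `x j`. -/
theorem exists_ann_of_relations (π : T →ₐ[𝒪] 𝒪) (x : ι → T) (hx : ∀ i, π (x i) = 0)
    (hspan : ∀ t, π t = 0 → t ∈ Submodule.span 𝒪 (Set.range x))
    (v : Matrix ι ι 𝒪) (hv : ∀ i, ∑ j, v i j • x j ∈ RingHom.ker (π : T →+* 𝒪) ^ 2) :
    ∃ t₀ : T, (∀ s, π s = 0 → t₀ * s = 0) ∧ π t₀ = v.det := by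
  obtain ⟨a, -, hker, hconst⟩ := exists_poly_data π x hx hspan v hv
  refine ⟨aeval x a.det, ?_, ?_⟩
  · have h1 : ∀ j, aeval x a.det * x j = 0 := by
      intro j
      have h2 := det_mul_X_mem_span a j
      have h3 : Ideal.span (Set.range fun i => ∑ k, a i k * (X k : MvPolynomial ι 𝒪)) ≤
          RingHom.ker (aeval x : MvPolynomial ι 𝒪 →ₐ[𝒪] T) := by
        rw [Ideal.span_le]
        rintro _ ⟨i, rfl⟩
        exact hker i
      have h4 : aeval x (a.det * X j) = 0 := h3 h2
      rw [map_mul, aeval_X] at h4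
      exact h4
    intro s hs
    have h2 := hspan s hs
    refine Submodule.span_induction (p := fun s _ => aeval x a.det * s = 0) ?_ ?_ ?_ ?_ h2
    · rintro _ ⟨j, rfl⟩
      exact h1 j
    · simp
    · intro u w _ _ hu hw
      rw [mul_add, hu, hw, add_zero]
    · intro r u _ hu
      rw [mul_smul_comm, hu, smul_zero]
  · rw [aug_aeval_gen π x hx, constantCoeff_det_eq a v hconst]

end Poly

section Core

variable {𝒪 : Type*} [CommRing 𝒪] [IsDomain 𝒪] [IsDiscreteValuationRing 𝒪]
variable {R : Type*} [CommRing R] [Algebra 𝒪 R] [IsLocalRing R] [IsNoetherianRing R]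
variable {T : Type*} [CommRing T] [Algebra 𝒪 T] [Module.Free 𝒪 T] [Module.Finite 𝒪 T]
variable {ι : Type*} [Fintype ι] [DecidableEq ι]

/-- **Numerical criterion, relation form.**  If `ker φ ≤ 𝔭_R ^ 2`, `x` spans `𝔭_T = ker π` over
`𝒪`, the rows of `v` are relations among the `x j` modulo `𝔭_T ^ 2`, and `det v ≠ 0` generates the
congruence ideal, then `φ` is injective. -/
theorem injective_of_relations (φ : R →ₐ[𝒪] T) (hφ : Function.Surjective φ)
    (π : T →ₐ[𝒪] 𝒪)
    (hH1 : RingHom.ker (φ : R →+* T) ≤ RingHom.ker ((π.comp φ : R →ₐ[𝒪] 𝒪) : R →+* 𝒪) ^ 2)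
    (x : ι → T) (hx : ∀ i, π (x i) = 0)
    (hspan : ∀ t, π t = 0 → t ∈ Submodule.span 𝒪 (Set.range x))
    (v : Matrix ι ι 𝒪) (hv : ∀ i, ∑ j, v i j • x j ∈ RingHom.ker (π : T →+* 𝒪) ^ 2)
    (hdet : v.det ≠ 0)
    (hη : ∀ t : T, (∀ s, π s = 0 → t * s = 0) → ∃ c : 𝒪, π t = c * v.det) :
    Function.Injective φ := by
  obtain ⟨a, hdeg, hker, hconst⟩ := exists_poly_data π x hx hspan v hv
  have hd := constantCoeff_det_eq a v hconst
  refine injective_of_numerical_data φ hφ π hH1 x hx hspan 2 a hdeg hker (by rw [hd]; exact hdet) ?_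
  intro t ht
  rw [hd]
  apply hη t
  intro s hs
  have h2 := hspan s hs
  refine Submodule.span_induction (p := fun s _ => t * s = 0) ?_ ?_ ?_ ?_ h2
  · rintro _ ⟨j, rfl⟩
    exact ht j
  · simp
  · intro u w _ _ hu hw
    rw [mul_add, hu, hw, add_zero]
  · intro r u _ hu
    rw [mul_smul_comm, hu, smul_zero]

end Core

end Fermat.Agent.S59.H427
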