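import Fermat.Agent.S59.H427.Relations

/-!
# S59 / N1 (helper427): adapted generators of the augmentation ideal

For a finite algebra `T` over a DVR `𝒪` with augmentation `π` and finite cotangent module
`Φ = 𝔭 / 𝔭 ^ 2`, there is an `𝒪`-spanning family `x` of `𝔭 = ker π` with diagonal relations
`d i • x i ∈ 𝔭 ^ 2` such that `#(𝒪 / ∏ d i) = #Φ` (structure theorem over a PID).
-/

set_option autoImplicit false
set_option linter.unusedSectionVars false
open IsLocalRing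

namespace Fermat.Agent.S59.H427

universe u v

section Card
variable {𝒪 : Type u} [CommRing 𝒪] [IsDomain 𝒪] [IsDiscreteValuationRing 𝒪]

theorem card_quot_maximalIdeal_pow (E : ℕ) :
    Nat.card (𝒪 ⧸ (maximalIdeal 𝒪) ^ E) = Nat.card (𝒪 ⧸ maximalIdeal 𝒪) ^ E := by
  have h := cardQuot_pow_of_prime (P := maximalIdeal 𝒪)
    (IsDiscreteValuationRing.not_a_field 𝒪) (i := E)
  simpa [Submodule.cardQuot_apply] using h

theorem span_irreducible_pow {p : 𝒪} (hp : Irreducible p) (e : ℕ) :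
    Ideal.span {p ^ e} = maximalIdeal 𝒪 ^ e := by
  rw [← Ideal.span_singleton_pow, ← (IsDiscreteValuationRing.irreducible_iff_uniformizer p).mp hp]

/-- A finite module over a DVR is torsion. -/
theorem isTorsion_of_finite {M : Type*} [AddCommGroup M] [Module 𝒪 M] [Finite M] :
    Module.IsTorsion 𝒪 M := by
  intro x
  obtain ⟨ϖ, hϖ⟩ := IsDiscreteValuationRing.exists_irreducible 𝒪
  obtain ⟨k, l, hkl, he⟩ := Finite.exists_ne_map_eq_of_infinite (fun n : ℕ => ϖ ^ n • x)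
  have hne : ϖ ^ k - ϖ ^ l ≠ 0 := by
    intro h0
    exact hkl (pow_injective_of_not_isUnit hϖ.not_isUnit hϖ.ne_zero (sub_eq_zero.mp h0))
  refine ⟨⟨ϖ ^ k - ϖ ^ l, mem_nonZeroDivisors_of_ne_zero hne⟩, ?_⟩
  show (ϖ ^ k - ϖ ^ l) • x = 0
  rw [sub_smul, sub_eq_zero]
  exact he

/-- Generators and diagonal relations of a finite module over a DVR, with the order formula. -/
theorem exists_generators_of_finite {M : Type v} [AddCommGroup M] [Module 𝒪 M] [Finite M] :
    ∃ (κ : Type u) (_ : Fintype κ) (g : κ → M) (d : κ → 𝒪),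
      (∀ m : M, ∃ c : κ → 𝒪, m = ∑ i, c i • g i) ∧ (∀ i, d i • g i = 0) ∧ (∏ i, d i ≠ 0) ∧
      Nat.card (𝒪 ⧸ Ideal.span {∏ i, d i}) = Nat.card M := by
  classical
  have : Module.Finite 𝒪 M := Module.Finite.of_finite
  obtain ⟨κ, hκ, p, hp, e, ⟨E₀⟩⟩ :=
    Module.equiv_directSum_of_isTorsion (R := 𝒪) (M := M) isTorsion_of_finite
  let E : M ≃ₗ[𝒪] (∀ i : κ, 𝒪 ⧸ Ideal.span {p i ^ e i}) :=
    E₀.trans (DirectSum.linearEquivFunOnFintype 𝒪 κ fun i => 𝒪 ⧸ Ideal.span {p i ^ e i})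
  refine ⟨κ, hκ, fun i => E.symm (Pi.single i (Ideal.Quotient.mk _ 1)), fun i => p i ^ e i,
    ?_, ?_, ?_, ?_⟩
  · intro m
    have h1 : ∀ i, ∃ c : 𝒪, E m i = Ideal.Quotient.mk _ c := fun i =>
      (Ideal.Quotient.mk_surjective (E m i)).imp fun c hc => hc.symm
    choose c hc using h1
    refine ⟨c, ?_⟩
    apply E.injective
    rw [map_sum]
    simp only [map_smul, LinearEquiv.apply_symm_apply]
    funext i
    rw [Finset.sum_apply, hc i]
    rw [Finset.sum_eq_single i]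
    · simp only [Pi.smul_apply, Pi.single_eq_same]
      rw [Algebra.smul_def]
      simp
    · intro j _ hji
      simp [Ne.symm hji]
    · intro h
      exact absurd (Finset.mem_univ i) h
  · intro i
    rw [← map_smul]
    have : (p i ^ e i) • (Pi.single i (Ideal.Quotient.mk (Ideal.span {p i ^ e i}) 1) :
        ∀ i : κ, 𝒪 ⧸ Ideal.span {p i ^ e i}) = 0 := by
      rw [← Pi.single_smul]
      have : (p i ^ e i) • (Ideal.Quotient.mk (Ideal.span {p i ^ e i}) 1) = 0 := by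
        rw [Algebra.smul_def, map_one, mul_one]
        exact Ideal.Quotient.eq_zero_iff_mem.mpr (Ideal.mem_span_singleton_self _)
      rw [this, Pi.single_zero]
    rw [this, map_zero]
  · exact Finset.prod_ne_zero_iff.mpr fun i _ => pow_ne_zero _ (hp i).ne_zero
  · have h1 : Ideal.span {∏ i, p i ^ e i} = maximalIdeal 𝒪 ^ (∑ i, e i) := by
      rw [← Ideal.prod_span_singleton, ← Finset.prod_pow_eq_pow_sum]
      exact Finset.prod_congr rfl fun i _ => span_irreducible_pow (hp i) (e i)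
    rw [h1, card_quot_maximalIdeal_pow, Nat.card_congr E.toEquiv, Nat.card_pi,
      ← Finset.prod_pow_eq_pow_sum]
    refine Finset.prod_congr rfl fun i _ => ?_
    rw [span_irreducible_pow (hp i) (e i), card_quot_maximalIdeal_pow]

/-- **Adapted generators of the augmentation ideal.** -/
theorem exists_diag_relations {T : Type v} [CommRing T] [Algebra 𝒪 T] [Module.Finite 𝒪 T]
    (π : T →ₐ[𝒪] 𝒪) [Finite (RingHom.ker (π : T →+* 𝒪)).Cotangent] :
    ∃ (ι : Type u) (_ : Fintype ι) (x : ι → T) (d : ι → 𝒪),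
      (∀ i, π (x i) = 0) ∧ (∀ t, π t = 0 → t ∈ Submodule.span 𝒪 (Set.range x)) ∧
      (∀ i, d i • x i ∈ RingHom.ker (π : T →+* 𝒪) ^ 2) ∧ (∏ i, d i ≠ 0) ∧
      Nat.card (𝒪 ⧸ Ideal.span {∏ i, d i}) =
        Nat.card (RingHom.ker (π : T →+* 𝒪)).Cotangent := by
  classical
  set 𝔭 : Ideal T := RingHom.ker (π : T →+* 𝒪) with h𝔭
  have mem𝔭 : ∀ t : T, t ∈ 𝔭 ↔ π t = 0 := fun t => Iff.rfl
  obtain ⟨κ, hκ, g, d, hgen, hrel, hprod, hcard⟩ :=
    exists_generators_of_finite (𝒪 := 𝒪) (M := 𝔭.Cotangent)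
  choose xκ hxκ using fun i => 𝔭.toCotangent_surjective (g i)
  -- generators of `𝔭 ^ 2` over `𝒪`
  have hnoeth : IsNoetherian 𝒪 T := isNoetherian_of_isNoetherianRing_of_finite 𝒪 T
  have hfg : ((𝔭 ^ 2).restrictScalars 𝒪).FG := IsNoetherian.noetherian _
  obtain ⟨n, z, hz⟩ := Submodule.fg_iff_exists_fin_generating_family.mp hfg
  have hzmem : ∀ j, z j ∈ 𝔭 ^ 2 := by
    intro j
    have : z j ∈ (𝔭 ^ 2).restrictScalars 𝒪 := by
      rw [← hz]; exact Submodule.subset_span ⟨j, rfl⟩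
    exact this
  have hsq_le : 𝔭 ^ 2 ≤ 𝔭 := Ideal.pow_le_self two_ne_zero
  have hsmul : ∀ (c : 𝒪) (y : 𝔭), 𝔭.toCotangent (c • y) = c • 𝔭.toCotangent y :=
    fun c y => LinearMap.map_smul_of_tower _ c y
  refine ⟨κ ⊕ Fin n, inferInstance, Sum.elim (fun i => (xκ i : T)) z,
    Sum.elim d (fun _ => 1), ?_, ?_, ?_, ?_, ?_⟩
  · rintro (i | j)
    · exact (mem𝔭 _).mp (xκ i).2
    · exact (mem𝔭 _).mp (hsq_le (hzmem j))
  · intro t ht
    obtain ⟨c, hc⟩ := hgen (𝔭.toCotangent ⟨t, (mem𝔭 t).mpr ht⟩)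
    have h1 : 𝔭.toCotangent ⟨t, (mem𝔭 t).mpr ht⟩ = 𝔭.toCotangent (∑ i, c i • xκ i) := by
      rw [hc, map_sum]
      exact Finset.sum_congr rfl fun i _ => by rw [hsmul, hxκ]
    rw [Ideal.toCotangent_eq] at h1
    have h2 : t - ∑ i, c i • (xκ i : T) ∈ Submodule.span 𝒪 (Set.range z) := by
      rw [hz]
      show t - ∑ i, c i • (xκ i : T) ∈ 𝔭 ^ 2
      convert h1 using 2
      simp
    have h3 : Set.range z ⊆ Set.range (Sum.elim (fun i => (xκ i : T)) z) := by
      rintro _ ⟨j, rfl⟩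
      exact ⟨Sum.inr j, rfl⟩
    have h4 : t = (t - ∑ i, c i • (xκ i : T)) + ∑ i, c i • (xκ i : T) := by ring
    rw [h4]
    refine Submodule.add_mem _ (Submodule.span_mono h3 h2) (Submodule.sum_mem _ fun i _ => ?_)
    exact Submodule.smul_mem _ _ (Submodule.subset_span ⟨Sum.inl i, rfl⟩)
  · rintro (i | j)
    · simp only [Sum.elim_inl]
      have h1 : 𝔭.toCotangent (d i • xκ i) = 0 := by rw [hsmul, hxκ, hrel]
      rw [Ideal.toCotangent_eq_zero] at h1
      exact h1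
    · simp only [Sum.elim_inr, one_smul]
      exact hzmem j
  · rw [Fintype.prod_sum_type]
    simpa using hprod
  · rw [Fintype.prod_sum_type]
    simpa using hcard

end Card
end Fermat.Agent.S59.H427
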