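import Fermat.Agent.S59.H427.TatePS

/-!
# S59 / N1 (helper427): Tate's formula for complete intersections, centered case

`O` a discrete valuation ring with finite residue field, `T` a finite free local `O`-algebra with
an augmentation `π : T → O`, presented as `T = O⟦X₁,…,Xₙ⟧ / (f₁,…,fₙ)` with the variables mapping
into `ker π`.  If `Φ = ker π / (ker π)²` is finite, then `η = π (Ann (ker π)) ≠ 0` and
`#Φ = #(O / η)`.
-/

set_option autoImplicit false
set_option linter.unusedSectionVars false
set_option linter.unusedVariables false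
set_option linter.style.haveILetI false

namespace Fermat.Agent.S59.H427

open IsLocalRing MvPowerSeries Fermat.Agent.S59.H67

section Nilp

/-- In a finite local algebra over a local ring, a power of the maximal ideal lies in `𝔪_O T`. -/
theorem exists_maximalIdeal_pow_le_map {O T : Type*} [CommRing O] [IsLocalRing O] [CommRing T]
    [IsLocalRing T] [Algebra O T] [Module.Finite O T] :
    ∃ a : ℕ, maximalIdeal T ^ a ≤ Ideal.map (algebraMap O T) (maximalIdeal O) := by
  letI : Field (O ⧸ maximalIdeal O) := Ideal.Quotient.field _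
  have h1 : Module.Finite (O ⧸ maximalIdeal O)
      (T ⧸ Ideal.map (algebraMap O T) (maximalIdeal O)) :=
    Module.Finite.of_restrictScalars_finite O _ _
  have h2 : IsArtinianRing (T ⧸ Ideal.map (algebraMap O T) (maximalIdeal O)) :=
    IsArtinianRing.of_finite (O ⧸ maximalIdeal O) _
  exact exists_maximalIdeal_pow_le_of_isArtinianRing_quotient _

end Nilp

section Generic

variable {O : Type*} [CommRing O] [IsDomain O] [IsDiscreteValuationRing O]
variable {T : Type*} [CommRing T] [Algebra O T] [Module.Free O T]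

/-- If `θ ∈ Ann (ker π)` is not divisible by the uniformizer in `T` and `η ≠ 0`, then
`η = (π θ)` and `π θ ≠ 0`. -/
theorem etaIdeal_eq_span_of_not_dvd (π : T →ₐ[O] O) (hη : etaIdeal π ≠ ⊥) {ϖ : O}
    (hϖ : Irreducible ϖ) {θ : T} (hθ : θ ∈ (RingHom.ker π).annihilator)
    (hprim : ∀ t : T, θ ≠ ϖ • t) :
    π θ ≠ 0 ∧ etaIdeal π = Ideal.span {π θ} := by
  have hmax : maximalIdeal O = Ideal.span {ϖ} :=
    (IsDiscreteValuationRing.irreducible_iff_uniformizer ϖ).mp hϖ
  -- the key relation
  have key : ∀ t ∈ (RingHom.ker π).annihilator, π θ • t = π t • θ := by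
    intro t ht
    refine Fermat.Agent.S59.H360.eq_of_mem_annihilator_of_map_eq π hη
      (Submodule.smul_of_tower_mem _ _ ht) (Submodule.smul_of_tower_mem _ _ hθ) ?_
    rw [map_smul, map_smul, smul_eq_mul, smul_eq_mul, mul_comm]
  have hθ0 : π θ ≠ 0 := by
    intro h0
    obtain ⟨w, hw, hπw⟩ : ∃ w ∈ (RingHom.ker π).annihilator, π w ≠ 0 := by
      by_contra hcon
      push Not at hcon
      apply hη
      rw [etaIdeal, Ideal.map_eq_bot_iff_le_ker]
      intro w hw
      exact RingHom.mem_ker.mpr (hcon w hw)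
    have h1 := key w hw
    rw [h0, zero_smul] at h1
    have h2 : θ = 0 := (smul_eq_zero.mp h1.symm).resolve_left hπw
    exact hprim 0 (by rw [h2, smul_zero])
  refine ⟨hθ0, le_antisymm ?_ ?_⟩
  · rw [etaIdeal, Ideal.map_le_iff_le_comap]
    intro t ht
    rw [Ideal.mem_comap, Ideal.mem_span_singleton]
    show π θ ∣ π t
    by_cases hπt : π t = 0
    · rw [hπt]; exact dvd_zero _
    obtain ⟨k, u, hk⟩ := IsDiscreteValuationRing.eq_unit_mul_pow_irreducible hπt hϖ
    obtain ⟨m, u', hm⟩ := IsDiscreteValuationRing.eq_unit_mul_pow_irreducible hθ0 hϖ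
    rcases le_or_gt m k with hmk | hkm
    · refine ⟨(↑u'⁻¹ : O) * u * ϖ ^ (k - m), ?_⟩
      rw [hk, hm]
      have : ϖ ^ k = ϖ ^ m * ϖ ^ (k - m) := by rw [← pow_add, Nat.add_sub_cancel' hmk]
      rw [this]
      have hu : (u' : O) * (↑u'⁻¹ : O) = 1 := Units.mul_inv u'
      linear_combination (-(↑u : O) * ϖ ^ m * ϖ ^ (k - m)) * hu
    · exfalso
      -- `π θ = π t * ϖ * c`
      obtain ⟨d, hd⟩ : ∃ d, m = k + 1 + d := ⟨m - k - 1, by omega⟩
      have h1 : π θ = π t * (ϖ * ((↑u⁻¹ : O) * u' * ϖ ^ d)) := by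
        rw [hk, hm, hd]
        have hu : (u : O) * (↑u⁻¹ : O) = 1 := Units.mul_inv u
        rw [pow_add, pow_add, pow_one]
        linear_combination (-(↑u' : O) * ϖ ^ k * ϖ * ϖ ^ d) * hu
      have h2 := key t ht
      rw [h1, mul_smul] at h2
      have h3 : (ϖ * ((↑u⁻¹ : O) * u' * ϖ ^ d)) • t = θ :=
        smul_right_injective T hπt h2
      exact hprim (((↑u⁻¹ : O) * u' * ϖ ^ d) • t) (by rw [← h3, mul_smul])
  · rw [Ideal.span_le, Set.singleton_subset_iff]
    exact Ideal.mem_map_of_mem _ hθ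

end Generic

end Fermat.Agent.S59.H427
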