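import Fermat.Agent.S59.H427.LenDet
import Fermat.Agent.S59.H67.TateNonvanish
import Fermat.Agent.S53.H596.PowerSeriesCNL

/-!
# S59 / N1 (helper427): Tate's formula, preliminaries

* `exists_sum_mul_X_of_constantCoeff_eq_zero`: a power series (finitely many variables) with
  zero constant term is a combination of the variables.
* `aug_eq_constantCoeff`: an augmentation `χ : O⟦X⟧ → O` killing the variables is the constant
  coefficient.
* `exists_pow_mem_span_uniformizer`: in a finite local algebra `T` over a DVR `O` with finite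
  residue field, a power of the maximal ideal lies in `ϖ T`.
-/

set_option autoImplicit false
set_option linter.unusedSectionVars false

namespace Fermat.Agent.S59.H427

open IsLocalRing MvPowerSeries

section PS

variable {A : Type*} [CommRing A] {n : ℕ}

/-- A power series with zero constant term is a combination of the variables. -/
theorem exists_sum_mul_X_of_constantCoeff_eq_zero (g : MvPowerSeries (Fin n) A)
    (hg : constantCoeff g = 0) :
    ∃ h : Fin n → MvPowerSeries (Fin n) A, g = ∑ j, h j * X j := by
  have h1 := Fermat.Agent.S53.H596.sub_truncTotal_mem_span_X_pow 1 g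
  have h2 : ((truncTotal 1 g : MvPolynomial (Fin n) A) : MvPowerSeries (Fin n) A) = 0 := by
    ext e
    rw [MvPolynomial.coeff_coe, coeff_truncTotal_eq_ite, map_zero]
    split_ifs with he
    · have he0 : e = 0 := (Finsupp.degree_eq_zero_iff e).mp (by omega)
      subst he0
      rw [coeff_zero_eq_constantCoeff_apply, hg]
    · rfl
  rw [h2, sub_zero, pow_one] at h1
  obtain ⟨c, hc⟩ := (Ideal.mem_span_range_iff_exists_fun).mp h1
  exact ⟨c, hc.symm⟩

/-- Every power series is its constant term plus a combination of the variables. -/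
theorem exists_eq_C_add_sum_mul_X (g : MvPowerSeries (Fin n) A) :
    ∃ h : Fin n → MvPowerSeries (Fin n) A, g = C (constantCoeff g) + ∑ j, h j * X j := by
  obtain ⟨h, hh⟩ := exists_sum_mul_X_of_constantCoeff_eq_zero (g - C (constantCoeff g))
    (by rw [map_sub, constantCoeff_C, sub_self])
  exact ⟨h, by rw [← hh]; ring⟩

end PS

section Aug

variable {O : Type*} [CommRing O] {T : Type*} [CommRing T] [Algebra O T] {n : ℕ}

/-- If `π ∘ ψ` kills the variables, it is the constant coefficient. -/
theorem aug_eq_constantCoeff (π : T →ₐ[O] O) (ψ : MvPowerSeries (Fin n) O →ₐ[O] T)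
    (hcent : ∀ i, π (ψ (X i)) = 0) (g : MvPowerSeries (Fin n) O) :
    π (ψ g) = constantCoeff g := by
  obtain ⟨h, hh⟩ := exists_eq_C_add_sum_mul_X g
  conv_lhs => rw [hh]
  rw [map_add, map_add, map_sum, map_sum]
  have h1 : ∀ j, π (ψ (h j * X j)) = 0 := fun j => by
    rw [map_mul, map_mul, hcent j, mul_zero]
  rw [Finset.sum_eq_zero (fun j _ => h1 j), add_zero]
  have h2 : (C (constantCoeff g) : MvPowerSeries (Fin n) O) =
      algebraMap O (MvPowerSeries (Fin n) O) (constantCoeff g) := rfl
  rw [h2, AlgHom.commutes, AlgHom.commutes]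
  rfl

/-- The kernel of a centered augmentation is generated by the images of the variables. -/
theorem ker_aug_eq_span (π : T →ₐ[O] O) (ψ : MvPowerSeries (Fin n) O →ₐ[O] T)
    (hψ : Function.Surjective ψ) (hcent : ∀ i, π (ψ (X i)) = 0) :
    RingHom.ker π = Ideal.span (Set.range fun i => ψ (X i)) := by
  apply le_antisymm
  · intro t ht
    obtain ⟨g, rfl⟩ := hψ t
    have h0 : constantCoeff g = 0 := by
      rw [← aug_eq_constantCoeff π ψ hcent g]; exact ht
    obtain ⟨h, hh⟩ := exists_sum_mul_X_of_constantCoeff_eq_zero g h0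
    rw [hh, map_sum]
    refine Ideal.sum_mem _ fun j _ => ?_
    rw [map_mul]
    exact Ideal.mul_mem_left _ _ (Ideal.subset_span ⟨j, rfl⟩)
  · rw [Ideal.span_le]
    rintro _ ⟨i, rfl⟩
    exact hcent i

end Aug

end Fermat.Agent.S59.H427
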